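import Fermat.Agent.S14.Ext

set_option autoImplicit false

/-!
# S14 / EXTG: transitivity of Galois on fibres, `e f g = [M : K]`, residue degree one, norms
-/

namespace Fermat.Agent.S14

open IsDedekindDomain NumberField

variable {K : Type*} {M : Type*} [Field K] [NumberField K] [Field M] [NumberField M] [Algebra K M]

/-- Galois acts transitively on the places above a place of `K`. -/
lemma exists_tauPl_eq [IsGalois K M] {w w' : Pl M} (h : below K w = below K w') :
    ∃ τ : M ≃ₐ[K] M, tauPl K τ w = w' := by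
  have := w.isPrime
  have := w'.isPrime
  have : w'.asIdeal.LiesOver (below K w).asIdeal := by rw [h]; infer_instance
  obtain ⟨σ, hσ⟩ := Ideal.exists_smul_eq_of_isGaloisGroup (below K w).asIdeal
    w.asIdeal w'.asIdeal (M ≃ₐ[K] M)
  refine ⟨σ, ?_⟩
  ext a
  rw [← hσ]
  unfold tauPl
  rw [sigmaPl_asIdeal]
  rfl

lemma primesOver_eq_image_fiber (v : Pl K) :
    v.asIdeal.primesOver (𝓞 M) = (fun w : Pl M => w.asIdeal) '' (fiber M v : Set (Pl M)) := by
  ext P
  constructor
  · rintro ⟨hP, hPv⟩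
    have hne : P ≠ ⊥ := by
      rintro rfl
      apply v.ne_bot
      rw [hPv.over, Ideal.under_def]
      exact (RingHom.injective_iff_ker_eq_bot _).mp
        (FaithfulSMul.algebraMap_injective (𝓞 K) (𝓞 M))
    refine ⟨⟨P, hP, hne⟩, ?_, rfl⟩
    rw [Finset.mem_coe, mem_fiber]
    apply HeightOneSpectrum.ext
    rw [below_asIdeal]
    exact hPv.over.symm
  · rintro ⟨w, hw, rfl⟩
    rw [Finset.mem_coe, mem_fiber] at hw
    refine ⟨w.isPrime, ⟨?_⟩⟩
    rw [← below_asIdeal, hw]

lemma ncard_primesOver_eq_card_fiber (v : Pl K) :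
    (v.asIdeal.primesOver (𝓞 M)).ncard = (fiber M v).card := by
  rw [primesOver_eq_image_fiber, Set.ncard_image_of_injective _
    (fun _ _ h => HeightOneSpectrum.ext h), Set.ncard_coe_finset]

/-- `e f g = [M : K]` for a Galois extension. -/
lemma card_fiber_mul_ram_mul_resdeg [IsGalois K M] (w : Pl M) :
    (fiber M (below K w)).card * (ram K w * resdeg K w) = Module.finrank K M := by
  have := w.isPrime
  have := (below K w).isPrime
  have h := Ideal.ncard_primesOver_mul_ramificationIdxIn_mul_inertiaDegIn (below K w).asIdeal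
    (𝓞 M) (M ≃ₐ[K] M)
  rw [Ideal.ramificationIdxIn_eq_ramificationIdx (below K w).asIdeal w.asIdeal (M ≃ₐ[K] M),
    Ideal.inertiaDegIn_eq_inertiaDeg (below K w).asIdeal w.asIdeal (M ≃ₐ[K] M),
    ncard_primesOver_eq_card_fiber, IsGalois.card_aut_eq_finrank] at h
  exact h

/-- residue degree one: every `w`-integral element of `M` is congruent mod `w` to a
`v`-integral element of `K`. -/
lemma exists_sub_valuation_lt_one_of_resdeg_eq_one {w : Pl M} (h : resdeg K w = 1) {z : M}
    (hz : w.valuation M z ≤ 1) :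
    ∃ r : K, (below K w).valuation K r ≤ 1 ∧ w.valuation M (z - algebraMap K M r) < 1 := by
  obtain ⟨b, hb⟩ := w.exists_valuation_sub_lt_of_integer (K := M) hz 1
  have hwmax := w.isMaximal
  have hvmax := (below K w).isMaximal
  have h1 : Module.finrank (𝓞 K ⧸ (below K w).asIdeal) (𝓞 M ⧸ w.asIdeal) = 1 := by
    rw [← Ideal.inertiaDeg_eq_of_isMaximal (below K w).asIdeal w.asIdeal]
    exact h
  let _ := Ideal.Quotient.field (below K w).asIdeal
  let _ := Ideal.Quotient.field w.asIdeal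
  have h2 := Subalgebra.bot_eq_top_of_finrank_eq_one h1
  have h3 : Ideal.Quotient.mk w.asIdeal b ∈
      (⊥ : Subalgebra (𝓞 K ⧸ (below K w).asIdeal) (𝓞 M ⧸ w.asIdeal)) := by
    rw [h2]; trivial
  obtain ⟨r', hr'⟩ := Algebra.mem_bot.mp h3
  obtain ⟨r, rfl⟩ := Ideal.Quotient.mk_surjective r'
  refine ⟨(r : K), (below K w).valuation_le_one r, ?_⟩
  have h4 : b - algebraMap (𝓞 K) (𝓞 M) r ∈ w.asIdeal := by
    rw [← Ideal.Quotient.eq_zero_iff_mem, map_sub, sub_eq_zero, ← hr']
    rfl
  have h5 : w.valuation M ((b - algebraMap (𝓞 K) (𝓞 M) r : 𝓞 M) : M) < 1 :=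
    (w.valuation_lt_one_iff_mem (K := M) _).mpr h4
  have h6 : z - algebraMap K M (r : K) =
      (z - (b : M)) + ((b - algebraMap (𝓞 K) (𝓞 M) r : 𝓞 M) : M) := by
    have h7 : ((b - algebraMap (𝓞 K) (𝓞 M) r : 𝓞 M) : M) = (b : M) - algebraMap K M (r : K) := rfl
    rw [h7]
    ring
  rw [h6]
  refine lt_of_le_of_lt (Valuation.map_add _ _ _) (max_lt ?_ h5)
  rw [Valuation.map_sub_swap]
  simpa using hb

/-- The absolute norm of `w`. -/
lemma absNorm_eq_pow_resdeg (w : Pl M) :
    Ideal.absNorm w.asIdeal = Ideal.absNorm (below K w).asIdeal ^ resdeg K w :=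
  absNorm_eq_pow_resdeg' w

end Fermat.Agent.S14
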