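import Fermat.Agent.S14.Kummer
import Fermat.Agent.S14.ExtGalois

set_option autoImplicit false
set_option linter.unusedSectionVars false

/-!
# S14 / KUM-PL: the trichotomy `e f g = p` for the places of a Kummer extension, norms
-/

namespace Fermat.Agent.S14

open IsDedekindDomain NumberField Finset

section places

variable {p : ℕ} [Fact p.Prime] {K M : Type*} [Field K] [NumberField K] [Field M] [NumberField M]
  [Algebra K M] {ζ y : K} {B : M} {τ : M ≃ₐ[K] M}

namespace IsKummer

/-- `τ` acts transitively on the places above a place of `K`. -/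
lemma exists_tau_pow_eq (h : IsKummer p ζ y B τ) {w w' : Pl M} (hw : below K w = below K w') :
    ∃ i, i < p ∧ tauPl K (τ ^ i) w = w' := by
  have := h.isGalois
  obtain ⟨σ, hσ⟩ := exists_tauPl_eq hw
  obtain ⟨i, hi, rfl⟩ := h.gen σ
  exact ⟨i, hi, hσ⟩

lemma tauPl_pow_eq_of_eq (_h : IsKummer p ζ y B τ) {w : Pl M} (hw : tauPl K τ w = w) (i : ℕ) :
    tauPl K (τ ^ i) w = w := by
  rw [tauPl_pow]
  exact Function.iterate_fixed hw i

lemma fiber_eq_singleton (h : IsKummer p ζ y B τ) {w : Pl M} (hw : tauPl K τ w = w) :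
    fiber M (below K w) = {w} := by
  ext w'
  rw [mem_fiber, Finset.mem_singleton]
  constructor
  · intro hw'
    obtain ⟨i, -, hi⟩ := h.exists_tau_pow_eq hw'.symm
    rw [h.tauPl_pow_eq_of_eq hw] at hi
    exact hi.symm
  · rintro rfl; rfl

/-- `e f g = p`. -/
lemma card_fiber_mul (h : IsKummer p ζ y B τ) (w : Pl M) :
    (fiber M (below K w)).card * (ram K w * resdeg K w) = p := by
  have := h.isGalois
  rw [card_fiber_mul_ram_mul_resdeg, h.finrank_eq]

lemma card_fiber_eq (h : IsKummer p ζ y B τ) {w : Pl M} (hw : tauPl K τ w ≠ w) :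
    (fiber M (below K w)).card = p := by
  have hp : p.Prime := Fact.out
  have hdvd : (fiber M (below K w)).card ∣ p := Dvd.intro _ (h.card_fiber_mul w)
  rcases (Nat.dvd_prime hp).1 hdvd with h1 | h1
  · exfalso
    obtain ⟨a, ha⟩ := Finset.card_eq_one.1 h1
    have e1 : w ∈ fiber M (below K w) := mem_fiber.2 rfl
    have e2 : tauPl K τ w ∈ fiber M (below K w) := mem_fiber.2 (below_tauPl τ w)
    rw [ha, Finset.mem_singleton] at e1 e2
    exact hw (e2.trans e1.symm)
  · exact h1

/-- `g = p`. -/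
lemma ram_resdeg_of_ne (h : IsKummer p ζ y B τ) {w : Pl M} (hw : tauPl K τ w ≠ w) :
    ram K w = 1 ∧ resdeg K w = 1 := by
  have hp : p.Prime := Fact.out
  have h1 := h.card_fiber_mul w
  rw [h.card_fiber_eq hw] at h1
  have h2 : ram K w * resdeg K w = 1 := by
    have : p * (ram K w * resdeg K w) = p * 1 := by rw [h1, mul_one]
    exact Nat.eq_of_mul_eq_mul_left hp.pos this
  exact mul_eq_one.1 h2

/-- `f = p`. -/
lemma of_resdeg_ne_one (h : IsKummer p ζ y B τ) {w : Pl M} (hw : resdeg K w ≠ 1) :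
    resdeg K w = p ∧ ram K w = 1 ∧ tauPl K τ w = w := by
  have hp : p.Prime := Fact.out
  have h1 := h.card_fiber_mul w
  have hdvd : resdeg K w ∣ p := ⟨(fiber M (below K w)).card * ram K w, by rw [← h1]; ring⟩
  have hf : resdeg K w = p := ((Nat.dvd_prime hp).1 hdvd).resolve_left hw
  have hτ : tauPl K τ w = w := by
    by_contra hne
    exact hw (h.ram_resdeg_of_ne hne).2
  refine ⟨hf, ?_, hτ⟩
  rw [hf] at h1
  have h2 : ((fiber M (below K w)).card * ram K w) * p = 1 * p := by
    rw [one_mul, mul_assoc]; exact h1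
  exact (mul_eq_one.1 (Nat.eq_of_mul_eq_mul_right hp.pos h2)).2

/-- `e = p`. -/
lemma of_ram_ne_one (h : IsKummer p ζ y B τ) {w : Pl M} (hw : ram K w ≠ 1) :
    ram K w = p ∧ resdeg K w = 1 ∧ tauPl K τ w = w := by
  have hp : p.Prime := Fact.out
  have h1 := h.card_fiber_mul w
  have hdvd : ram K w ∣ p := ⟨(fiber M (below K w)).card * resdeg K w, by rw [← h1]; ring⟩
  have hf : ram K w = p := ((Nat.dvd_prime hp).1 hdvd).resolve_left hw
  have hτ : tauPl K τ w = w := by
    by_contra hne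
    exact hw (h.ram_resdeg_of_ne hne).1
  refine ⟨hf, ?_, hτ⟩
  rw [hf] at h1
  have h2 : ((fiber M (below K w)).card * resdeg K w) * p = 1 * p := by
    rw [one_mul, mul_assoc, mul_comm (resdeg K w) p]; exact h1
  exact (mul_eq_one.1 (Nat.eq_of_mul_eq_mul_right hp.pos h2)).2

/-- `e * ord_v (N z) = ∑ ord_w (τ^i z)`. -/
lemma ram_mul_ord_norm_eq_sum (h : IsKummer p ζ y B τ) (w : Pl M) {z : M} (hz : z ≠ 0) :
    (ram K w : ℤ) * ord (below K w) (Algebra.norm K z) = ∑ i ∈ range p, ord w ((τ ^ i) z) := by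
  rw [← ord_algebraMap, h.algebraMap_norm, ord_prod]
  intro i _
  exact (map_ne_zero _).2 hz

/-- the valuation of a norm at a place with a single place above it. -/
lemma ram_mul_ord_norm (h : IsKummer p ζ y B τ) {w : Pl M} (hw : tauPl K τ w = w) {z : M}
    (hz : z ≠ 0) : (ram K w : ℤ) * ord (below K w) (Algebra.norm K z) = p * ord w z := by
  rw [h.ram_mul_ord_norm_eq_sum w hz]
  have : ∀ i ∈ range p, ord w ((τ ^ i) z) = ord w z := by
    intro i _
    exact ord_apply_of_tauPl_eq (h.tauPl_pow_eq_of_eq hw i) z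
  rw [Finset.sum_congr rfl this]
  simp

/-- a norm of an element which is a unit at all places above `v` is a unit at `v`. -/
lemma ord_norm_eq_zero (h : IsKummer p ζ y B τ) {v : Pl K} {z : M} (hz : z ≠ 0)
    (hw : ∀ w : Pl M, below K w = v → ord w z = 0) : ord v (Algebra.norm K z) = 0 := by
  obtain ⟨w, rfl⟩ := exists_below_eq (M := M) v
  have h1 := h.ram_mul_ord_norm_eq_sum w hz
  have h2 : ∀ i ∈ range p, ord w ((τ ^ i) z) = 0 := by
    intro i _
    have h3 := ord_tauPl_symm (τ ^ i).symm w z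
    rw [AlgEquiv.symm_symm] at h3
    rw [← h3]
    exact hw _ (below_tauPl _ w)
  rw [Finset.sum_eq_zero h2] at h1
  have hpos : (ram K w : ℤ) ≠ 0 := by exact_mod_cast (ram_pos w).ne'
  exact (mul_eq_zero.1 h1).resolve_left hpos

end IsKummer

end places

end Fermat.Agent.S14
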