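import Fermat.Agent.S14.Approx

set_option autoImplicit false

/-!
# S14 / LAM: the place above `p` of `K = ℚ(ζ_p)`
-/

namespace Fermat.Agent.S14

open IsDedekindDomain NumberField

lemma lam_lt_exp_iff (x : WithZero (Multiplicative ℤ)) (n : ℤ) :
    x < WithZero.exp n ↔ x ≤ WithZero.exp (n - 1) := by
  rcases eq_or_ne x 0 with rfl | hx
  · simp [zero_lt_iff]
  · rw [← WithZero.log_lt_iff_lt_exp hx, ← WithZero.log_le_iff_le_exp hx]; omega

section digits

variable {p : ℕ} [Fact p.Prime] {F : Type*} [Field F] [NumberField F]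

/-- If the residue field at `v` has `p` elements, every integer is congruent to a natural
number `< p`. -/
lemma lam_exists_nat_sub_mem (v : Pl F) (hN : Ideal.absNorm v.asIdeal = p) (hpv : Above p v)
    (a : 𝓞 F) : ∃ t : ℕ, t < p ∧ a - (t : 𝓞 F) ∈ v.asIdeal := by
  have hp : p.Prime := Fact.out
  have hcard : Nat.card (𝓞 F ⧸ v.asIdeal) = p := by
    rw [← hN, Ideal.absNorm_apply, Submodule.cardQuot_apply]
  have h1 : (1 : 𝓞 F ⧸ v.asIdeal) ≠ 0 := by
    have : Nontrivial (𝓞 F ⧸ v.asIdeal) := Ideal.Quotient.nontrivial_iff.mpr v.isPrime.ne_top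
    exact one_ne_zero
  have htop := zmultiples_eq_top_of_prime_card hcard h1
  have hmem : (Ideal.Quotient.mk v.asIdeal a) ∈ AddSubgroup.zmultiples (1 : 𝓞 F ⧸ v.asIdeal) := by
    rw [htop]; trivial
  obtain ⟨k, hk⟩ := AddSubgroup.mem_zmultiples_iff.mp hmem
  have hpz : (p : ℤ) ≠ 0 := by exact_mod_cast hp.ne_zero
  have hppos : (0 : ℤ) < p := by exact_mod_cast hp.pos
  refine ⟨(k % p).toNat, ?_, ?_⟩
  · have := Int.emod_lt_of_pos k hppos
    have h0 := Int.emod_nonneg k hpz
    omega
  · have h0 := Int.emod_nonneg k hpz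
    have hk' : a - (k : 𝓞 F) ∈ v.asIdeal := by
      rw [← Ideal.Quotient.eq, ← hk]
      simp
    have hcast : (((k % p).toNat : ℕ) : 𝓞 F) = ((k % p : ℤ) : 𝓞 F) := by
      rw [← Int.cast_natCast, Int.toNat_of_nonneg h0]
    rw [hcast]
    have : a - ((k % p : ℤ) : 𝓞 F) = (a - (k : 𝓞 F)) + (p : 𝓞 F) * ((k / p : ℤ) : 𝓞 F) := by
      have := Int.mul_ediv_add_emod k p
      have h2 : (k : 𝓞 F) = (p : 𝓞 F) * ((k / p : ℤ) : 𝓞 F) + ((k % p : ℤ) : 𝓞 F) := by
        exact_mod_cast congrArg (fun z : ℤ => (z : 𝓞 F)) this.symm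
      rw [h2]; ring
    rw [this]
    exact Ideal.add_mem _ hk' (Ideal.mul_mem_right _ _ hpv)

/-- one digit -/
lemma lam_exists_digit (v : Pl F) (hN : Ideal.absNorm v.asIdeal = p) (hpv : Above p v)
    (z : F) (hz : v.valuation F z ≤ 1) :
    ∃ t : ℕ, t < p ∧ v.valuation F (z - (t : F)) < 1 := by
  obtain ⟨a, ha⟩ := v.exists_valuation_sub_lt_of_integer (K := F) hz 1
  obtain ⟨t, ht, hat⟩ := lam_exists_nat_sub_mem v hN hpv a
  refine ⟨t, ht, ?_⟩
  have h1 : v.valuation F ((a - (t : 𝓞 F) : 𝓞 F) : F) < 1 :=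
    (v.valuation_lt_one_iff_mem _).mpr hat
  have h2 : z - (t : F) = ((a - (t : 𝓞 F) : 𝓞 F) : F) - (algebraMap (𝓞 F) F a - z) := by
    simp
  rw [h2]
  exact lt_of_le_of_lt (Valuation.map_sub _ _ _) (max_lt h1 (by simpa using ha))

/-- `m` digits after the leading `1` -/
lemma lam_exists_digits (v : Pl F) (hN : Ideal.absNorm v.asIdeal = p) (hpv : Above p v)
    (l : F) (hl : v.valuation F l = WithZero.exp (-1 : ℤ)) (m : ℕ) (z : F)
    (hz : v.valuation F (z - 1) < 1) :
    ∃ a : Fin m → Fin p, v.valuation F (z - (1 + ∑ k : Fin m, ((a k : ℕ) : F) * l ^ ((k : ℕ) + 1)))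
      ≤ WithZero.exp (-((m : ℤ) + 1)) := by
  have hp : p.Prime := Fact.out
  have hl0 : l ≠ 0 := by
    intro h; rw [h, map_zero] at hl; exact WithZero.exp_ne_zero.symm hl
  induction m with
  | zero =>
    refine ⟨Fin.elim0, ?_⟩
    simp only [Finset.univ_eq_empty, Finset.sum_empty, add_zero, Nat.cast_zero, zero_add]
    have := (lam_lt_exp_iff _ 0).mp (by simpa using hz)
    simpa using this
  | succ m ih =>
    obtain ⟨a, ha⟩ := ih
    set b : F := 1 + ∑ k : Fin m, ((a k : ℕ) : F) * l ^ ((k : ℕ) + 1) with hb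
    set w : F := (z - b) / l ^ (m + 1) with hw
    have hlm : v.valuation F (l ^ (m + 1)) = WithZero.exp (-((m : ℤ) + 1)) := by
      rw [map_pow, hl, ← WithZero.exp_nsmul]; congr 1; ring
    have hw1 : v.valuation F w ≤ 1 := by
      rw [hw, map_div₀, hlm]
      exact div_le_one_of_le₀ ha zero_le
    obtain ⟨t, ht, htw⟩ := lam_exists_digit v hN hpv w hw1
    refine ⟨Fin.snoc a ⟨t, ht⟩, ?_⟩
    rw [Fin.sum_univ_castSucc]
    simp only [Fin.snoc_castSucc, Fin.snoc_last, Fin.val_castSucc, Fin.val_last]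
    have : z - (1 + (∑ k : Fin m, ((a k : ℕ) : F) * l ^ ((k : ℕ) + 1) + (t : F) * l ^ (m + 1)))
        = l ^ (m + 1) * (w - t) := by
      rw [hw, hb]; field_simp; ring
    rw [this, map_mul, hlm]
    have h1 := (lam_lt_exp_iff _ 0).mp (by simpa using htw)
    calc WithZero.exp (-((m : ℤ) + 1)) * v.valuation F (w - t)
        ≤ WithZero.exp (-((m : ℤ) + 1)) * WithZero.exp (0 - 1) := by gcongr
      _ = WithZero.exp (-(((m + 1 : ℕ) : ℤ) + 1)) := by
          rw [← WithZero.exp_add, WithZero.exp_inj]; push_cast; ring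

end digits

section main

variable {p : ℕ} [Fact p.Prime] {F : Type*} [Field F] [NumberField F]

/-- abstract version of `lam_index_le`: a place above `p` with residue field `𝔽_p` and a
uniformiser `l`. -/
theorem lam_index_le_aux (v : Pl F) (hN : Ideal.absNorm v.asIdeal = p) (hpv : Above p v)
    (l : F) (hl : v.valuation F l = WithZero.exp (-1 : ℤ)) :
    ∃ R : Finset F, R.card ≤ p ^ p ∧ (∀ r ∈ R, r ≠ 0) ∧
      ∀ x : F, x ≠ 0 → ∃ r ∈ R, LocPow p v p (x / r) := by
  classical
  have hp : p.Prime := Fact.out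
  have hl0 : l ≠ 0 := by
    intro h; rw [h, map_zero] at hl; exact WithZero.exp_ne_zero.symm hl
  have hordl : ord v l = 1 := by
    rw [ord, hl, WithZero.log_exp]; ring
  -- the value of a digit expansion
  let B : (Fin (p - 1) → Fin p) → F :=
    fun a => 1 + ∑ k : Fin (p - 1), ((a k : ℕ) : F) * l ^ ((k : ℕ) + 1)
  have hnat : ∀ t : ℕ, v.valuation F (t : F) ≤ 1 := by
    intro t
    have := v.valuation_le_one (K := F) (t : 𝓞 F)
    simpa using this
  have hB1 : ∀ a, v.valuation F (B a - 1) < 1 := by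
    intro a
    have : B a - 1 = ∑ k : Fin (p - 1), ((a k : ℕ) : F) * l ^ ((k : ℕ) + 1) := by
      simp [B]
    rw [this]
    refine Valuation.map_sum_lt _ one_ne_zero ?_
    intro k _
    rw [map_mul, map_pow, hl]
    calc v.valuation F ((a k : ℕ) : F) * WithZero.exp (-1 : ℤ) ^ ((k : ℕ) + 1)
        ≤ 1 * WithZero.exp (-1 : ℤ) ^ ((k : ℕ) + 1) := by gcongr; exact hnat _
      _ < 1 := by
          rw [one_mul, ← WithZero.exp_nsmul, ← WithZero.exp_zero, WithZero.exp_lt_exp]
          simp; omega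
  have hBv : ∀ a, v.valuation F (B a) = 1 := by
    intro a
    have := Valuation.map_add_eq_of_lt_right (v.valuation F) (x := B a - 1) (y := 1)
      (by simpa using hB1 a)
    simpa using this
  have hB0 : ∀ a, B a ≠ 0 := by
    intro a h
    have := hBv a
    rw [h, map_zero] at this
    exact zero_ne_one this
  refine ⟨((Finset.range p) ×ˢ (Finset.univ : Finset (Fin (p - 1) → Fin p))).image
    (fun ia => l ^ ia.1 * B ia.2), ?_, ?_, ?_⟩
  · refine Finset.card_image_le.trans ?_
    rw [Finset.card_product, Finset.card_range, Finset.card_univ, Fintype.card_fun,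
      Fintype.card_fin, Fintype.card_fin, ← pow_succ']
    have : p - 1 + 1 = p := Nat.sub_add_cancel hp.one_le
    rw [this]
  · intro r hr
    obtain ⟨ia, -, rfl⟩ := Finset.mem_image.mp hr
    exact mul_ne_zero (pow_ne_zero _ hl0) (hB0 _)
  · intro x hx
    set n : ℤ := ord v x with hn
    have hpz : (p : ℤ) ≠ 0 := by exact_mod_cast hp.ne_zero
    have hppos : (0 : ℤ) < p := by exact_mod_cast hp.pos
    set s : ℤ := n / p
    set i : ℤ := n % p
    have hi0 : 0 ≤ i := Int.emod_nonneg _ hpz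
    have hip : i < p := Int.emod_lt_of_pos _ hppos
    have hnsi : n = p * s + i := (Int.mul_ediv_add_emod n p).symm
    set y : F := x / l ^ n with hy
    have hy0 : y ≠ 0 := div_ne_zero hx (zpow_ne_zero _ hl0)
    have hyv : v.valuation F y = 1 := by
      rw [valuation_eq_exp_neg_ord v hy0, hy, ord_div v hx (zpow_ne_zero _ hl0), ord_zpow, hordl]
      simp [hn]
    obtain ⟨t, ht, hty⟩ := lam_exists_digit v hN hpv y hyv.le
    have htv : v.valuation F (t : F) = 1 := by
      have := Valuation.map_sub_eq_of_lt_right (v.valuation F) (x := y - t) (y := y)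
        (by rw [hyv]; exact hty)
      rw [hyv] at this
      rw [← this, ← Valuation.map_neg]; congr 1; ring
    have ht0 : (t : F) ≠ 0 := by
      intro h; rw [h, map_zero] at htv; exact zero_ne_one htv
    have hpval : v.valuation F (p : F) < 1 := by
      have := (v.valuation_lt_one_iff_mem (K := F) (p : 𝓞 F)).mpr hpv
      simpa using this
    -- Fermat's little theorem
    have hfl : v.valuation F ((t : F) - (t : F) ^ p) < 1 := by
      have h1 : (p : ℤ) ∣ (t : ℤ) - (t : ℤ) ^ p := by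
        have := (ZMod.intCast_zmod_eq_zero_iff_dvd ((t : ℤ) - (t : ℤ) ^ p) p).mp (by
          push_cast; rw [ZMod.pow_card]; ring)
        exact this
      obtain ⟨c, hc⟩ := h1
      have h2 : (t : F) - (t : F) ^ p = (p : F) * (c : F) := by
        exact_mod_cast congrArg (fun z : ℤ => (z : F)) hc
      rw [h2, map_mul]
      have hc1 : v.valuation F (c : F) ≤ 1 := by
        have := v.valuation_le_one (K := F) (c : 𝓞 F)
        simpa using this
      calc v.valuation F (p : F) * v.valuation F (c : F) ≤ v.valuation F (p : F) * 1 := by gcongr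
        _ < 1 := by rwa [mul_one]
    set z : F := y / (t : F) ^ p with hz
    have hz1 : v.valuation F (z - 1) < 1 := by
      have : z - 1 = ((y - t) + ((t : F) - (t : F) ^ p)) / (t : F) ^ p := by
        rw [hz]; field_simp; ring
      rw [this, map_div₀, map_pow, htv, one_pow, div_one]
      exact lt_of_le_of_lt (Valuation.map_add _ _ _) (max_lt hty hfl)
    obtain ⟨a, ha⟩ := lam_exists_digits v hN hpv l hl (p - 1) z hz1
    refine ⟨l ^ i.toNat * B a, ?_, ?_⟩
    · refine Finset.mem_image.mpr ⟨(i.toNat, a), ?_, rfl⟩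
      simp only [Finset.mem_product, Finset.mem_range, Finset.mem_univ, and_true]
      omega
    · refine ⟨l ^ s * t, mul_ne_zero (zpow_ne_zero _ hl0) ht0, ?_⟩
      have hxe : x / (l ^ i.toNat * B a) / (l ^ s * (t : F)) ^ p - 1 = (z - B a) / B a := by
        have h1 : l ^ i.toNat = l ^ i := by
          rw [← zpow_natCast, Int.toNat_of_nonneg hi0]
        have h2 : (l ^ s * (t : F)) ^ p = l ^ (p * s) * (t : F) ^ p := by
          rw [mul_pow, ← zpow_natCast (l ^ s), ← zpow_mul, mul_comm s]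
        have h3 : l ^ n = l ^ (p * s) * l ^ i := by rw [hnsi, zpow_add₀ hl0]
        rw [h1, h2, hz, hy, h3]
        have ha' : l ^ (p * s) ≠ 0 := zpow_ne_zero _ hl0
        have hb : l ^ i ≠ 0 := zpow_ne_zero _ hl0
        have hc : (t : F) ^ p ≠ 0 := pow_ne_zero _ ht0
        have hd := hB0 a
        field_simp
      rw [hxe, map_div₀, hBv, div_one]
      refine ha.trans (le_of_eq ?_)
      congr 1
      have := hp.one_le
      push_cast [Nat.cast_sub this]
      ring

end main

section tame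

variable {p : ℕ} [Fact p.Prime]

/-- For a place not above `p`, `F^× / (local p-th powers)` has at most `p ^ 2` classes. -/
theorem tame_index_le {F : Type*} [Field F] [NumberField F] {ζ : F} (hζ : IsPrimitiveRoot ζ p)
    (v : Pl F) (hv : ¬ Above p v) :
    ∃ R : Finset F, R.card ≤ p ^ 2 ∧ (∀ r ∈ R, r ≠ 0) ∧
      ∀ x : F, x ≠ 0 → ∃ r ∈ R, LocPow p v 1 (x / r) := by
  classical
  have hp : p.Prime := Fact.out
  obtain ⟨π, hπ0, hπ⟩ := exists_ord_eq ({v} : Finset (Pl F)) (fun _ => 1)
  have hπ1 : ord v π = 1 := hπ v (by simp)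
  obtain ⟨y, hy0, hy, hyn⟩ := exists_not_locPow hp hζ v hv
  refine ⟨((Finset.range p) ×ˢ (Finset.range p)).image (fun ie => π ^ ie.1 * y ^ ie.2), ?_, ?_, ?_⟩
  · refine Finset.card_image_le.trans ?_
    simp [sq]
  · intro r hr
    obtain ⟨ie, -, rfl⟩ := Finset.mem_image.mp hr
    exact mul_ne_zero (pow_ne_zero _ hπ0) (pow_ne_zero _ hy0)
  · intro x hx
    set n : ℤ := ord v x with hn
    have hpz : (p : ℤ) ≠ 0 := by exact_mod_cast hp.ne_zero
    have hppos : (0 : ℤ) < p := by exact_mod_cast hp.pos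
    set s : ℤ := n / p
    set i : ℤ := n % p
    have hi0 : 0 ≤ i := Int.emod_nonneg _ hpz
    have hip : i < p := Int.emod_lt_of_pos _ hppos
    have hnsi : n = p * s + i := (Int.mul_ediv_add_emod n p).symm
    set u : F := x / π ^ n with hu
    have hu0 : u ≠ 0 := div_ne_zero hx (zpow_ne_zero _ hπ0)
    have hordu : ord v u = 0 := by
      rw [hu, ord_div v hx (zpow_ne_zero _ hπ0), ord_zpow, hπ1]; ring
    obtain ⟨e, he, hloc⟩ := exists_pow_mul_locPow hp hζ v hv hy0 hy hyn (c := u⁻¹)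
      (inv_ne_zero hu0) (by rw [ord_inv, hordu]; rfl)
    refine ⟨π ^ i.toNat * y ^ e, ?_, ?_⟩
    · refine Finset.mem_image.mpr ⟨(i.toNat, e), ?_, rfl⟩
      simp only [Finset.mem_product, Finset.mem_range]
      exact ⟨by omega, he⟩
    · have hxe : x / (π ^ i.toNat * y ^ e) = (π ^ s) ^ p * (y ^ e * u⁻¹)⁻¹ := by
        have h1 : π ^ i.toNat = π ^ i := by
          rw [← zpow_natCast, Int.toNat_of_nonneg hi0]
        have h2 : (π ^ s) ^ p = π ^ (p * s) := by
          rw [← zpow_natCast, ← zpow_mul, mul_comm]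
        have h3 : π ^ n = π ^ (p * s) * π ^ i := by rw [hnsi, zpow_add₀ hπ0]
        rw [h1, h2, hu, h3]
        have ha : π ^ (p * s) ≠ 0 := zpow_ne_zero _ hπ0
        have hb : π ^ i ≠ 0 := zpow_ne_zero _ hπ0
        have hc : y ^ e ≠ 0 := pow_ne_zero _ hy0
        field_simp
      rw [hxe]
      exact (locPow_ppow v 1 (zpow_ne_zero _ hπ0)).mul (hloc.inv le_rfl)

end tame

section cyclo

variable {p : ℕ} [Fact p.Prime] {K : Type*} [Field K] [NumberField K]
  [IsCyclotomicExtension {p} ℚ K]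

theorem exists_lam {ζ : K} (hζ : IsPrimitiveRoot ζ p) :
    ∃ lam : Pl K, Above p lam ∧ (∀ v, Above p v → v = lam) ∧ ord lam (1 - ζ) = 1 ∧
      (∀ v, v ≠ lam → ord v (1 - ζ) = 0) ∧ Ideal.absNorm lam.asIdeal = p ∧
      ord lam (p : K) = p - 1 := by
  have hp : p.Prime := Fact.out
  set π : 𝓞 K := hζ.toInteger - 1 with hπdef
  have hπ : Prime π := hζ.zeta_sub_one_prime'
  have hπ0 : π ≠ 0 := hπ.ne_zero
  have hπK : (π : K) = ζ - 1 := by
    rw [hπdef]; push_cast; rfl
  have hprime : (Ideal.span {π}).IsPrime := (Ideal.span_singleton_prime hπ0).mpr hπ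
  have hbot : Ideal.span {π} ≠ ⊥ := by simpa using hπ0
  let lam : Pl K := ⟨Ideal.span {π}, hprime, hbot⟩
  have hlam : lam.asIdeal = Ideal.span {π} := rfl
  have hassoc : Associated (π ^ (p - 1)) (p : 𝓞 K) :=
    IsCyclotomicExtension.Rat.associated_zeta_sub_one_pow_prime p hζ
  have hone : ∀ v : Pl K, ord v (1 - ζ) = ord v (π : K) := by
    intro v
    rw [hπK, ← ord_neg, neg_sub]
  have key : ∀ v : Pl K, π ∈ v.asIdeal → v = lam := by
    intro v hv
    have hle : lam.asIdeal ≤ v.asIdeal := by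
      rw [hlam, Ideal.span_singleton_le_iff_mem]; exact hv
    have : lam.asIdeal = v.asIdeal := lam.isMaximal.eq_of_le v.isPrime.ne_top hle
    exact (HeightOneSpectrum.ext this).symm
  have hordlam : ord lam (π : K) = 1 := by
    have h1 : (1 : ℤ) ≤ ord lam (π : K) := by
      have := (le_ord_iff_mem_pow lam hπ0 1).mpr (by
        rw [pow_one, hlam]; exact Ideal.mem_span_singleton_self π)
      simpa using this
    have h2 : ¬ (2 : ℤ) ≤ ord lam (π : K) := by
      intro h
      have := (le_ord_iff_mem_pow lam hπ0 2).mp (by simpa using h)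
      rw [hlam, Ideal.span_singleton_pow, Ideal.mem_span_singleton] at this
      obtain ⟨c, hc⟩ := this
      have : π * 1 = π * (π * c) := by rw [mul_one]; nth_rewrite 1 [hc]; ring
      have h1 := mul_left_cancel₀ hπ0 this
      exact hπ.not_isUnit (IsUnit.of_mul_eq_one _ h1.symm)
    omega
  refine ⟨lam, ?_, ?_, ?_, ?_, ?_, ?_⟩
  · show (p : 𝓞 K) ∈ Ideal.span {π}
    rw [Ideal.mem_span_singleton]
    exact (dvd_pow_self π (by have := hp.two_le; omega)).trans hassoc.dvd
  · intro v hv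
    apply key
    have : π ^ (p - 1) ∈ v.asIdeal := by
      obtain ⟨c, hc⟩ := hassoc.symm.dvd
      rw [hc]; exact Ideal.mul_mem_right _ _ hv
    exact v.isPrime.mem_of_pow_mem _ this
  · rw [hone, hordlam]
  · intro v hv
    rw [hone]
    have h0 := ord_nonneg_of_integer v π
    by_contra hne
    have : 0 < ord v (π : K) := lt_of_le_of_ne h0 (Ne.symm hne)
    exact hv (key v ((ord_pos_iff_mem v hπ0).mp this))
  · have hK' : IsCyclotomicExtension {p ^ (0 + 1)} ℚ K := by simpa using ‹IsCyclotomicExtension {p} ℚ K›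
    have hζ' : IsPrimitiveRoot ζ (p ^ (0 + 1)) := by simpa using hζ
    exact IsCyclotomicExtension.Rat.absNorm_span_zeta_sub_one p 0 hζ'
  · obtain ⟨u, hu⟩ := hassoc
    have : (p : K) = (π : K) ^ (p - 1) * ((u : 𝓞 K) : K) := by
      have := congrArg (fun x : 𝓞 K => (x : K)) hu
      simpa using this.symm
    rw [this, ord_mul lam (pow_ne_zero _ (by simpa using hπ0)) (by simp), ord_pow, hordlam, ord_unit]
    have := hp.one_le
    push_cast [Nat.cast_sub this]
    ring

theorem units_rank_cyclotomic (hp : p ≠ 2) : Units.rank K + 1 = (p - 1) / 2 := by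
  have hpp : p.Prime := Fact.out
  have h2 : 2 < p := lt_of_le_of_ne hpp.two_le (Ne.symm hp)
  have h1 := IsCyclotomicExtension.Rat.nrRealPlaces_eq_zero (n := p) K h2
  have h3 := IsCyclotomicExtension.Rat.nrComplexPlaces_eq_totient_div_two (n := p) K
  rw [Nat.totient_prime hpp] at h3
  have h4 := InfinitePlace.card_eq_nrRealPlaces_add_nrComplexPlaces K
  rw [Units.rank, h4, h1, h3]
  have : 1 ≤ (p - 1) / 2 := by omega
  omega

/-- `K^× / (primary elements)` has at most `p ^ p` classes. -/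
theorem lam_index_le (hp : p ≠ 2) (lam : Pl K) (hlam : Above p lam) :
    ∃ R : Finset K, R.card ≤ p ^ p ∧ (∀ r ∈ R, r ≠ 0) ∧
      ∀ x : K, x ≠ 0 → ∃ r ∈ R, LocPow p lam p (x / r) := by
  have hζ := IsCyclotomicExtension.zeta_spec p ℚ K
  obtain ⟨lam', -, huniq, hord, -, hN, -⟩ := exists_lam hζ
  obtain rfl : lam = lam' := huniq lam hlam
  have hne : (1 : K) - IsCyclotomicExtension.zeta p ℚ K ≠ 0 := by
    intro h
    rw [h] at hord
    simp [ord] at hord
  refine lam_index_le_aux lam hN hlam (1 - IsCyclotomicExtension.zeta p ℚ K) ?_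
  rw [valuation_eq_exp_neg_ord lam hne, hord]

end cyclo

end Fermat.Agent.S14
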