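import Fermat.Agent.S14.Basic

set_option autoImplicit false
set_option linter.unusedSectionVars false
set_option linter.unusedVariables false

/-!
# S14 / WP-C: the `𝔽_p`-vector space `F^× / F^{×p}` and independence modulo `p`-th powers
-/

namespace Fermat.Agent.S14

open IsDedekindDomain NumberField

variable {F : Type*} [Field F] {p : ℕ}

/-- Multiplicative independence modulo `p`-th powers. -/
def IndepModP (p : ℕ) {ι : Type*} [Fintype ι] (y : ι → F) : Prop :=
  (∀ i, y i ≠ 0) ∧ ∀ e : ι → ℤ, IsPPow p (∏ i, y i ^ e i) → ∀ i, (p : ℤ) ∣ e i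

/-- `F^× / F^{×p}`, written additively. -/
abbrev ModP (p : ℕ) (F : Type*) [Field F] : Type _ :=
  Additive (Fˣ ⧸ (powMonoidHom p : Fˣ →* Fˣ).range)

noncomputable instance instModuleModP (p : ℕ) (F : Type*) [Field F] : Module (ZMod p) (ModP p F) :=
  AddCommGroup.zmodModule (n := p) (G := ModP p F) (by
    intro x
    induction x using Additive.rec with
    | ofMul x =>
      induction x using QuotientGroup.induction_on with
      | H u =>
        rw [← ofMul_pow, ← QuotientGroup.mk_pow]
        rw [(QuotientGroup.eq_one_iff (u ^ p)).mpr (MonoidHom.mem_range.mpr ⟨u, rfl⟩)]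
        rfl)

/-- The class of a unit. -/
def clsU (p : ℕ) (x : Fˣ) : ModP p F := Additive.ofMul (QuotientGroup.mk x)

open Classical in
/-- The class of an element (junk `0` at `0`). -/
noncomputable def cls (p : ℕ) (x : F) : ModP p F :=
  if h : x = 0 then 0 else clsU p (Units.mk0 x h)

lemma cls_zero : cls p (0 : F) = 0 := by simp [cls]

lemma cls_of_ne_zero {x : F} (hx : x ≠ 0) : cls p x = clsU p (Units.mk0 x hx) := by
  simp [cls, hx]

lemma clsU_mul (x y : Fˣ) : clsU p (x * y) = clsU p x + clsU p y := rfl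

lemma clsU_eq_zero_iff (x : Fˣ) : clsU p x = 0 ↔ ∃ c : Fˣ, c ^ p = x := by
  unfold clsU
  rw [ofMul_eq_zero, QuotientGroup.eq_one_iff]
  rfl

lemma cls_eq_zero_iff {x : F} (hx : x ≠ 0) : cls p x = 0 ↔ IsPPow p x := by
  rw [cls_of_ne_zero hx, clsU_eq_zero_iff]
  constructor
  · rintro ⟨c, hc⟩
    refine ⟨c, ?_⟩
    have := congrArg Units.val hc
    simpa using this
  · rintro ⟨c, hc⟩
    by_cases hc0 : c = 0
    · subst hc0
      by_cases hp : p = 0
      · subst hp
        refine ⟨1, ?_⟩
        ext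
        simpa using hc
      · rw [zero_pow hp] at hc
        exact absurd hc.symm hx
    · refine ⟨Units.mk0 c hc0, ?_⟩
      ext
      simpa using hc

lemma cls_one : cls p (1 : F) = 0 :=
  (cls_eq_zero_iff one_ne_zero).mpr ⟨1, one_pow p⟩

lemma cls_mul {x y : F} (hx : x ≠ 0) (hy : y ≠ 0) : cls p (x * y) = cls p x + cls p y := by
  rw [cls_of_ne_zero hx, cls_of_ne_zero hy, cls_of_ne_zero (mul_ne_zero hx hy), ← clsU_mul]
  congr 1
  ext
  simp

lemma cls_inv (x : F) : cls p x⁻¹ = - cls p x := by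
  by_cases hx : x = 0
  · subst hx
    rw [inv_zero, cls_zero]
    exact (neg_zero (G := ModP p F)).symm
  · have h := cls_mul (p := p) hx (inv_ne_zero hx)
    rw [mul_inv_cancel₀ hx, cls_one] at h
    exact eq_neg_of_add_eq_zero_right (α := ModP p F) h.symm

lemma cls_pow (x : F) (n : ℕ) : cls p (x ^ n) = (n : ZMod p) • cls p x := by
  by_cases hx : x = 0
  · subst hx
    by_cases hn : n = 0
    · subst hn; simp [cls_one]
    · simp [zero_pow hn, cls_zero]
  · induction n with
    | zero => simp [cls_one]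
    | succ n ih =>
      rw [pow_succ, cls_mul (pow_ne_zero n hx) hx, ih]
      push_cast
      rw [add_smul, one_smul]

lemma cls_zpow (x : F) (n : ℤ) : cls p (x ^ n) = (n : ZMod p) • cls p x := by
  cases n with
  | ofNat n => simpa using cls_pow x n
  | negSucc n =>
    rw [zpow_negSucc, cls_inv, cls_pow]
    rw [Int.cast_negSucc, neg_smul]

lemma cls_prod {ι : Type*} (s : Finset ι) (f : ι → F) (hf : ∀ i ∈ s, f i ≠ 0) :
    cls p (∏ i ∈ s, f i) = ∑ i ∈ s, cls p (f i) := by
  classical
  induction s using Finset.induction_on with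
  | empty => simp [cls_one]
  | insert a s ha ih =>
    rw [Finset.prod_insert ha, Finset.sum_insert ha,
      cls_mul (hf a (Finset.mem_insert_self a s))
        (Finset.prod_ne_zero_iff.mpr fun i hi => hf i (Finset.mem_insert_of_mem hi)),
      ih fun i hi => hf i (Finset.mem_insert_of_mem hi)]

lemma cls_prod_zpow {ι : Type*} [Fintype ι] (y : ι → F) (hy : ∀ i, y i ≠ 0) (e : ι → ℤ) :
    cls p (∏ i, y i ^ e i) = ∑ i, (e i : ZMod p) • cls p (y i) := by
  rw [cls_prod _ _ fun i _ => zpow_ne_zero _ (hy i)]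
  exact Finset.sum_congr rfl fun i _ => cls_zpow _ _

lemma cls_surjective (a : ModP p F) : ∃ x : F, x ≠ 0 ∧ cls p x = a := by
  induction a using Additive.rec with
  | ofMul a =>
    induction a using QuotientGroup.induction_on with
    | H u =>
      refine ⟨u, u.ne_zero, ?_⟩
      rw [cls_of_ne_zero u.ne_zero]
      unfold clsU
      congr 2
      ext
      simp

lemma indepModP_iff [Fact p.Prime] {ι : Type*} [Fintype ι] (y : ι → F) (hy : ∀ i, y i ≠ 0) :
    IndepModP p y ↔ LinearIndependent (ZMod p) (fun i => cls p (y i)) := by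
  have hne : ∀ e : ι → ℤ, (∏ i, y i ^ e i) ≠ 0 := fun e =>
    Finset.prod_ne_zero_iff.mpr fun i _ => zpow_ne_zero _ (hy i)
  constructor
  · rintro ⟨-, h⟩
    refine Fintype.linearIndependent_iff.mpr ?_
    intro g hg i
    have h1 := h (fun i => ((g i).val : ℤ)) (by
      rw [← cls_eq_zero_iff (hne _), cls_prod_zpow y hy, ← hg]
      refine Finset.sum_congr rfl fun i _ => ?_
      simp)
    have h2 := (ZMod.intCast_zmod_eq_zero_iff_dvd _ p).mpr (h1 i)
    simpa using h2
  · intro h
    replace h := Fintype.linearIndependent_iff.mp h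
    refine ⟨hy, fun e he i => ?_⟩
    rw [← cls_eq_zero_iff (hne _), cls_prod_zpow y hy] at he
    exact (ZMod.intCast_zmod_eq_zero_iff_dvd _ p).mp (h _ he i)

/-- A multiplicatively closed predicate (containing `p`-th powers of its members' inverses etc.)
defines a subspace. -/
noncomputable def subspaceOf [Fact p.Prime] (P : F → Prop) (h1 : P 1)
    (hmul : ∀ x y, x ≠ 0 → y ≠ 0 → P x → P y → P (x * y)) : Submodule (ZMod p) (ModP p F) where
  carrier := {a | ∃ x : F, x ≠ 0 ∧ P x ∧ cls p x = a}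
  add_mem' := by
    rintro _ _ ⟨x, hx0, hx, rfl⟩ ⟨y, hy0, hy, rfl⟩
    exact ⟨x * y, mul_ne_zero hx0 hy0, hmul x y hx0 hy0 hx hy, cls_mul hx0 hy0⟩
  zero_mem' := ⟨1, one_ne_zero, h1, cls_one⟩
  smul_mem' := by
    rintro c _ ⟨x, hx0, hx, rfl⟩
    refine ⟨x ^ c.val, pow_ne_zero _ hx0, ?_, ?_⟩
    · generalize c.val = n
      induction n with
      | zero => simpa using h1
      | succ n ih => rw [pow_succ]; exact hmul _ _ (pow_ne_zero n hx0) hx0 ih hx
    · rw [cls_pow]; simp

lemma mem_subspaceOf [Fact p.Prime] {P : F → Prop} {h1 : P 1}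
    {hmul : ∀ x y, x ≠ 0 → y ≠ 0 → P x → P y → P (x * y)} {a : ModP p F} :
    a ∈ subspaceOf (p := p) P h1 hmul ↔ ∃ x : F, x ≠ 0 ∧ P x ∧ cls p x = a := Iff.rfl

end Fermat.Agent.S14
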