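import Mathlib

set_option autoImplicit false

/-!
# S14 / [HQ]: index computations in finitely generated abelian groups
-/

namespace Fermat.Agent.S14.AbIdx

open Module Polynomial Finset

section rank

lemma finrank_int_eq_range_add_ker {M N : Type*} [AddCommGroup M] [AddCommGroup N]
    [Module.Finite ℤ M] (f : M →ₗ[ℤ] N) :
    finrank ℤ M = finrank ℤ (LinearMap.range f) + finrank ℤ (LinearMap.ker f) := by
  rw [← (LinearMap.ker f).finrank_quotient_add_finrank, f.quotKerEquivRange.finrank_eq]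

lemma finrank_int_of_finite (T : Type*) [AddCommGroup T] [Finite T] : finrank ℤ T = 0 := by
  rw [Module.finrank_eq_zero_iff]
  intro x
  refine ⟨(Nat.card T : ℤ), by exact_mod_cast Nat.card_pos.ne', ?_⟩
  rw [natCast_zsmul]
  exact card_nsmul_eq_zero'

lemma finrank_int_prod_finite (r : ℕ) (T : Type*) [AddCommGroup T] [Finite T] :
    finrank ℤ ((Fin r → ℤ) × T) = r := by
  have h := finrank_int_eq_range_add_ker (LinearMap.fst ℤ (Fin r → ℤ) T)
  rw [LinearMap.range_eq_top.2 LinearMap.fst_surjective, finrank_top, Module.finrank_fin_fun] at h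
  have : Finite (LinearMap.ker (LinearMap.fst ℤ (Fin r → ℤ) T)) := by
    refine Finite.of_injective (fun x => x.1.2) ?_
    rintro ⟨⟨a, b⟩, ha⟩ ⟨⟨c, d⟩, hc⟩ h
    simp only [LinearMap.mem_ker, LinearMap.fst_apply] at ha hc
    simp only at h
    subst ha hc h
    rfl
  rw [finrank_int_of_finite (LinearMap.ker _), add_zero] at h
  exact h

end rank

section congr

variable {A B : Type*} [AddCommGroup A] [AddCommGroup B]

lemma index_range_nsmul_congr (f : A ≃+ B) (n : ℕ) :
    (nsmulAddMonoidHom n : A →+ A).range.index = (nsmulAddMonoidHom n : B →+ B).range.index := by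
  have : (nsmulAddMonoidHom n : B →+ B).range
      = (nsmulAddMonoidHom n : A →+ A).range.map (f : A →+ B) := by
    ext y
    constructor
    · rintro ⟨x, rfl⟩
      exact ⟨n • f.symm x, ⟨f.symm x, rfl⟩, by simp⟩
    · rintro ⟨_, ⟨x, rfl⟩, rfl⟩
      exact ⟨f x, by simp⟩
  rw [this, AddSubgroup.index_map_of_bijective (f := (f : A →+ B)) f.bijective]

lemma card_ker_nsmul_congr (f : A ≃+ B) (n : ℕ) :
    Nat.card (nsmulAddMonoidHom n : A →+ A).ker = Nat.card (nsmulAddMonoidHom n : B →+ B).ker := by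
  refine Nat.card_congr ⟨fun x => ⟨f x, ?_⟩, fun y => ⟨f.symm y, ?_⟩, fun x => ?_, fun y => ?_⟩
  · have := x.2
    simp only [AddMonoidHom.mem_ker, nsmulAddMonoidHom_apply] at this ⊢
    rw [← map_nsmul, this, map_zero]
  · have := y.2
    simp only [AddMonoidHom.mem_ker, nsmulAddMonoidHom_apply] at this ⊢
    rw [← map_nsmul, this, map_zero]
  · simp
  · simp

end congr

lemma index_range_nsmul_prod (A B : Type*) [AddCommGroup A] [AddCommGroup B] (n : ℕ) :
    (nsmulAddMonoidHom n : A × B →+ A × B).range.index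
      = (nsmulAddMonoidHom n : A →+ A).range.index * (nsmulAddMonoidHom n : B →+ B).range.index := by
  rw [← AddSubgroup.index_prod]
  congr 1
  ext ⟨a, b⟩
  constructor
  · rintro ⟨⟨x, y⟩, h⟩
    simp only [nsmulAddMonoidHom_apply, Prod.smul_mk, Prod.mk.injEq] at h
    exact ⟨⟨x, h.1⟩, ⟨y, h.2⟩⟩
  · rintro ⟨⟨x, hx⟩, ⟨y, hy⟩⟩
    exact ⟨(x, y), by simpa using ⟨hx, hy⟩⟩

lemma card_ker_nsmul_prod (A B : Type*) [AddCommGroup A] [AddCommGroup B] (n : ℕ) :
    Nat.card (nsmulAddMonoidHom n : A × B →+ A × B).ker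
      = Nat.card (nsmulAddMonoidHom n : A →+ A).ker * Nat.card (nsmulAddMonoidHom n : B →+ B).ker := by
  rw [← Nat.card_prod]
  refine Nat.card_congr ⟨fun x => (⟨x.1.1, ?_⟩, ⟨x.1.2, ?_⟩), fun y => ⟨(y.1.1, y.2.1), ?_⟩,
    fun x => ?_, fun y => ?_⟩
  · have := x.2
    simp only [AddMonoidHom.mem_ker, nsmulAddMonoidHom_apply, Prod.ext_iff] at this ⊢
    exact this.1
  · have := x.2
    simp only [AddMonoidHom.mem_ker, nsmulAddMonoidHom_apply, Prod.ext_iff] at this ⊢
    exact this.2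
  · have h1 := y.1.2
    have h2 := y.2.2
    simp only [AddMonoidHom.mem_ker, nsmulAddMonoidHom_apply, Prod.ext_iff] at h1 h2 ⊢
    exact ⟨h1, h2⟩
  · rfl
  · rfl

lemma index_range_nsmul_int (n : ℕ) : (nsmulAddMonoidHom n : ℤ →+ ℤ).range.index = n := by
  have : (nsmulAddMonoidHom n : ℤ →+ ℤ).range = AddSubgroup.zmultiples (n : ℤ) := by
    ext y
    simp only [AddMonoidHom.mem_range, nsmulAddMonoidHom_apply, Int.mem_zmultiples_iff]
    constructor
    · rintro ⟨x, rfl⟩
      exact ⟨x, by simp⟩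
    · rintro ⟨x, rfl⟩
      exact ⟨x, by simp⟩
  rw [this, Int.index_zmultiples, Int.natAbs_natCast]

lemma index_range_nsmul_pi (ι : Type*) [Fintype ι] (n : ℕ) :
    (nsmulAddMonoidHom n : (ι → ℤ) →+ (ι → ℤ)).range.index = n ^ Fintype.card ι := by
  have : (nsmulAddMonoidHom n : (ι → ℤ) →+ (ι → ℤ)).range
      = AddSubgroup.pi Set.univ fun _ : ι => (nsmulAddMonoidHom n : ℤ →+ ℤ).range := by
    ext y
    simp only [AddMonoidHom.mem_range, nsmulAddMonoidHom_apply, AddSubgroup.mem_pi, Set.mem_univ,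
      forall_true_left]
    constructor
    · rintro ⟨x, rfl⟩ i
      exact ⟨x i, rfl⟩
    · intro h
      choose x hx using h
      exact ⟨x, funext hx⟩
  rw [this, AddSubgroup.index_pi]
  simp [index_range_nsmul_int]

/-- **Lemma A**: for a finitely generated abelian group, `[A : nA] = n ^ rank A * #A[n]`. -/
theorem index_range_nsmul (A : Type*) [AddCommGroup A] [Module.Finite ℤ A] {n : ℕ} (hn : n ≠ 0) :
    (nsmulAddMonoidHom n : A →+ A).range.index
      = n ^ finrank ℤ A * Nat.card (nsmulAddMonoidHom n : A →+ A).ker := by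
  classical
  have : AddGroup.FG A := Module.Finite.iff_addGroup_fg.1 inferInstance
  obtain ⟨r, ι, _, q, hq, e, ⟨f⟩⟩ := AddCommGroup.equiv_free_prod_directSum_zmod A
  set T := DirectSum ι fun i => ZMod (q i ^ e i) with hT
  have : ∀ i, NeZero (q i ^ e i) := fun i => ⟨pow_ne_zero _ (hq i).ne_zero⟩
  have : Finite T := by
    rw [hT]
    exact Finite.of_equiv _ (DirectSum.addEquivProd fun i => ZMod (q i ^ e i)).symm.toEquiv
  let g : (Fin r →₀ ℤ) ≃+ (Fin r → ℤ) := Finsupp.linearEquivFunOnFinite ℤ ℤ (Fin r) |>.toAddEquiv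
  let f' : A ≃+ (Fin r → ℤ) × T := f.trans (g.prodCongr (AddEquiv.refl T))
  have hrank : finrank ℤ A = r := by
    rw [f'.toIntLinearEquiv.finrank_eq, finrank_int_prod_finite]
  rw [index_range_nsmul_congr f', card_ker_nsmul_congr f', index_range_nsmul_prod,
    card_ker_nsmul_prod, index_range_nsmul_pi, Fintype.card_fin, hrank]
  have h1 : Nat.card (nsmulAddMonoidHom n : (Fin r → ℤ) →+ (Fin r → ℤ)).ker = 1 := by
    rw [Nat.card_eq_one_iff_unique]
    refine ⟨⟨?_⟩, ⟨0⟩⟩
    rintro ⟨a, ha⟩ ⟨b, hb⟩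
    simp only [AddMonoidHom.mem_ker, nsmulAddMonoidHom_apply] at ha hb
    have ha' : a = 0 := (smul_eq_zero_iff_right hn).1 ha
    have hb' : b = 0 := (smul_eq_zero_iff_right hn).1 hb
    subst ha' hb'
    rfl
  have h2 : (nsmulAddMonoidHom n : T →+ T).range.index = Nat.card (nsmulAddMonoidHom n : T →+ T).ker :=
    AddSubgroup.index_range
  rw [h1, h2, one_mul]

section chi

variable {C : Type*} [AddCommGroup C]

lemma card_ker_comp (φ ψ : C →+ C) : Nat.card (φ.comp ψ).ker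
      = Nat.card ψ.ker * Nat.card (ψ.range ⊓ φ.ker : AddSubgroup C) := by
  have e1 : (φ.comp ψ).ker = φ.ker.comap ψ := rfl
  have e2 : ψ.ker.relIndex (φ.ker.comap ψ) = Nat.card (ψ.range ⊓ φ.ker : AddSubgroup C) := by
    rw [← AddMonoidHom.comap_bot, AddSubgroup.relIndex_comap, AddSubgroup.map_comap_eq,
      AddSubgroup.relIndex_bot_left]
  rw [e1, ← e2, ← AddSubgroup.relIndex_bot_left, ← AddSubgroup.relIndex_bot_left,
    AddSubgroup.relIndex_mul_relIndex _ _ _ bot_le]
  intro x hx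
  simp only [AddSubgroup.mem_comap, AddMonoidHom.mem_ker] at hx ⊢
  rw [hx, map_zero]

/-- unconditional multiplicativity of the "index" `[C : φC] / #ker φ`. -/
theorem index_range_comp_mul (φ ψ : C →+ C) :
    (φ.comp ψ).range.index * (Nat.card φ.ker * Nat.card ψ.ker)
      = φ.range.index * ψ.range.index * Nat.card (φ.comp ψ).ker := by
  have h1 : (φ.comp ψ).range.index = (ψ.range ⊔ φ.ker).index * φ.range.index := by
    rw [AddMonoidHom.range_comp, AddSubgroup.index_map]
  have h2 : ψ.range.index = ψ.range.relIndex φ.ker * (ψ.range ⊔ φ.ker).index := by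
    rw [← AddSubgroup.relIndex_sup_left φ.ker ψ.range, AddSubgroup.relIndex_mul_index le_sup_left]
  have h3 : Nat.card φ.ker = Nat.card (ψ.range ⊓ φ.ker : AddSubgroup C) * ψ.range.relIndex φ.ker := by
    rw [← AddSubgroup.relIndex_bot_left, ← AddSubgroup.relIndex_bot_left,
      ← AddSubgroup.inf_relIndex_right ψ.range φ.ker,
      AddSubgroup.relIndex_mul_relIndex _ _ _ bot_le inf_le_right]
  rw [h1, h2, h3, card_ker_comp]
  ring

/-- The multiplicative Euler characteristic of an endomorphism. -/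
noncomputable def chi (φ : C →+ C) : ℚ := (φ.range.index : ℚ) / Nat.card φ.ker

lemma finite_ker_comp {φ ψ : C →+ C} (hφ : Finite φ.ker) (hψ : Finite ψ.ker) :
    Finite (φ.comp ψ).ker := by
  apply Nat.finite_of_card_ne_zero
  rw [card_ker_comp]
  have : Finite (ψ.range ⊓ φ.ker : AddSubgroup C) :=
    Finite.of_injective (AddSubgroup.inclusion (inf_le_right : ψ.range ⊓ φ.ker ≤ φ.ker))
      (AddSubgroup.inclusion_injective _)
  exact mul_ne_zero Nat.card_pos.ne' Nat.card_pos.ne'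

lemma chi_comp {φ ψ : C →+ C} (hφ : Finite φ.ker) (hψ : Finite ψ.ker) :
    chi (φ.comp ψ) = chi φ * chi ψ := by
  have := finite_ker_comp hφ hψ
  have h := index_range_comp_mul φ ψ
  have h1 : (Nat.card φ.ker : ℚ) ≠ 0 := by exact_mod_cast Nat.card_pos.ne'
  have h2 : (Nat.card ψ.ker : ℚ) ≠ 0 := by exact_mod_cast Nat.card_pos.ne'
  have h3 : (Nat.card (φ.comp ψ).ker : ℚ) ≠ 0 := by exact_mod_cast Nat.card_pos.ne'
  unfold chi
  rw [div_mul_div_comm, div_eq_div_iff h3 (mul_ne_zero h1 h2)]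
  exact_mod_cast h

lemma chi_of_bijective {φ : C →+ C} (h : Function.Bijective φ) : chi φ = 1 := by
  unfold chi
  rw [AddMonoidHom.range_eq_top.2 h.2, (AddMonoidHom.ker_eq_bot_iff φ).2 h.1]
  simp

end chi

section poly

lemma geomSum_dvd_of_aeval_eq_zero {p : ℕ} (hp : p.Prime) {ζ : ℂ} (hζ : IsPrimitiveRoot ζ p)
    {P : ℤ[X]} (h : aeval ζ P = 0) : (∑ i ∈ range p, (X : ℤ[X]) ^ i) ∣ P := by
  rw [← cyclotomic_prime ℤ p (hp := ⟨hp⟩), cyclotomic_eq_minpoly hζ hp.pos]
  exact minpoly.isIntegrallyClosed_dvd (hζ.isIntegral hp.pos) h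

/-- `(X - 1) ^ (p - 1)` is `p` times a unit modulo `1 + X + ... + X ^ (p - 1)`. -/
lemma exists_poly_unit {p : ℕ} (hp : p.Prime) : ∃ E E' W W' : ℤ[X],
    (X - 1) ^ (p - 1) * E = C (p : ℤ) + (∑ i ∈ range p, (X : ℤ[X]) ^ i) * W ∧
    E * E' = 1 + (∑ i ∈ range p, (X : ℤ[X]) ^ i) * W' := by
  have hζ : IsPrimitiveRoot (Complex.exp (2 * Real.pi * Complex.I / p)) p :=
    Complex.isPrimitiveRoot_exp p hp.ne_zero
  set ζ := Complex.exp (2 * Real.pi * Complex.I / p) with hζdef
  have hj : ∀ i ∈ range (p - 1), ∃ j : ℕ, ((i + 1) * j) % p = 1 := by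
    intro i hi
    rw [mem_range] at hi
    obtain ⟨m, -, hm⟩ := Nat.exists_mul_mod_eq_one_of_coprime
      (Nat.coprime_of_lt_prime (n := i + 1) (by omega) (by omega) hp).symm hp.one_lt
    exact ⟨m, hm⟩
  choose! j hj using hj
  let Ei : ℕ → ℤ[X] := fun i => - ∑ t ∈ range (i + 1), X ^ t
  let Gi : ℕ → ℤ[X] := fun i => - ∑ s ∈ range (j i), (X ^ (i + 1)) ^ s
  have h1 : aeval ζ ((X - 1) ^ (p - 1) * (∏ i ∈ range (p - 1), Ei i) - C (p : ℤ)) = 0 := by
    have e : (X - 1 : ℤ[X]) ^ (p - 1) * (∏ i ∈ range (p - 1), Ei i)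
        = ∏ i ∈ range (p - 1), (1 - X ^ (i + 1)) := by
      have e0 : (X - 1 : ℤ[X]) ^ (p - 1) = ∏ _i ∈ range (p - 1), (X - 1 : ℤ[X]) := by
        rw [prod_const, card_range]
      rw [e0, ← prod_mul_distrib]
      refine prod_congr rfl fun i _ => ?_
      simp only [Ei]
      rw [← mul_neg_geom_sum]
      ring
    rw [e]
    have hp1 : p - 1 + 1 = p := Nat.sub_add_cancel hp.one_le
    have := (hp1.symm ▸ hζ : IsPrimitiveRoot ζ (p - 1 + 1)).prod_one_sub_pow_eq_order
    simp only [map_sub, map_prod, map_one, map_pow, aeval_X, aeval_C]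
    rw [this]
    have : ((p - 1 : ℕ) : ℂ) + 1 = p := by exact_mod_cast congrArg (Nat.cast (R := ℂ)) hp1
    rw [this]
    simp
  have h2 : aeval ζ ((∏ i ∈ range (p - 1), Ei i) * (∏ i ∈ range (p - 1), Gi i) - 1) = 0 := by
    rw [← prod_mul_distrib, map_sub, map_prod, map_one, sub_eq_zero]
    refine prod_eq_one fun i hi => ?_
    have hi' := mem_range.1 hi
    have hz1 : ζ ≠ 1 := hζ.ne_one hp.one_lt
    have hz2 : ζ ^ (i + 1) ≠ 1 := hζ.pow_ne_one_of_pos_of_lt (by omega) (by omega)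
    simp only [Ei, Gi, map_mul, map_neg, map_sum, map_pow, aeval_X]
    rw [geom_sum_eq hz1, geom_sum_eq hz2, ← pow_mul]
    have : ζ ^ ((i + 1) * j i) = ζ := by
      rw [← Nat.div_add_mod ((i + 1) * j i) p, hj i hi, pow_add, pow_mul, hζ.pow_eq_one]
      simp
    rw [this]
    have h3 : ζ - 1 ≠ 0 := sub_ne_zero.2 hz1
    have h4 : ζ ^ (i + 1) - 1 ≠ 0 := sub_ne_zero.2 hz2
    field_simp
  obtain ⟨W, hW⟩ := geomSum_dvd_of_aeval_eq_zero hp hζ h1
  obtain ⟨W', hW'⟩ := geomSum_dvd_of_aeval_eq_zero hp hζ h2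
  exact ⟨∏ i ∈ range (p - 1), Ei i, ∏ i ∈ range (p - 1), Gi i, W, W',
    by rw [← hW]; ring, by rw [← hW']; ring⟩

end poly

section lemmaC

lemma exists_pow_of_pow_eq {p : ℕ} (hp : p.Prime) {X Y m r : ℕ} (hm : m ≠ 0) (hY : Y ≠ 0)
    (h : X ^ m = p ^ r * Y ^ m) : ∃ c : ℕ, r = m * c ∧ X = p ^ c * Y := by
  have := Fact.mk hp
  have hX : X ≠ 0 := by
    rintro rfl
    rw [zero_pow hm] at h
    exact (mul_ne_zero (pow_ne_zero _ hp.ne_zero) (pow_ne_zero _ hY)) h.symm
  have hv := congrArg (padicValNat p) h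
  rw [padicValNat.pow, padicValNat.mul (pow_ne_zero _ hp.ne_zero) (pow_ne_zero _ hY),
    padicValNat.prime_pow, padicValNat.pow] at hv
  have hle : padicValNat p Y ≤ padicValNat p X := by
    by_contra hlt
    rw [not_le] at hlt
    have := Nat.mul_lt_mul_of_pos_left hlt (Nat.pos_of_ne_zero hm)
    omega
  refine ⟨padicValNat p X - padicValNat p Y, ?_, ?_⟩
  · rw [Nat.mul_sub]; omega
  · apply Nat.pow_left_injective (n := m) hm
    simp only
    rw [h, mul_pow, ← pow_mul, Nat.sub_mul, mul_comm _ m, mul_comm _ m]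
    congr 2
    omega


variable {C : Type*} [AddCommGroup C]

lemma finite_ker_nsmul [Module.Finite ℤ C] {n : ℕ} (hn : n ≠ 0) :
    Finite (nsmulAddMonoidHom n : C →+ C).ker := by
  let K : Submodule ℤ C := (nsmulAddMonoidHom n : C →+ C).ker.toIntSubmodule
  have : Module.Finite ℤ K := inferInstance
  have : Finite K := by
    apply Module.finite_of_fg_torsion
    intro x
    refine ⟨⟨(n : ℤ), by simpa using hn⟩, ?_⟩
    have := x.2
    ext
    simpa using this
  exact this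

lemma chi_nsmul [Module.Finite ℤ C] {n : ℕ} (hn : n ≠ 0) :
    chi (nsmulAddMonoidHom n : C →+ C) = (n : ℚ) ^ finrank ℤ C := by
  have := finite_ker_nsmul (C := C) hn
  unfold chi
  rw [index_range_nsmul C hn, Nat.cast_mul, Nat.cast_pow, mul_div_assoc, div_self, mul_one]
  exact_mod_cast Nat.card_pos.ne'

lemma chi_pow {φ : Module.End ℤ C} (hφ : Finite φ.toAddMonoidHom.ker) (n : ℕ) :
    Finite (φ ^ n).toAddMonoidHom.ker ∧ chi (φ ^ n).toAddMonoidHom = chi φ.toAddMonoidHom ^ n := by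
  induction n with
  | zero =>
    have hb : Function.Bijective ((φ ^ 0 : Module.End ℤ C).toAddMonoidHom) := by
      rw [pow_zero]; exact Function.bijective_id
    refine ⟨?_, by rw [chi_of_bijective hb, pow_zero]⟩
    rw [(AddMonoidHom.ker_eq_bot_iff _).2 hb.1]
    infer_instance
  | succ n ih =>
    have e : (φ ^ (n + 1)).toAddMonoidHom = (φ ^ n).toAddMonoidHom.comp φ.toAddMonoidHom := by
      rw [pow_succ]; rfl
    rw [e]
    exact ⟨finite_ker_comp ih.1 hφ, by rw [chi_comp ih.1 hφ, ih.2, pow_succ]⟩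

/-- **Lemma C**. -/
theorem index_range_sub_one [Module.Finite ℤ C] {p : ℕ} (hp : p.Prime) (τ : Module.End ℤ C)
    (hN : ∑ i ∈ range p, τ ^ i = 0) :
    ∃ c : ℕ, finrank ℤ C = (p - 1) * c ∧
      (τ - 1).toAddMonoidHom.range.index = p ^ c * Nat.card (τ - 1).toAddMonoidHom.ker := by
  obtain ⟨E, E', W, W', h1, h2⟩ := exists_poly_unit hp
  have hΦ : aeval τ (∑ i ∈ range p, (X : ℤ[X]) ^ i) = 0 := by simpa using hN
  have h1' : (τ - 1) ^ (p - 1) * aeval τ E = (p : Module.End ℤ C) := by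
    have := congrArg (aeval τ) h1
    simpa [hΦ] using this
  have h2' : aeval τ E * aeval τ E' = 1 := by
    have := congrArg (aeval τ) h2
    simpa [hΦ] using this
  have h2'' : aeval τ E' * aeval τ E = 1 := by
    rw [← map_mul, mul_comm, map_mul, h2']
  have h1'' : aeval τ E * (τ - 1) ^ (p - 1) = (p : Module.End ℤ C) := by
    have e : (τ - 1) = aeval τ (X - 1 : ℤ[X]) := by simp
    rw [← h1', e, ← map_pow, ← map_mul, ← map_mul, mul_comm]
  have hpe : (p : Module.End ℤ C).toAddMonoidHom = nsmulAddMonoidHom p := by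
    ext x
    simp
  have hbij : Function.Bijective (aeval τ E).toAddMonoidHom := by
    refine Function.bijective_iff_has_inverse.2 ⟨aeval τ E', fun x => ?_, fun x => ?_⟩
    · exact congrArg (fun f : Module.End ℤ C => f x) h2''
    · exact congrArg (fun f : Module.End ℤ C => f x) h2'
  have hfinp := finite_ker_nsmul (C := C) hp.ne_zero
  have hp1 : p - 1 ≠ 0 := by have := hp.two_le; omega
  have hfin : Finite (τ - 1).toAddMonoidHom.ker := by
    have hle : (τ - 1).toAddMonoidHom.ker ≤ (nsmulAddMonoidHom p : C →+ C).ker := by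
      intro x hx
      rw [← hpe, ← h1'']
      obtain ⟨k, hk⟩ := Nat.exists_eq_succ_of_ne_zero hp1
      rw [hk, pow_succ]
      have hx' : (τ - 1) x = 0 := hx
      change (aeval τ E) (((τ - 1) ^ k) ((τ - 1) x)) = 0
      rw [hx', map_zero, map_zero]
    exact Finite.of_injective (AddSubgroup.inclusion hle) (AddSubgroup.inclusion_injective _)
  have hfinE : Finite (aeval τ E).toAddMonoidHom.ker := by
    rw [(AddMonoidHom.ker_eq_bot_iff _).2 hbij.1]
    infer_instance
  obtain ⟨hf', hchi⟩ := chi_pow hfin (p - 1)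
  have key : chi (τ - 1).toAddMonoidHom ^ (p - 1) = (p : ℚ) ^ finrank ℤ C := by
    rw [← chi_nsmul hp.ne_zero, ← hpe, ← h1', ← hchi]
    have e : ((τ - 1) ^ (p - 1) * aeval τ E).toAddMonoidHom
        = ((τ - 1) ^ (p - 1)).toAddMonoidHom.comp (aeval τ E).toAddMonoidHom := rfl
    rw [e, chi_comp hf' hfinE, chi_of_bijective hbij, mul_one]
  have hY : Nat.card (τ - 1).toAddMonoidHom.ker ≠ 0 := Nat.card_pos.ne'
  have hYQ : (Nat.card (τ - 1).toAddMonoidHom.ker : ℚ) ≠ 0 := by exact_mod_cast hY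
  unfold chi at key
  rw [div_pow, div_eq_iff (pow_ne_zero _ hYQ)] at key
  exact exists_pow_of_pow_eq hp hp1 hY (by exact_mod_cast key)

end lemmaC

end Fermat.Agent.S14.AbIdx
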