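import Fermat.Agent.S14.Basic
import Fermat.Agent.S14.AbIndex

set_option autoImplicit false

/-!
# S14 / SU1: the group of `Σ`-units is finitely generated of rank `rank E + |Σ|`
-/

namespace Fermat.Agent.S14

open IsDedekindDomain NumberField Module

variable {F : Type*} [Field F] [NumberField F]

/-- The group of `Σ`-units. -/
def SU (s : Finset (Pl F)) : Subgroup Fˣ where
  carrier := {x | ∀ v, v ∉ s → ord v (x : F) = 0}
  mul_mem' := by
    intro a b ha hb v hv
    rw [Units.val_mul, ord_mul v a.ne_zero b.ne_zero, ha v hv, hb v hv, add_zero]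
  one_mem' := by
    intro v _
    rw [Units.val_one, ord_one]
  inv_mem' := by
    intro a ha v hv
    rw [Units.val_inv_eq_inv_val, ord_inv, ha v hv, neg_zero]

lemma mem_SU {s : Finset (Pl F)} {x : Fˣ} : x ∈ SU s ↔ ∀ v, v ∉ s → ord v (x : F) = 0 := Iff.rfl

lemma SU_mono {s t : Finset (Pl F)} (h : s ⊆ t) : SU s ≤ SU t :=
  fun _ hx v hv => hx v fun hvs => hv (h hvs)

/-- the `ord` map on `Σ`-units -/
noncomputable def SU.ordMap (s : Finset (Pl F)) : Additive (SU s) →ₗ[ℤ] (s → ℤ) :=
  AddMonoidHom.toIntLinearMap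
    { toFun := fun x v => ord v.1 ((x.toMul : Fˣ) : F)
      map_zero' := by
        funext v
        simp [ord_one]
      map_add' := by
        intro x y
        funext v
        simp only [toMul_add, Subgroup.coe_mul, Units.val_mul, Pi.add_apply]
        exact ord_mul _ (Units.ne_zero _) (Units.ne_zero _) }

lemma SU.ordMap_apply (s : Finset (Pl F)) (x : Additive (SU s)) (v : s) :
    SU.ordMap s x v = ord v.1 ((x.toMul : Fˣ) : F) := rfl

/-- global units as `Σ`-units -/
noncomputable def SU.ofUnits (s : Finset (Pl F)) : Additive (𝓞 F)ˣ →ₗ[ℤ] Additive (SU s) :=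
  AddMonoidHom.toIntLinearMap <| MonoidHom.toAdditive <|
    (Units.map (algebraMap (𝓞 F) F : 𝓞 F →* F)).codRestrict (SU s) (fun u v _ => ord_unit v u)

lemma SU.ofUnits_injective (s : Finset (Pl F)) : Function.Injective (SU.ofUnits s) := by
  intro x y h
  have h1 : ((SU.ofUnits s x).toMul : Fˣ) = ((SU.ofUnits s y).toMul : Fˣ) := by rw [h]
  have h2 : (((x.toMul : (𝓞 F)ˣ) : 𝓞 F) : F) = (((y.toMul : (𝓞 F)ˣ) : 𝓞 F) : F) :=
    congrArg Units.val h1
  have h3 : x.toMul = y.toMul := Units.ext (RingOfIntegers.ext h2)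
  exact h3

lemma SU.range_ofUnits (s : Finset (Pl F)) :
    LinearMap.range (SU.ofUnits s) = LinearMap.ker (SU.ordMap s) := by
  ext x
  constructor
  · rintro ⟨u, rfl⟩
    rw [LinearMap.mem_ker]
    funext v
    exact ord_unit v.1 u.toMul
  · intro hx
    rw [LinearMap.mem_ker] at hx
    have h0 : ∀ v : Pl F, ord v ((x.toMul : Fˣ) : F) = 0 := by
      intro v
      by_cases hv : v ∈ s
      · exact congrFun hx ⟨v, hv⟩
      · exact x.toMul.2 v hv
    obtain ⟨u, hu⟩ := exists_unit_of_ord_eq_zero (Units.ne_zero _) h0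
    refine ⟨Additive.ofMul u, ?_⟩
    have : ((SU.ofUnits s (Additive.ofMul u)).toMul : Fˣ) = (x.toMul : Fˣ) := Units.ext hu
    exact congrArg Additive.ofMul (Subtype.ext this)

/-- `v ^ h` is principal, `h` the class number. -/
lemma exists_ord_eq_classNumber (v : Pl F) :
    ∃ x : F, x ≠ 0 ∧ ord v x = classNumber F ∧ ∀ w : Pl F, w ≠ v → ord w x = 0 := by
  have hv0 : v.asIdeal ∈ nonZeroDivisors (Ideal (𝓞 F)) := mem_nonZeroDivisors_of_ne_zero v.ne_bot
  have h1 : (ClassGroup.mk0 ⟨v.asIdeal, hv0⟩) ^ classNumber F = 1 := pow_card_eq_one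
  rw [← map_pow, ClassGroup.mk0_eq_one_iff] at h1
  obtain ⟨a, ha⟩ := h1.principal
  have ha' : v.asIdeal ^ classNumber F = Ideal.span {a} := ha
  have ha0 : a ≠ 0 := by
    rintro rfl
    rw [Set.singleton_zero, Ideal.span_zero] at ha'
    exact v.ne_bot (pow_eq_zero_iff (classNumber_ne_zero F) |>.1 ha')
  have hmem : ∀ (w : Pl F) (n : ℕ), a ∈ w.asIdeal ^ n ↔ v.asIdeal ^ classNumber F ≤ w.asIdeal ^ n := by
    intro w n
    rw [ha', Ideal.span_singleton_le_iff_mem]
  refine ⟨a, by simpa using ha0, ?_, ?_⟩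
  · apply le_antisymm
    · by_contra hlt
      rw [not_le] at hlt
      have h2 : ((classNumber F + 1 : ℕ) : ℤ) ≤ ord v (a : F) := by push_cast; omega
      rw [le_ord_iff_mem_pow v ha0, hmem] at h2
      exact absurd h2 (not_le_of_gt (Ideal.pow_succ_lt_pow v.ne_bot _))
    · rw [le_ord_iff_mem_pow v ha0, hmem]
  · intro w hw
    apply le_antisymm _ (ord_nonneg_of_integer w a)
    by_contra hlt
    rw [not_le, ord_pos_iff_mem w ha0] at hlt
    have h2 : v.asIdeal ^ classNumber F ≤ w.asIdeal := by
      have := (hmem w 1).1 (by simpa using hlt)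
      simpa using this
    have h3 : v.asIdeal ≤ w.asIdeal := w.isPrime.le_of_pow_le h2
    exact hw (HeightOneSpectrum.ext (v.isMaximal.eq_of_le w.isPrime.ne_top h3)).symm


instance SU.instFinite (s : Finset (Pl F)) : Module.Finite ℤ (Additive (SU s)) := by
  constructor
  apply Submodule.fg_of_fg_map_of_fg_inf_ker (SU.ordMap s)
  · exact IsNoetherian.noetherian _
  · rw [top_inf_eq, ← SU.range_ofUnits, LinearMap.range_eq_map]
    exact Submodule.FG.map _ Module.Finite.fg_top

lemma SU.finrank_range_ordMap (s : Finset (Pl F)) :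
    finrank ℤ (LinearMap.range (SU.ordMap s)) = s.card := by
  classical
  apply le_antisymm
  · have := Submodule.finrank_le (LinearMap.range (SU.ordMap s))
    simpa using this
  · have hh : (classNumber F : ℤ) ≠ 0 := by exact_mod_cast classNumber_ne_zero F
    let m : (s → ℤ) →ₗ[ℤ] (s → ℤ) := (classNumber F : ℤ) • LinearMap.id
    have hm : Function.Injective m := by
      intro f g hfg
      funext v
      have := congrFun hfg v
      simpa [m, classNumber_ne_zero F] using this
    have h1 : finrank ℤ (LinearMap.range m) = s.card := by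
      rw [LinearMap.finrank_range_of_inj hm]
      simp
    rw [← h1]
    apply Submodule.finrank_mono
    rintro _ ⟨f, rfl⟩
    choose x hx0 hx1 hx2 using fun v : Pl F => exists_ord_eq_classNumber v
    have hxS : ∀ v : s, Units.mk0 (x v.1) (hx0 v.1) ∈ SU s := by
      intro v w hw
      exact hx2 v.1 w fun h => hw (h ▸ v.2)
    have : m f = ∑ v : s, f v • SU.ordMap s (Additive.ofMul ⟨_, hxS v⟩) := by
      funext w
      rw [Finset.sum_apply, Finset.sum_eq_single w]
      · simp only [m, LinearMap.smul_apply, LinearMap.id_apply, Pi.smul_apply, smul_eq_mul]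
        rw [SU.ordMap_apply]
        simp only [toMul_ofMul, Units.val_mk0]
        rw [hx1, mul_comm]
      · intro v _ hv
        rw [Pi.smul_apply, SU.ordMap_apply]
        simp only [toMul_ofMul, Units.val_mk0]
        rw [hx2 v.1 w.1 fun h => hv (Subtype.ext h.symm), smul_zero]
      · intro h
        exact absurd (Finset.mem_univ w) h
    rw [this]
    exact Submodule.sum_mem _ fun v _ => Submodule.smul_mem _ _ ⟨_, rfl⟩

/-- **S-unit theorem** (rank). -/
theorem SU.finrank_eq (s : Finset (Pl F)) :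
    finrank ℤ (Additive (SU s)) = Units.rank F + s.card := by
  rw [AbIdx.finrank_int_eq_range_add_ker (SU.ordMap s), SU.finrank_range_ordMap,
    ← SU.range_ofUnits, LinearMap.finrank_range_of_inj (SU.ofUnits_injective s),
    Units.finrank_eq, add_comm]

end Fermat.Agent.S14
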