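import Fermat.Agent.S14.Approx
import Fermat.Agent.S14.ModP
import Fermat.Agent.S14.SURank

set_option autoImplicit false

/-!
# S14 / SU: the S-unit theorem modulo `p`-th powers
-/

namespace Fermat.Agent.S14

open IsDedekindDomain NumberField Module

variable {p : ℕ} [Fact p.Prime] {F : Type*} [Field F] [NumberField F]

/-- `x` is a `Σ`-unit. -/
def IsSUnit (s : Finset (Pl F)) (x : F) : Prop := x ≠ 0 ∧ ∀ v, v ∉ s → ord v x = 0

omit [Fact p.Prime] in
lemma SU.card_ker_nsmul (hp : p ≠ 0) {ζ : F} (hζ : IsPrimitiveRoot ζ p) (s : Finset (Pl F)) :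
    Nat.card (nsmulAddMonoidHom p : Additive (SU s) →+ Additive (SU s)).ker = p := by
  have : NeZero p := ⟨hp⟩
  have h1 : Nat.card (rootsOfUnity p F) = p := hζ.card_rootsOfUnity
  refine Eq.trans (Nat.card_congr ?_) h1
  refine ⟨fun x => ⟨(x.1.toMul : Fˣ), ?_⟩, fun z => ⟨Additive.ofMul ⟨z.1, ?_⟩, ?_⟩,
    fun x => rfl, fun z => rfl⟩
  · have h2 : p • x.1 = 0 := x.2
    have h3 : (x.1.toMul) ^ p = 1 := h2
    rw [mem_rootsOfUnity]
    exact congrArg Subtype.val h3
  · intro v _
    have h2 : (z.1 : Fˣ) ^ p = 1 := (mem_rootsOfUnity _ _).1 z.2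
    have h3 : ((z.1 : Fˣ) : F) ^ p = 1 := by
      have := congrArg Units.val h2
      simpa using this
    have h4 := ord_pow v ((z.1 : Fˣ) : F) p
    rw [h3, ord_one] at h4
    have hp' : (p : ℤ) ≠ 0 := by exact_mod_cast hp
    exact (mul_eq_zero.1 h4.symm).resolve_left hp'
  · have h2 : (z.1 : Fˣ) ^ p = 1 := (mem_rootsOfUnity _ _).1 z.2
    change p • Additive.ofMul _ = 0
    rw [← ofMul_pow]
    exact congrArg Additive.ofMul (Subtype.ext h2)

/-- the class map on `Σ`-units -/
noncomputable def SU.clsHom (p : ℕ) (s : Finset (Pl F)) : Additive (SU s) →+ ModP p F :=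
  MonoidHom.toAdditive ((QuotientGroup.mk' (powMonoidHom p : Fˣ →* Fˣ).range).comp (SU s).subtype)

omit [Fact p.Prime] in
lemma SU.clsHom_apply (s : Finset (Pl F)) (x : Additive (SU s)) :
    SU.clsHom p s x = clsU p (x.toMul : Fˣ) := rfl

omit [Fact p.Prime] in
lemma SU.ker_clsHom (hp : p ≠ 0) (s : Finset (Pl F)) :
    (SU.clsHom p s).ker = (nsmulAddMonoidHom p : Additive (SU s) →+ Additive (SU s)).range := by
  ext x
  rw [AddMonoidHom.mem_ker, SU.clsHom_apply, clsU_eq_zero_iff]
  constructor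
  · rintro ⟨c, hc⟩
    have hcS : c ∈ SU s := by
      intro v hv
      have h1 := x.toMul.2 v hv
      rw [← hc, Units.val_pow_eq_pow_val, ord_pow] at h1
      have hp' : (p : ℤ) ≠ 0 := by exact_mod_cast hp
      exact (mul_eq_zero.1 h1).resolve_left hp'
    refine ⟨Additive.ofMul ⟨c, hcS⟩, ?_⟩
    change p • Additive.ofMul _ = x
    rw [← ofMul_pow]
    exact congrArg Additive.ofMul (Subtype.ext hc)
  · rintro ⟨c, rfl⟩
    exact ⟨(c.toMul : Fˣ), rfl⟩

/-- The subspace of `F^× / p` spanned by the `Σ`-units. -/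
noncomputable def SU.space (p : ℕ) [Fact p.Prime] (s : Finset (Pl F)) :
    Submodule (ZMod p) (ModP p F) :=
  AddSubgroup.toZModSubmodule p (SU.clsHom p s).range

lemma SU.card_space {ζ : F} (hζ : IsPrimitiveRoot ζ p) (s : Finset (Pl F)) :
    Nat.card (SU.space p s) = p ^ (Units.rank F + 1 + s.card) := by
  have hp : p ≠ 0 := (Fact.out : p.Prime).ne_zero
  have h1 : Nat.card (SU.space p s) = Nat.card (SU.clsHom p s).range :=
    Nat.card_congr (Equiv.subtypeEquivRight fun _ => Iff.rfl)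
  rw [h1, ← AddSubgroup.index_ker, SU.ker_clsHom hp, AbIdx.index_range_nsmul _ hp,
    SU.card_ker_nsmul hp hζ, SU.finrank_eq, ← pow_succ]
  congr 1
  ring

lemma SU.finite_space {ζ : F} (hζ : IsPrimitiveRoot ζ p) (s : Finset (Pl F)) :
    Finite (SU.space p s) := by
  apply Nat.finite_of_card_ne_zero
  rw [SU.card_space hζ]
  exact pow_ne_zero _ (Fact.out : p.Prime).ne_zero

/-- **S-unit theorem modulo `p`**. -/
theorem SU.finrank_space {ζ : F} (hζ : IsPrimitiveRoot ζ p) (s : Finset (Pl F)) :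
    finrank (ZMod p) (SU.space p s) = Units.rank F + 1 + s.card := by
  have := SU.finite_space hζ s
  have h1 := SU.card_space hζ s
  have : Fintype (SU.space p s) := Fintype.ofFinite _
  rw [Nat.card_eq_fintype_card, Module.card_eq_pow_finrank (K := ZMod p), ZMod.card] at h1
  exact Nat.pow_right_injective (Fact.out : p.Prime).two_le h1

lemma SU.mem_space_iff {s : Finset (Pl F)} {a : ModP p F} :
    a ∈ SU.space p s ↔ ∃ x : F, IsSUnit s x ∧ cls p x = a := by
  constructor
  · rintro ⟨x, rfl⟩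
    refine ⟨((x.toMul : Fˣ) : F), ⟨Units.ne_zero _, x.toMul.2⟩, ?_⟩
    rw [cls_of_ne_zero (Units.ne_zero _), SU.clsHom_apply]
    congr 1
    ext
    rfl
  · rintro ⟨x, ⟨hx0, hx⟩, rfl⟩
    refine ⟨Additive.ofMul ⟨Units.mk0 x hx0, hx⟩, ?_⟩
    rw [cls_of_ne_zero hx0, SU.clsHom_apply]
    rfl

/-- S-unit theorem, lower bound: `rank E + 1 + |Σ|` independent `Σ`-units modulo `p`-th powers
(`ζ_p ∈ F`). -/
theorem exists_sunit_indep {ζ : F} (hζ : IsPrimitiveRoot ζ p) (s : Finset (Pl F)) :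
    ∃ y : Fin (Units.rank F + 1 + s.card) → F, (∀ i, IsSUnit s (y i)) ∧ IndepModP p y := by
  have := SU.finite_space hζ s
  have : Module.Finite (ZMod p) (SU.space p s) := Module.Finite.of_finite
  let b := Module.finBasisOfFinrankEq (ZMod p) (SU.space p s) (SU.finrank_space hζ s)
  choose y hy1 hy2 using fun i => SU.mem_space_iff.1 (b i).2
  refine ⟨y, hy1, (indepModP_iff y fun i => (hy1 i).1).2 ?_⟩
  have h1 : (fun i => cls p (y i)) = (SU.space p s).subtype ∘ b := by
    funext i
    exact hy2 i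
  rw [h1]
  exact b.linearIndependent.map' _ (Submodule.ker_subtype _)

/-- S-unit theorem, upper bound. -/
theorem sunit_indep_card_le {ζ : F} (hζ : IsPrimitiveRoot ζ p) (s : Finset (Pl F))
    {ι : Type*} [Fintype ι] (y : ι → F) (hy : ∀ i, IsSUnit s (y i)) (hind : IndepModP p y) :
    Fintype.card ι ≤ Units.rank F + 1 + s.card := by
  have := SU.finite_space hζ s
  have : Module.Finite (ZMod p) (SU.space p s) := Module.Finite.of_finite
  rw [indepModP_iff y fun i => (hy i).1] at hind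
  let z : ι → SU.space p s := fun i => ⟨cls p (y i), SU.mem_space_iff.2 ⟨y i, hy i, rfl⟩⟩
  have hz : LinearIndependent (ZMod p) z := by
    apply LinearIndependent.of_comp (SU.space p s).subtype
    exact hind
  rw [← SU.finrank_space hζ s]
  exact hz.fintype_card_le_finrank

end Fermat.Agent.S14
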