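import Mathlib

set_option autoImplicit false

/-!
# S14: basic definitions (finite places, additive valuation, local p-th powers, divisor pairing)
-/

namespace Fermat.Agent.S14

open IsDedekindDomain NumberField

/-- Finite places of a number field. -/
abbrev Pl (F : Type*) [Field F] [NumberField F] := HeightOneSpectrum (𝓞 F)

section defs

variable {F : Type*} [Field F] [NumberField F]

/-- Additive normalised valuation of `x` at `v` (junk value `0` at `x = 0`). -/
noncomputable def ord (v : Pl F) (x : F) : ℤ := - WithZero.log (v.valuation F x)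

/-- `x = c ^ p * (1 + O(v ^ n))` for some `c ≠ 0`. -/
def LocPow (p : ℕ) (v : Pl F) (n : ℕ) (x : F) : Prop :=
  ∃ c : F, c ≠ 0 ∧ v.valuation F (x / c ^ p - 1) ≤ WithZero.exp (-(n : ℤ))

/-- `x` is a global `p`-th power. -/
def IsPPow (p : ℕ) (x : F) : Prop := ∃ c : F, c ^ p = x

/-- `v` lies above the rational prime `q`. -/
def Above (q : ℕ) (v : Pl F) : Prop := (q : 𝓞 F) ∈ v.asIdeal

/-- The pairing of a function on places with the divisor of `x`. -/
noncomputable def pair {p : ℕ} (m : Pl F → ZMod p) (x : F) : ZMod p :=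
  ∑ᶠ v : Pl F, ((ord v x : ℤ) : ZMod p) * m v

/-- Action of field automorphisms on places. -/
noncomputable def sigmaPl (σ : F ≃ₐ[ℚ] F) : Pl F ≃ Pl F :=
  HeightOneSpectrum.equivOfRingEquiv (RingOfIntegers.mapRingEquiv (σ : F ≃+* F))

end defs

end Fermat.Agent.S14
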