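import Fermat.Agent.S14.Approx
import Fermat.Agent.S14.ModP
import Fermat.Agent.S14.Sep.Int
import Fermat.Agent.Cheb.ZetaLog

set_option autoImplicit false

/-!
# S14 / FD: existence of places with prescribed `p`-th power residue behaviour
-/

namespace Fermat.Agent.S14

open IsDedekindDomain NumberField

namespace Sep

universe u

/-- The analytic input, from `Cheb/ZetaLog.lean`. -/
theorem analyticInput : AnalyticInput.{u} := by
  intro K _ _
  exact ⟨fun s hs => Cheb.summable_primeSum K hs, Cheb.primeSum_asymp K⟩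

variable {F : Type*} [Field F] [NumberField F] {p : ℕ}

theorem ord_eq_zero_of_notMem (v : Pl F) {x : 𝓞 F} (hx : x ∉ v.asIdeal) : ord v (x : F) = 0 := by
  have hx0 : x ≠ 0 := by
    rintro rfl
    exact hx v.asIdeal.zero_mem
  have h1 := ord_nonneg_of_integer v x
  have h2 : ¬ 0 < ord v (x : F) := fun h => hx ((ord_pos_iff_mem v hx0).1 h)
  omega

/-- Every nonzero `y` becomes integral after multiplication by a `p`-th power of an integer. -/
theorem exists_integer_mul_pow (hp : 0 < p) (y : F) (hy : y ≠ 0) :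
    ∃ a b : 𝓞 F, a ≠ 0 ∧ b ≠ 0 ∧ (a : F) = y * (b : F) ^ p := by
  obtain ⟨a, b, hb, rfl⟩ := IsFractionRing.div_surjective (A := 𝓞 F) y
  have hb0 : b ≠ 0 := nonZeroDivisors.ne_zero hb
  have hbF : (algebraMap (𝓞 F) F b) ≠ 0 := by simpa using hb0
  have ha0 : a ≠ 0 := by
    rintro rfl
    simp at hy
  refine ⟨a * b ^ (p - 1), b, mul_ne_zero ha0 (pow_ne_zero _ hb0), hb0, ?_⟩
  obtain ⟨k, rfl⟩ : ∃ k, p = k + 1 := ⟨p - 1, by omega⟩
  simp only [Nat.add_sub_cancel, map_mul, map_pow]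
  rw [div_mul_eq_mul_div, eq_div_iff hbF, pow_succ]
  ring

/-- A nonzero integer lying in all the places of a finite set. -/
theorem exists_mem_all (s : Finset (Pl F)) : ∃ d : 𝓞 F, d ≠ 0 ∧ ∀ v ∈ s, d ∈ v.asIdeal := by
  classical
  refine ⟨∏ v ∈ s, ((Ideal.absNorm v.asIdeal : ℕ) : 𝓞 F), ?_, ?_⟩
  · refine Finset.prod_ne_zero_iff.2 fun v _ => ?_
    have : Ideal.absNorm v.asIdeal ≠ 0 := by
      rw [Ne, Ideal.absNorm_eq_zero_iff]; exact v.ne_bot
    exact_mod_cast this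
  · intro v hv
    exact v.asIdeal.mem_of_dvd (Finset.dvd_prod_of_mem _ hv) (Ideal.absNorm_mem _)

theorem ord_eq_zero_of_eq_mul_pow (v : Pl F) {y : F} {a b : 𝓞 F} (hy : y ≠ 0)
    (hab : (a : F) = y * (b : F) ^ p) (ha : a ∉ v.asIdeal) (hb : b ∉ v.asIdeal) :
    ord v y = 0 := by
  have hb0 : (b : F) ≠ 0 := by
    intro h
    apply hb
    have : b = 0 := by simpa using h
    rw [this]; exact v.asIdeal.zero_mem
  have h1 := ord_eq_zero_of_notMem v ha
  rw [hab, ord_mul v hy (pow_ne_zero _ hb0), ord_pow, ord_eq_zero_of_notMem v hb] at h1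
  simpa using h1

theorem locPow_iff_of_eq_mul_pow (v : Pl F) {y : F} {a b : 𝓞 F}
    (hab : (a : F) = y * (b : F) ^ p) (ha : a ∉ v.asIdeal) (hb0 : b ≠ 0) :
    LocPow p v 1 y ↔ ∃ c : 𝓞 F, c ^ p - a ∈ v.asIdeal := by
  have hbF : (b : F) ≠ 0 := by simpa using hb0
  rw [← locPow_one_iff_exists_pow_sub_mem v a ha, hab]
  constructor
  · intro h
    exact h.mul (locPow_ppow v 1 hbF)
  · intro h
    have h2 := h.mul (locPow_ppow (p := p) v 1 (inv_ne_zero hbF))
    have h3 : y * (b : F) ^ p * ((b : F)⁻¹) ^ p = y := by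
      rw [mul_assoc, ← mul_pow, mul_inv_cancel₀ hbF, one_pow, mul_one]
    rwa [h3] at h2

end Sep

variable {p : ℕ} [Fact p.Prime] {F : Type*} [Field F] [NumberField F]

/-- **NS'** (analytic).  If `y` is not a `p`-th power in the number field `F ∋ ζ_p`, there is a
place of absolute degree one, outside any given finite set, at which `y` is a unit and not a
`p`-th power residue. -/
theorem exists_place_not_locPow {ζ : F} (hζ : IsPrimitiveRoot ζ p) (y : F) (hy0 : y ≠ 0)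
    (hy : ¬ IsPPow p y) (s : Finset (Pl F)) :
    ∃ v : Pl F, v ∉ s ∧ ¬ Above p v ∧ (Ideal.absNorm v.asIdeal).Prime ∧ ord v y = 0 ∧
      ¬ LocPow p v 1 y := by
  have hp : p.Prime := Fact.out
  obtain ⟨a, b, ha0, hb0, hab⟩ := Sep.exists_integer_mul_pow hp.pos y hy0
  obtain ⟨ds, hds0, hds⟩ := Sep.exists_mem_all s
  have hbF : (b : F) ≠ 0 := by simpa using hb0
  have hp0 : (p : 𝓞 F) ≠ 0 := by exact_mod_cast hp.ne_zero
  have ha : ¬ IsPPow p (a : F) := by
    rintro ⟨c, hc⟩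
    apply hy
    refine ⟨c / b, ?_⟩
    rw [div_pow, hc, hab, mul_div_cancel_right₀ _ (pow_ne_zero _ hbF)]
  obtain ⟨P, hP1, hP2, hP3, hP4⟩ := Sep.exists_prime_not_residue Sep.analyticInput hp hζ a
    (ds * a * b * (p : 𝓞 F)) (mul_ne_zero (mul_ne_zero (mul_ne_zero hds0 ha0) hb0) hp0) ha
  have hPbot : P ≠ ⊥ := by
    rintro rfl
    rw [Ideal.absNorm_bot] at hP2
    exact Nat.not_prime_zero hP2
  have h1 : ds ∉ P := fun h => hP3 (P.mul_mem_right _ (P.mul_mem_right _ (P.mul_mem_right _ h)))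
  have h2 : a ∉ P := fun h => hP3 (P.mul_mem_right _ (P.mul_mem_right _ (P.mul_mem_left _ h)))
  have h3 : b ∉ P := fun h => hP3 (P.mul_mem_right _ (P.mul_mem_left _ h))
  have h4 : (p : 𝓞 F) ∉ P := fun h => hP3 (P.mul_mem_left _ h)
  refine ⟨⟨P, hP1, hPbot⟩, fun hv => h1 (hds _ hv), h4, hP2,
    Sep.ord_eq_zero_of_eq_mul_pow _ hy0 hab h2 h3, ?_⟩
  rw [Sep.locPow_iff_of_eq_mul_pow _ hab h2 hb0]
  exact hP4

/-- **FD**.  `y_i` independent modulo `p`-th powers: there is a place `v` (outside a finite set,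
not above `p`, all `y_i` units) at which all `y_i`, `i ≠ j`, are residues and `y_j` is not. -/
theorem exists_place_sep {ζ : F} (hζ : IsPrimitiveRoot ζ p) {ι : Type*} [Fintype ι]
    (y : ι → F) (hy : IndepModP p y) (j : ι) (s : Finset (Pl F)) :
    ∃ v : Pl F, v ∉ s ∧ ¬ Above p v ∧ (∀ i, ord v (y i) = 0) ∧
      (∀ i, i ≠ j → LocPow p v 1 (y i)) ∧ ¬ LocPow p v 1 (y j) := by
  classical
  have hp : p.Prime := Fact.out
  obtain ⟨hy0, hind⟩ := hy
  choose a b ha0 hb0 hab using fun i => Sep.exists_integer_mul_pow hp.pos (y i) (hy0 i)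
  obtain ⟨ds, hds0, hds⟩ := Sep.exists_mem_all s
  have hbF : ∀ i, (b i : F) ≠ 0 := fun i => by simpa using hb0 i
  have hp0 : (p : 𝓞 F) ≠ 0 := by exact_mod_cast hp.ne_zero
  have hind' : ∀ e : ι → ℤ, IsPPow p (∏ i, (a i : F) ^ e i) → ∀ i, (p : ℤ) ∣ e i := by
    rintro e ⟨c, hc⟩
    apply hind e
    refine ⟨c / ∏ i, (b i : F) ^ e i, ?_⟩
    rw [div_pow, hc, ← Finset.prod_pow, ← Finset.prod_div_distrib]
    refine Finset.prod_congr rfl fun i _ => ?_
    rw [hab i, mul_zpow, ← zpow_natCast ((b i : F) ^ e i), ← zpow_mul, ← zpow_natCast (b i : F),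
      ← zpow_mul, mul_comm (e i) (p : ℤ), mul_div_cancel_right₀ _ (zpow_ne_zero _ (hbF i))]
  obtain ⟨P, hP1, hPbot, hP3, hP4, hP5⟩ := Sep.exists_prime_sep Sep.analyticInput hp hζ a ha0 hind'
    j (ds * (∏ i, (a i * b i)) * (p : 𝓞 F))
    (mul_ne_zero (mul_ne_zero hds0 (Finset.prod_ne_zero_iff.2 fun i _ =>
      mul_ne_zero (ha0 i) (hb0 i))) hp0)
  have h1 : ds ∉ P := fun h => hP3 (P.mul_mem_right _ (P.mul_mem_right _ h))
  have h23 : ∀ i, a i * b i ∉ P := fun i h => hP3 (P.mul_mem_right _ (P.mul_mem_left _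
    (P.mem_of_dvd (Finset.dvd_prod_of_mem _ (Finset.mem_univ i)) h)))
  have h2 : ∀ i, a i ∉ P := fun i h => h23 i (P.mul_mem_right _ h)
  have h3 : ∀ i, b i ∉ P := fun i h => h23 i (P.mul_mem_left _ h)
  have h4 : (p : 𝓞 F) ∉ P := fun h => hP3 (P.mul_mem_left _ h)
  refine ⟨⟨P, hP1, hPbot⟩, fun hv => h1 (hds _ hv), h4,
    fun i => Sep.ord_eq_zero_of_eq_mul_pow _ (hy0 i) (hab i) (h2 i) (h3 i), fun i hi => ?_, ?_⟩
  · rw [Sep.locPow_iff_of_eq_mul_pow _ (hab i) (h2 i) (hb0 i)]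
    exact hP4 i hi
  · rw [Sep.locPow_iff_of_eq_mul_pow _ (hab j) (h2 j) (hb0 j)]
    exact hP5

end Fermat.Agent.S14
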