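import Fermat.Agent.S14.Basic

set_option autoImplicit false

/-!
# S14 / WP-B: weak approximation, class group generation, residue structure at tame places
-/

namespace Fermat.Agent.S14

open IsDedekindDomain NumberField

variable {F : Type*} [Field F] [NumberField F] {p : ℕ}

namespace Approx

lemma lt_one_iff_le_exp (x : WithZero (Multiplicative ℤ)) : x < 1 ↔ x ≤ WithZero.exp (-1 : ℤ) := by
  have h := WithZero.lt_mul_exp_iff_le (x := x) (y := WithZero.exp (-1 : ℤ)) WithZero.exp_ne_zero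
  rw [← WithZero.exp_add] at h
  simpa using h

lemma exp_neg_succ_lt_one (n : ℕ) : WithZero.exp (-((n + 1 : ℕ) : ℤ)) < (1 : WithZero (Multiplicative ℤ)) := by
  rw [← WithZero.exp_zero, WithZero.exp_lt_exp]
  push_cast; omega

end Approx

open Approx

/-- Weak approximation at finitely many finite places (multiplicative form). -/
theorem exists_approx (s : Finset (Pl F)) (a : Pl F → F) (ha : ∀ v ∈ s, a v ≠ 0) (n : ℕ) :
    ∃ x : F, x ≠ 0 ∧ ∀ v ∈ s, v.valuation F (x / a v - 1) ≤ WithZero.exp (-(n : ℤ)) := by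
  classical
  rcases s.eq_empty_or_nonempty with rfl | hne
  · exact ⟨1, one_ne_zero, by simp⟩
  obtain ⟨d, hd⟩ := IsLocalization.exist_integer_multiples_of_finset (nonZeroDivisors (𝓞 F))
    (s.image a)
  have hd0 : ((d : 𝓞 F) : F) ≠ 0 := by
    have := nonZeroDivisors.ne_zero d.2
    exact_mod_cast this
  have hb : ∀ v : s, ∃ b : 𝓞 F, (b : F) = (d : 𝓞 F) * a v := by
    intro v
    obtain ⟨b, hb⟩ := hd (a v) (Finset.mem_image_of_mem a v.2)
    refine ⟨b, ?_⟩
    have h1 : (b : F) = algebraMap (𝓞 F) F b := rfl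
    rw [h1, hb, Algebra.smul_def]
  choose b hb using hb
  have hb0 : ∀ v : s, (b v : F) ≠ 0 := fun v => by
    rw [hb]; exact mul_ne_zero hd0 (ha v v.2)
  have hk : ∀ v : s, ∃ k : ℕ, WithZero.exp (-(k : ℤ)) < (v : Pl F).valuation F (b v : F) := fun v =>
    WithZero.exists_exp_neg_natCast_lt ((Valuation.ne_zero_iff _).2 (hb0 v))
  choose k hk using hk
  let e : Pl F → ℕ := fun v => if h : v ∈ s then n + 1 + k ⟨v, h⟩ else 0
  obtain ⟨y, hy⟩ := IsDedekindDomain.exists_forall_sub_mem_ideal (s := s)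
    (fun v : Pl F => v.asIdeal) e (fun v _ => v.prime)
    (fun v _ w _ hvw h => hvw (HeightOneSpectrum.ext h)) b
  have key : ∀ v ∈ s, v.valuation F ((y : F) / (d : 𝓞 F) / a v - 1) ≤
      WithZero.exp (-((n + 1 : ℕ) : ℤ)) := by
    intro v hv
    have h1 : (y : F) / (d : 𝓞 F) / a v - 1 = ((y - b ⟨v, hv⟩ : 𝓞 F) : F) / (b ⟨v, hv⟩ : F) := by
      have := hb ⟨v, hv⟩
      have h0 := hb0 ⟨v, hv⟩
      have ha' := ha v hv
      have hsub : ((y - b ⟨v, hv⟩ : 𝓞 F) : F) = (y : F) - (b ⟨v, hv⟩ : F) :=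
        map_sub (algebraMap (𝓞 F) F) _ _
      rw [hsub, this]
      field_simp
    have h2 : v.valuation F ((y - b ⟨v, hv⟩ : 𝓞 F) : F) ≤ WithZero.exp (-((e v : ℕ) : ℤ)) := by
      have := hy v hv
      rw [← HeightOneSpectrum.intValuation_le_pow_iff_mem] at this
      rwa [HeightOneSpectrum.valuation_of_algebraMap]
    have h3 : e v = n + 1 + k ⟨v, hv⟩ := dif_pos hv
    have h4 := hk ⟨v, hv⟩
    have h5 : v.valuation F (b ⟨v, hv⟩ : F) ≠ 0 := (Valuation.ne_zero_iff _).2 (hb0 ⟨v, hv⟩)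
    rw [h1, map_div₀, div_le_iff₀ (zero_lt_iff.2 h5)]
    refine h2.trans ?_
    rw [h3]
    have h6 : WithZero.exp (-((n + 1 + k ⟨v, hv⟩ : ℕ) : ℤ)) =
        WithZero.exp (-((n + 1 : ℕ) : ℤ)) * WithZero.exp (-((k ⟨v, hv⟩ : ℕ) : ℤ)) := by
      rw [← WithZero.exp_add]; congr 1; push_cast; ring
    rw [h6]
    exact mul_le_mul_right h4.le _
  refine ⟨(y : F) / (d : 𝓞 F), ?_, fun v hv => (key v hv).trans ?_⟩
  · obtain ⟨v, hv⟩ := hne
    intro h0
    have := key v hv
    rw [h0, zero_div, zero_sub, Valuation.map_neg, map_one] at this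
    exact absurd this (not_le.2 (exp_neg_succ_lt_one n))
  · rw [WithZero.exp_le_exp]; push_cast; omega

theorem exists_ord_eq (s : Finset (Pl F)) (e : Pl F → ℤ) :
    ∃ x : F, x ≠ 0 ∧ ∀ v ∈ s, ord v x = e v := by
  have hπ : ∀ v : Pl F, ∃ π : F, v.valuation F π = WithZero.exp (-1 : ℤ) := fun v =>
    v.valuation_exists_uniformizer F
  choose π hπ using hπ
  have hπ0 : ∀ v, π v ≠ 0 := fun v => by
    rw [← Valuation.ne_zero_iff (v.valuation F), hπ]; exact WithZero.exp_ne_zero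
  have hord : ∀ v, ord v (π v) = 1 := fun v => by
    rw [ord, hπ, WithZero.log_exp]; simp
  obtain ⟨x, hx0, hx⟩ := exists_approx s (fun v => π v ^ e v) (fun v _ => zpow_ne_zero _ (hπ0 v)) 1
  refine ⟨x, hx0, fun v hv => ?_⟩
  have h1 : v.valuation F (x / π v ^ e v - 1) < 1 := by
    rw [lt_one_iff_le_exp]; exact hx v hv
  have h2 := ord_eq_zero_of_valuation_sub_one_lt v h1
  rw [ord_div v hx0 (zpow_ne_zero _ (hπ0 v)), ord_zpow, hord] at h2
  linarith

/-- The places in `St` generate the ideal class group. -/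
def GenCl (St : Finset (Pl F)) : Prop :=
  ∀ v : Pl F, v ∉ St → ∃ γ : F, γ ≠ 0 ∧ ord v γ = 1 ∧ ∀ w, w ∉ St → w ≠ v → ord w γ = 0

theorem GenCl.exists_ord_eq {St : Finset (Pl F)} (h : GenCl St) (s : Finset (Pl F))
    (e : Pl F → ℤ) :
    ∃ γ : F, γ ≠ 0 ∧ (∀ w ∈ s, w ∉ St → ord w γ = e w) ∧ ∀ w, w ∉ St → w ∉ s → ord w γ = 0 := by
  classical
  induction s using Finset.induction_on with
  | empty => exact ⟨1, one_ne_zero, by simp, fun w _ _ => ord_one w⟩
  | insert v s hv ih =>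
    obtain ⟨γ, hγ0, h1, h2⟩ := ih
    by_cases hvS : v ∈ St
    · refine ⟨γ, hγ0, fun w hw hwS => ?_, fun w hwS hw => ?_⟩
      · rcases Finset.mem_insert.1 hw with rfl | hw
        · exact absurd hvS hwS
        · exact h1 w hw hwS
      · exact h2 w hwS fun h => hw (Finset.mem_insert_of_mem h)
    · obtain ⟨δ, hδ0, h3, h4⟩ := h v hvS
      refine ⟨γ * δ ^ e v, mul_ne_zero hγ0 (zpow_ne_zero _ hδ0), fun w hw hwS => ?_,
        fun w hwS hw => ?_⟩
      · rw [ord_mul w hγ0 (zpow_ne_zero _ hδ0), ord_zpow]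
        rcases Finset.mem_insert.1 hw with rfl | hw
        · rw [h2 w hwS hv, h3]; ring
        · have hne : w ≠ v := fun h => hv (h ▸ hw)
          rw [h1 w hw hwS, h4 w hwS hne]; ring
      · rw [ord_mul w hγ0 (zpow_ne_zero _ hδ0), ord_zpow]
        have hne : w ≠ v := fun h => hw (h ▸ Finset.mem_insert_self v s)
        rw [h2 w hwS fun h => hw (Finset.mem_insert_of_mem h), h4 w hwS hne]; ring

theorem GenCl.mono {St St' : Finset (Pl F)} (h : GenCl St) (hs : St ⊆ St') : GenCl St' := by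
  intro v hv
  obtain ⟨γ, h0, h1, h2⟩ := h v fun h => hv (hs h)
  exact ⟨γ, h0, h1, fun w hw hne => h2 w (fun h => hw (hs h)) hne⟩

open FractionalIdeal in
/-- A finite Galois-stable set of places generating the class group, containing `incl` and
avoiding the (Galois-stable) set `avoid`. -/
theorem exists_genCl (incl avoid : Finset (Pl F))
    (hincl : ∀ σ : F ≃ₐ[ℚ] F, ∀ v ∈ incl, sigmaPl σ v ∉ avoid) :
    ∃ St : Finset (Pl F), incl ⊆ St ∧ Disjoint St avoid ∧ GenCl St ∧
      ∀ σ : F ≃ₐ[ℚ] F, ∀ v ∈ St, sigmaPl σ v ∈ St := by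
  classical
  have : Fintype (F ≃ₐ[ℚ] F) := Fintype.ofFinite _
  let orb : Finset (Pl F) → Finset (Pl F) := fun T =>
    T.biUnion fun v => Finset.univ.image fun σ : F ≃ₐ[ℚ] F => sigmaPl σ v
  have mem_orb : ∀ T w, w ∈ orb T ↔ ∃ v ∈ T, ∃ σ : F ≃ₐ[ℚ] F, sigmaPl σ v = w := by
    intro T w
    simp [orb]
  have hI : ∀ C : ClassGroup (𝓞 F), ∃ I : nonZeroDivisors (Ideal (𝓞 F)), ClassGroup.mk0 I = C :=
    ClassGroup.mk0_surjective
  choose I hI using hI
  have hI0 : ∀ C, ((I C : Ideal (𝓞 F)) : FractionalIdeal (nonZeroDivisors (𝓞 F)) F) ≠ 0 := fun C =>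
    coeIdeal_ne_zero.mpr (nonZeroDivisors.ne_zero (I C).2)
  have hx : ∀ C, ∃ x : F, x ≠ 0 ∧ ∀ w ∈ orb avoid, ord w x =
      - count F w ((I C : Ideal (𝓞 F)) : FractionalIdeal (nonZeroDivisors (𝓞 F)) F) := fun C =>
    exists_ord_eq _ _
  choose x hx0 hx using hx
  let J : ClassGroup (𝓞 F) → FractionalIdeal (nonZeroDivisors (𝓞 F)) F := fun C =>
    spanSingleton _ (x C) * ((I C : Ideal (𝓞 F)) : FractionalIdeal (nonZeroDivisors (𝓞 F)) F)
  have hJcount : ∀ C w, count F w (J C) = ord w (x C) +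
      count F w ((I C : Ideal (𝓞 F)) : FractionalIdeal (nonZeroDivisors (𝓞 F)) F) := by
    intro C w
    rw [count_mul F w (spanSingleton_ne_zero_iff.mpr (hx0 C)) (hI0 C), ord_eq_count w (hx0 C)]
  have hfin : ∀ C, {w : Pl F | count F w (J C) ≠ 0}.Finite := fun C => finite_factors (J C)
  let T : Finset (Pl F) := incl ∪ Finset.univ.biUnion fun C => (hfin C).toFinset
  refine ⟨orb T, ?_, ?_, ?_, ?_⟩
  · intro v hv
    exact (mem_orb _ _).2 ⟨v, Finset.mem_union_left _ hv, 1, sigmaPl_one v⟩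
  · rw [Finset.disjoint_left]
    intro w hw hwa
    obtain ⟨u, hu, σ, rfl⟩ := (mem_orb _ _).1 hw
    rcases Finset.mem_union.1 hu with hu | hu
    · exact hincl σ u hu hwa
    · obtain ⟨C, -, hC⟩ := Finset.mem_biUnion.1 hu
      rw [Set.Finite.mem_toFinset] at hC
      apply hC
      have hu' : u ∈ orb avoid := by
        refine (mem_orb _ _).2 ⟨_, hwa, σ⁻¹, ?_⟩
        rw [← sigmaPl_mul, inv_mul_cancel, sigmaPl_one]
      rw [hJcount, hx C u hu']; ring
  · intro v hv
    have hv0 : v.asIdeal ∈ nonZeroDivisors (Ideal (𝓞 F)) :=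
      mem_nonZeroDivisors_iff_ne_zero.2 v.ne_bot
    set C := ClassGroup.mk0 ⟨v.asIdeal, hv0⟩ with hC
    obtain ⟨y, hy0, hy⟩ := (ClassGroup.mk0_eq_mk0_iff_exists_fraction_ring F).1 (hI C)
    have hcount : ∀ w, ord w (y / x C) =
        count F w ((v.asIdeal : Ideal (𝓞 F)) : FractionalIdeal (nonZeroDivisors (𝓞 F)) F) -
          count F w (J C) := by
      intro w
      have h1 := congrArg (count F w) hy
      rw [count_mul F w (spanSingleton_ne_zero_iff.mpr hy0) (hI0 C), ← ord_eq_count w hy0] at h1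
      rw [ord_div w hy0 (hx0 C), hJcount]
      simp only at h1
      linarith
    have hJ0 : ∀ w, w ∉ orb T → count F w (J C) = 0 := by
      intro w hw
      by_contra h
      apply hw
      refine (mem_orb _ _).2 ⟨w, Finset.mem_union_right _ ?_, 1, sigmaPl_one w⟩
      exact Finset.mem_biUnion.2 ⟨C, Finset.mem_univ _, (Set.Finite.mem_toFinset _).2 h⟩
    refine ⟨y / x C, div_ne_zero hy0 (hx0 C), ?_, fun w hw hne => ?_⟩
    · rw [hcount, hJ0 v hv, count_self]; ring
    · rw [hcount, hJ0 w hw, count_maximal_coprime F w hne.symm]; ring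
  · intro τ w hw
    obtain ⟨u, hu, σ, rfl⟩ := (mem_orb _ _).1 hw
    exact (mem_orb _ _).2 ⟨u, hu, τ * σ, sigmaPl_mul τ σ u⟩

namespace Approx

/-- `p`-th powers in a finite field. -/
lemma exists_pow_eq_iff {k : Type*} [Field k] [Finite k] {p : ℕ} (hp0 : p ≠ 0)
    (hp : p ∣ Nat.card k - 1) {a : k} (ha : a ≠ 0) :
    (∃ c : k, c ^ p = a) ↔ a ^ ((Nat.card k - 1) / p) = 1 := by
  classical
  have : Fintype k := Fintype.ofFinite k
  obtain ⟨t, ht⟩ := hp
  have hq : Nat.card k - 1 = Fintype.card kˣ := by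
    rw [Nat.card_eq_fintype_card, Fintype.card_units]
  have hdiv : (Nat.card k - 1) / p = t := by
    rw [ht]; exact Nat.mul_div_cancel_left _ (Nat.pos_of_ne_zero hp0)
  rw [hdiv]
  constructor
  · rintro ⟨c, rfl⟩
    have hc : c ≠ 0 := by rintro rfl; exact ha (zero_pow hp0)
    rw [← pow_mul, ← ht, Nat.card_eq_fintype_card]
    exact FiniteField.pow_card_sub_one_eq_one c hc
  · intro h
    obtain ⟨g, hg⟩ := IsCyclic.exists_generator (α := kˣ)
    have hord : orderOf g = Fintype.card kˣ := by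
      rw [orderOf_eq_card_of_forall_mem_zpowers hg, Nat.card_eq_fintype_card]
    obtain ⟨m, hm⟩ := (mem_powers_iff_mem_zpowers (y := Units.mk0 a ha)).2 (hg _)
    have h1 : g ^ (m * t) = 1 := by
      rw [pow_mul]
      simp only at hm
      rw [hm]
      apply Units.ext
      simpa using h
    have h2 : p * t ∣ m * t := by
      rw [← ht, hq, ← hord]; exact orderOf_dvd_of_pow_eq_one h1
    have ht0 : 0 < t := by
      rcases Nat.eq_zero_or_pos t with rfl | h0
      · exfalso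
        rw [mul_zero, hq] at ht
        exact Fintype.card_ne_zero ht
      · exact h0
    obtain ⟨r, rfl⟩ := Nat.dvd_of_mul_dvd_mul_right ht0 h2
    refine ⟨((g ^ r : kˣ) : k), ?_⟩
    have := congrArg (fun u : kˣ => (u : k)) hm
    simp only [Units.val_mk0] at this
    rw [← this]
    push_cast
    rw [← pow_mul, mul_comm]

/-- Principal units at `v`. -/
def U1 (v : Pl F) : Subgroup Fˣ where
  carrier := {u | v.valuation F ((u : F) - 1) < 1}
  one_mem' := by simp
  mul_mem' := by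
    intro x y hx hy
    change v.valuation F ((x : F) - 1) < 1 at hx
    change v.valuation F ((y : F) - 1) < 1 at hy
    change v.valuation F (((x * y : Fˣ) : F) - 1) < 1
    have hy1 : v.valuation F (y : F) = 1 := by
      have := Valuation.map_one_add_of_lt _ hy
      rwa [add_sub_cancel] at this
    have h : ((x * y : Fˣ) : F) - 1 = ((x : F) - 1) * y + ((y : F) - 1) := by push_cast; ring
    rw [h]
    refine lt_of_le_of_lt (Valuation.map_add _ _ _) (max_lt ?_ hy)
    rwa [map_mul, hy1, mul_one]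
  inv_mem' := by
    intro x hx
    change v.valuation F ((x : F) - 1) < 1 at hx
    change v.valuation F (((x⁻¹ : Fˣ) : F) - 1) < 1
    have hx1 : v.valuation F (x : F) = 1 := by
      have := Valuation.map_one_add_of_lt _ hx
      rwa [add_sub_cancel] at this
    have h : ((x⁻¹ : Fˣ) : F) - 1 = -(((x : F) - 1) / x) := by
      have := x.ne_zero
      push_cast; field_simp; ring
    rw [h, Valuation.map_neg, map_div₀, hx1, div_one]
    exact hx

lemma mem_U1 (v : Pl F) (u : Fˣ) : u ∈ U1 v ↔ v.valuation F ((u : F) - 1) < 1 := Iff.rfl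

lemma valuation_eq_one_of_ord (v : Pl F) {x : F} (hx0 : x ≠ 0) (hx : ord v x = 0) :
    v.valuation F x = 1 := by
  rw [valuation_eq_exp_neg_ord v hx0, hx]; simp

lemma ord_eq_zero_of_notMem (v : Pl F) {a : 𝓞 F} (ha : a ∉ v.asIdeal) : ord v (a : F) = 0 := by
  have ha0 : a ≠ 0 := by rintro rfl; exact ha (zero_mem _)
  have h1 := ord_nonneg_of_integer v a
  have h2 := (ord_pos_iff_mem v ha0).not.2 ha
  omega

lemma coe_ne_zero_of_notMem (v : Pl F) {a : 𝓞 F} (ha : a ∉ v.asIdeal) : (a : F) ≠ 0 := by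
  have ha0 : a ≠ 0 := by rintro rfl; exact ha (zero_mem _)
  exact_mod_cast ha0

/-- A `v`-unit is congruent to an integer. -/
lemma exists_int_close (v : Pl F) {x : F} (hx0 : x ≠ 0) (hx : ord v x = 0) :
    ∃ a : 𝓞 F, a ∉ v.asIdeal ∧ v.valuation F ((a : F) / x - 1) < 1 := by
  have hx1 := valuation_eq_one_of_ord v hx0 hx
  obtain ⟨a, ha⟩ := v.exists_valuation_sub_lt_of_integer (K := F) hx1.le 1
  have ha' : v.valuation F ((a : F) - x) < 1 := by simpa using ha
  refine ⟨a, fun hmem => ?_, ?_⟩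
  · have h1 : v.valuation F (a : F) < 1 := (v.valuation_lt_one_iff_mem a).2 hmem
    have h2 : x = (a : F) - ((a : F) - x) := by ring
    have h3 : v.valuation F x < 1 := by
      rw [h2]
      exact lt_of_le_of_lt (Valuation.map_sub _ _ _) (max_lt h1 ha')
    rw [hx1] at h3
    exact lt_irrefl _ h3
  · have h : (a : F) / x - 1 = ((a : F) - x) / x := by field_simp
    rw [h, map_div₀, hx1, div_one]
    exact ha'

lemma card_quot (v : Pl F) : Nat.card (𝓞 F ⧸ v.asIdeal) = Ideal.absNorm v.asIdeal := by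
  rw [Ideal.absNorm_apply, Submodule.cardQuot_apply]

lemma finite_quot (v : Pl F) : Finite (𝓞 F ⧸ v.asIdeal) :=
  Ideal.finiteQuotientOfFreeOfNeBot v.asIdeal v.ne_bot

lemma mk_ne_zero (v : Pl F) {a : 𝓞 F} (ha : a ∉ v.asIdeal) :
    Ideal.Quotient.mk v.asIdeal a ≠ 0 := by
  rwa [Ne, Ideal.Quotient.eq_zero_iff_mem]

lemma exists_pow_sub_mem_iff (v : Pl F) (a : 𝓞 F) :
    (∃ c : 𝓞 F, c ^ p - a ∈ v.asIdeal) ↔
      ∃ c : 𝓞 F ⧸ v.asIdeal, c ^ p = Ideal.Quotient.mk v.asIdeal a := by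
  constructor
  · rintro ⟨c, hc⟩
    exact ⟨Ideal.Quotient.mk _ c, by rw [← map_pow]; exact Ideal.Quotient.eq.2 hc⟩
  · rintro ⟨c, hc⟩
    obtain ⟨c, rfl⟩ := Ideal.Quotient.mk_surjective c
    exact ⟨c, by rw [← map_pow] at hc; exact Ideal.Quotient.eq.1 hc⟩

end Approx

open Approx

/-- `LocPow` for integers: `a` is a `p`-th power residue mod `v`. -/
theorem locPow_one_iff_exists_pow_sub_mem (v : Pl F) (a : 𝓞 F) (ha : a ∉ v.asIdeal) :
    LocPow p v 1 (a : F) ↔ ∃ c : 𝓞 F, c ^ p - a ∈ v.asIdeal := by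
  have ha0 := coe_ne_zero_of_notMem v ha
  have hao := ord_eq_zero_of_notMem v ha
  have ha1 := valuation_eq_one_of_ord v ha0 hao
  constructor
  · rintro ⟨c, hc0, hc⟩
    have hc' : v.valuation F ((a : F) / c ^ p - 1) < 1 := by
      rw [lt_one_iff_le_exp]; simpa using hc
    rcases Nat.eq_zero_or_pos p with rfl | hp
    · refine ⟨1, ?_⟩
      rw [pow_zero, div_one] at hc'
      have h1 : v.valuation F ((a - 1 : 𝓞 F) : F) < 1 := by
        have : ((a - 1 : 𝓞 F) : F) = (a : F) - 1 := by push_cast; ring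
        rwa [this]
      have h2 := (v.valuation_lt_one_iff_mem (K := F) (a - 1)).1 h1
      rw [pow_zero]
      have : (1 : 𝓞 F) - a = -(a - 1) := by ring
      rw [this]; exact neg_mem h2
    · have h1 := ord_eq_zero_of_valuation_sub_one_lt v hc'
      rw [ord_div v ha0 (pow_ne_zero _ hc0), hao, ord_pow] at h1
      have hco : ord v c = 0 := by
        have h2 : (p : ℤ) * ord v c = 0 := by linarith
        rcases mul_eq_zero.1 h2 with h | h
        · exfalso; have : p = 0 := by exact_mod_cast h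
          omega
        · exact h
      obtain ⟨c', hc'mem, hc'c⟩ := exists_int_close v hc0 hco
      have hc'0 := coe_ne_zero_of_notMem v hc'mem
      refine ⟨c', ?_⟩
      -- work in the group of principal units
      have m1 : Units.mk0 (c' : F) hc'0 / Units.mk0 c hc0 ∈ U1 v := by
        rw [mem_U1]; simpa using hc'c
      have m2 : Units.mk0 (a : F) ha0 / (Units.mk0 c hc0) ^ p ∈ U1 v := by
        rw [mem_U1]; simpa using hc'
      have m3 := (U1 v).mul_mem ((U1 v).pow_mem m1 p) ((U1 v).inv_mem m2)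
      have e : (Units.mk0 (c' : F) hc'0 / Units.mk0 c hc0) ^ p *
          (Units.mk0 (a : F) ha0 / (Units.mk0 c hc0) ^ p)⁻¹ =
          (Units.mk0 (c' : F) hc'0) ^ p / Units.mk0 (a : F) ha0 := by
        rw [div_pow, inv_div, div_mul_div_cancel]
      rw [e, mem_U1] at m3
      have h3 : v.valuation F ((c' : F) ^ p / (a : F) - 1) < 1 := by simpa using m3
      have h4 : (c' : F) ^ p / (a : F) - 1 = ((c' ^ p - a : 𝓞 F) : F) / (a : F) := by
        push_cast; field_simp
      rw [h4, map_div₀, ha1, div_one] at h3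
      exact (v.valuation_lt_one_iff_mem (K := F) _).1 h3
  · rintro ⟨c, hc⟩
    have key : ∀ c : 𝓞 F, c ∉ v.asIdeal → c ^ p - a ∈ v.asIdeal → LocPow p v 1 (a : F) := by
      intro c hcmem hc
      have hc0 := coe_ne_zero_of_notMem v hcmem
      have hc1 := valuation_eq_one_of_ord v hc0 (ord_eq_zero_of_notMem v hcmem)
      refine ⟨c, hc0, ?_⟩
      have h4 : (a : F) / (c : F) ^ p - 1 = -(((c ^ p - a : 𝓞 F) : F) / (c : F) ^ p) := by
        push_cast; field_simp; ring
      rw [h4, Valuation.map_neg, map_div₀, map_pow, hc1, one_pow, div_one]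
      have := (v.valuation_lt_one_iff_mem (K := F) _).2 hc
      rw [lt_one_iff_le_exp] at this
      simpa using this
    rcases Nat.eq_zero_or_pos p with rfl | hp
    · refine key 1 ?_ (by simpa using hc)
      exact fun h => v.isPrime.ne_top ((Ideal.eq_top_iff_one _).2 h)
    · refine key c (fun h => ha ?_) hc
      have h1 : c ^ p ∈ v.asIdeal := Ideal.pow_mem_of_mem _ h p hp
      have : a = c ^ p - (c ^ p - a) := by ring
      rw [this]; exact sub_mem h1 hc

theorem dvd_absNorm_sub_one (hp : p.Prime) {ζ : F} (hζ : IsPrimitiveRoot ζ p)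
    (v : Pl F) (hv : ¬ Above p v) : p ∣ Ideal.absNorm v.asIdeal - 1 := by
  classical
  have := v.isMaximal
  let _ : Field (𝓞 F ⧸ v.asIdeal) := Ideal.Quotient.field v.asIdeal
  have := finite_quot v
  have : Fintype (𝓞 F ⧸ v.asIdeal) := Fintype.ofFinite _
  have : NeZero p := ⟨hp.ne_zero⟩
  have : Fact p.Prime := ⟨hp⟩
  have hz := hζ.toInteger_isPrimitiveRoot
  set z := hζ.toInteger
  set zb := Ideal.Quotient.mk v.asIdeal z with hzb
  have h1 : zb ^ p = 1 := by rw [hzb, ← map_pow, hz.pow_eq_one, map_one]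
  have h2 : zb ≠ 1 := by
    intro h
    have h3 := congrArg (Ideal.Quotient.mk v.asIdeal) (hz.geom_sum_eq_zero hp.one_lt)
    rw [map_sum, map_zero] at h3
    simp only [map_pow, ← hzb, h, one_pow, Finset.sum_const, Finset.card_range, nsmul_eq_mul,
      mul_one] at h3
    apply hv
    rw [Above, ← Ideal.Quotient.eq_zero_iff_mem, map_natCast]
    exact h3
  have h4 : orderOf zb = p := orderOf_eq_prime h1 h2
  have hz0 : zb ≠ 0 := by
    intro h
    rw [h, zero_pow hp.ne_zero] at h1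
    exact zero_ne_one h1
  rw [← card_quot, Nat.card_eq_fintype_card, ← h4]
  exact orderOf_dvd_of_pow_eq_one (FiniteField.pow_card_sub_one_eq_one zb hz0)

/-- Euler criterion: for an integer `a` prime to `v`, `a` is a local `p`-th power iff
`a ^ ((Nv - 1) / p) ≡ 1 mod v`. -/
theorem locPow_one_iff_pow_sub_one_mem (hp : p.Prime) {ζ : F} (hζ : IsPrimitiveRoot ζ p)
    (v : Pl F) (hv : ¬ Above p v) (a : 𝓞 F) (ha : a ∉ v.asIdeal) :
    LocPow p v 1 (a : F) ↔ a ^ ((Ideal.absNorm v.asIdeal - 1) / p) - 1 ∈ v.asIdeal := by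
  have := v.isMaximal
  let _ : Field (𝓞 F ⧸ v.asIdeal) := Ideal.Quotient.field v.asIdeal
  have := finite_quot v
  have hdvd := dvd_absNorm_sub_one hp hζ v hv
  rw [← card_quot] at hdvd
  rw [locPow_one_iff_exists_pow_sub_mem v a ha, exists_pow_sub_mem_iff,
    exists_pow_eq_iff hp.ne_zero hdvd (mk_ne_zero v ha), card_quot, ← map_pow,
    ← map_one (Ideal.Quotient.mk v.asIdeal), Ideal.Quotient.eq]

/-- There is a non-residue at every place not above `p`. -/
theorem exists_not_locPow (hp : p.Prime) {ζ : F} (hζ : IsPrimitiveRoot ζ p) (v : Pl F)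
    (hv : ¬ Above p v) : ∃ y : F, y ≠ 0 ∧ ord v y = 0 ∧ ¬ LocPow p v 1 y := by
  classical
  have := v.isMaximal
  let _ : Field (𝓞 F ⧸ v.asIdeal) := Ideal.Quotient.field v.asIdeal
  have := finite_quot v
  have : Fintype (𝓞 F ⧸ v.asIdeal) := Fintype.ofFinite _
  have hdvd := dvd_absNorm_sub_one hp hζ v hv
  rw [← card_quot] at hdvd
  obtain ⟨g, hg⟩ := IsCyclic.exists_generator (α := (𝓞 F ⧸ v.asIdeal)ˣ)
  have hord : orderOf g = Nat.card (𝓞 F ⧸ v.asIdeal) - 1 := by
    rw [orderOf_eq_card_of_forall_mem_zpowers hg, Nat.card_eq_fintype_card,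
      Nat.card_eq_fintype_card, Fintype.card_units]
  obtain ⟨a, ha⟩ := Ideal.Quotient.mk_surjective (g : 𝓞 F ⧸ v.asIdeal)
  have hamem : a ∉ v.asIdeal := by
    rw [← Ideal.Quotient.eq_zero_iff_mem, ha]; exact g.ne_zero
  refine ⟨a, coe_ne_zero_of_notMem v hamem, ord_eq_zero_of_notMem v hamem, ?_⟩
  rw [locPow_one_iff_exists_pow_sub_mem v a hamem, exists_pow_sub_mem_iff,
    exists_pow_eq_iff hp.ne_zero hdvd (mk_ne_zero v hamem), ha]
  intro h
  have h1 : g ^ ((Nat.card (𝓞 F ⧸ v.asIdeal) - 1) / p) = 1 := by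
    apply Units.ext; simpa using h
  have h2 := orderOf_dvd_of_pow_eq_one h1
  rw [hord] at h2
  obtain ⟨t, ht⟩ := hdvd
  have ht0 : 0 < t := by
    rcases Nat.eq_zero_or_pos t with rfl | h0
    · exfalso
      rw [mul_zero] at ht
      rw [ht] at hord
      exact (orderOf_pos g).ne' hord
    · exact h0
  rw [ht, Nat.mul_div_cancel_left _ hp.pos] at h2
  have h3 := Nat.le_of_dvd ht0 h2
  have h4 : 2 * t ≤ p * t := Nat.mul_le_mul_right _ hp.two_le
  omega

/-- At a place `v` not above `p` (with `ζ_p ∈ F`) the `v`-units modulo local `p`-th powers form a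
cyclic group of order `p`: any non-residue generates. -/
theorem exists_pow_mul_locPow (hp : p.Prime) {ζ : F} (hζ : IsPrimitiveRoot ζ p) (v : Pl F)
    (hv : ¬ Above p v) {y c : F} (hy0 : y ≠ 0) (hy : ord v y = 0) (hyn : ¬ LocPow p v 1 y)
    (hc0 : c ≠ 0) (hc : ord v c = 0) : ∃ e : ℕ, e < p ∧ LocPow p v 1 (y ^ e * c) := by
  classical
  have := v.isMaximal
  let _ : Field (𝓞 F ⧸ v.asIdeal) := Ideal.Quotient.field v.asIdeal
  have := finite_quot v
  have : Fintype (𝓞 F ⧸ v.asIdeal) := Fintype.ofFinite _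
  have : NeZero p := ⟨hp.ne_zero⟩
  have : Fact p.Prime := ⟨hp⟩
  obtain ⟨t, ht⟩ := dvd_absNorm_sub_one hp hζ v hv
  have hdiv : (Ideal.absNorm v.asIdeal - 1) / p = t := by
    rw [ht]; exact Nat.mul_div_cancel_left _ hp.pos
  obtain ⟨a, hamem, hay⟩ := exists_int_close v hy0 hy
  obtain ⟨b, hbmem, hbc⟩ := exists_int_close v hc0 hc
  have ha0 := coe_ne_zero_of_notMem v hamem
  have hb0 := coe_ne_zero_of_notMem v hbmem
  have m1 : Units.mk0 (a : F) ha0 / Units.mk0 y hy0 ∈ U1 v := by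
    rw [mem_U1]; simpa using hay
  have m2 : Units.mk0 (b : F) hb0 / Units.mk0 c hc0 ∈ U1 v := by
    rw [mem_U1]; simpa using hbc
  -- `a` is a non-residue
  have han : ¬ LocPow p v 1 (a : F) := by
    intro h
    apply hyn
    refine h.of_close ha0 ?_
    have m3 := (U1 v).inv_mem m1
    rw [inv_div, mem_U1, lt_one_iff_le_exp] at m3
    simpa using m3
  rw [locPow_one_iff_pow_sub_one_mem hp hζ v hv a hamem, hdiv, ← Ideal.Quotient.eq, map_pow,
    map_one] at han
  set ab := Ideal.Quotient.mk v.asIdeal a with hab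
  set bb := Ideal.Quotient.mk v.asIdeal b with hbb
  have hab0 : ab ≠ 0 := mk_ne_zero v hamem
  have hbb0 : bb ≠ 0 := mk_ne_zero v hbmem
  have hcard : Fintype.card (𝓞 F ⧸ v.asIdeal) - 1 = p * t := by
    rw [← Nat.card_eq_fintype_card, card_quot, ht]
  have hμp : (ab ^ t) ^ p = 1 := by
    rw [← pow_mul, mul_comm, ← hcard]; exact FiniteField.pow_card_sub_one_eq_one ab hab0
  have hξp : ((bb ^ t)⁻¹) ^ p = 1 := by
    rw [inv_pow, ← pow_mul, mul_comm, ← hcard, FiniteField.pow_card_sub_one_eq_one bb hbb0, inv_one]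
  have hprim : IsPrimitiveRoot (ab ^ t) p := by
    rw [IsPrimitiveRoot.iff_orderOf]; exact orderOf_eq_prime hμp han
  obtain ⟨e, he, hee⟩ := hprim.eq_pow_of_pow_eq_one hξp
  refine ⟨e, he, ?_⟩
  have hmem : a ^ e * b ∉ v.asIdeal := by
    intro h
    rcases v.isPrime.mem_or_mem h with h | h
    · exact hamem (v.isPrime.mem_of_pow_mem e h)
    · exact hbmem h
  have hloc : LocPow p v 1 ((a ^ e * b : 𝓞 F) : F) := by
    rw [locPow_one_iff_pow_sub_one_mem hp hζ v hv _ hmem, hdiv, ← Ideal.Quotient.eq, map_pow,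
      map_mul, map_pow, map_one, ← hab, ← hbb, mul_pow, ← pow_mul, mul_comm e t, pow_mul, hee]
    exact inv_mul_cancel₀ (pow_ne_zero _ hbb0)
  refine hloc.of_close (coe_ne_zero_of_notMem v hmem) ?_
  have m3 := (U1 v).inv_mem ((U1 v).mul_mem ((U1 v).pow_mem m1 e) m2)
  rw [mem_U1, lt_one_iff_le_exp] at m3
  have e1 : (((Units.mk0 (a : F) ha0 / Units.mk0 y hy0) ^ e *
      (Units.mk0 (b : F) hb0 / Units.mk0 c hc0))⁻¹ : Fˣ) =
      (y ^ e * c) / ((a ^ e * b : 𝓞 F) : F) := by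
    push_cast
    simp only [Units.val_mk0]
    rw [div_pow]
    field_simp
  rw [e1] at m3
  simpa using m3

end Fermat.Agent.S14
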