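import Fermat.Agent.S14.Kummer

set_option autoImplicit false

/-!
# S14 / KUM-EX: existence of the Kummer extension (Mathlib `FieldTheory/KummerExtension`)
-/

namespace Fermat.Agent.S14

open IsDedekindDomain NumberField Finset

universe u

open Polynomial in
/-- Existence of the Kummer extension. -/
theorem exists_isKummer {p : ℕ} [Fact p.Prime] {K : Type u} [Field K] [NumberField K] {ζ y : K}
    (hζ : IsPrimitiveRoot ζ p) (hy : ¬ IsPPow p y) :
    ∃ (M : Type u) (_ : Field M) (_ : NumberField M) (_ : Algebra K M) (B : M) (τ : M ≃ₐ[K] M),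
      IsKummer p ζ y B τ := by
  have hp : p.Prime := Fact.out
  have : NeZero p := ⟨hp.ne_zero⟩
  have H : Irreducible (X ^ p - C y : K[X]) :=
    X_pow_sub_C_irreducible_of_prime hp fun b hb => hy ⟨b, hb⟩
  have := Fact.mk H
  have hζ' : (primitiveRoots p K).Nonempty := ⟨ζ, (mem_primitiveRoots hp.pos).mpr hζ⟩
  let _ : Algebra K (AdjoinRoot (X ^ p - C y : K[X])) := inferInstance
  have hsp : IsSplittingField K (AdjoinRoot (X ^ p - C y : K[X])) (X ^ p - C y) :=
    isSplittingField_AdjoinRoot_X_pow_sub_C hζ' H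
  have : FiniteDimensional K (AdjoinRoot (X ^ p - C y : K[X])) :=
    Polynomial.IsSplittingField.finiteDimensional _ (X ^ p - C y : K[X])
  have : NumberField (AdjoinRoot (X ^ p - C y : K[X])) := NumberField.of_module_finite K _
  let η : rootsOfUnity p K := hζ.toRootsOfUnity
  have hη : ((η : Kˣ) : K) = ζ := rfl
  refine ⟨AdjoinRoot (X ^ p - C y : K[X]), inferInstance, inferInstance, inferInstance,
    AdjoinRoot.root _, autAdjoinRootXPowSubCEquiv hζ' H η, ?_⟩
  refine ⟨hζ, ?_, ?_, ?_, ?_, ?_, ?_⟩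
  · exact root_X_pow_sub_C_pow p y
  · rw [autAdjoinRootXPowSubCEquiv_root, hη, Algebra.smul_def]
  · exact finrank_of_isSplittingField_X_pow_sub_C hζ' H _
  · exact isGalois_of_isSplittingField_X_pow_sub_C hζ' H _
  · intro σ
    obtain ⟨ε, rfl⟩ := (autAdjoinRootXPowSubCEquiv hζ' H).surjective σ
    have hε : ((ε : Kˣ) : K) ^ p = 1 := by
      have := ε.2
      rw [mem_rootsOfUnity] at this
      have h2 := congrArg Units.val this
      simpa using h2
    obtain ⟨i, hi, hiε⟩ := hζ.eq_pow_of_pow_eq_one hε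
    refine ⟨i, hi, ?_⟩
    rw [← map_pow]
    congr 1
    ext
    simp [hη, hiε]
  · rintro rfl
    exact hy ⟨0, zero_pow hp.ne_zero⟩

end Fermat.Agent.S14
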