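import Fermat.Agent.S14.Basic.Ord
import Fermat.Agent.S14.Basic.Pair
import Fermat.Agent.S14.Basic.LocPow
import Fermat.Agent.S14.Basic.Sigma
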