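import Fermat.Agent.S14.Approx

set_option autoImplicit false
set_option linter.unusedSectionVars false
set_option linter.unusedVariables false

/-!
# S14 / SYM: the `p`-th power residue symbol (additive, with values in `ZMod p`)
-/

namespace Fermat.Agent.S14

open IsDedekindDomain NumberField

variable {p : ℕ} [Fact p.Prime] {F : Type*} [Field F] [NumberField F]

open Classical in
/-- `rs p ζ v x = k` iff `x ^ ((Nv - 1) / p) ≡ ζ ^ k mod v` (junk `0` if there is no such `k`). -/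
noncomputable def rs (p : ℕ) (ζ : F) (v : Pl F) (x : F) : ZMod p :=
  if h : ∃ k : ZMod p,
      v.valuation F (x ^ ((Ideal.absNorm v.asIdeal - 1) / p) - ζ ^ k.val) < 1 then h.choose else 0

variable {ζ : F}

/-! ### congruences modulo `v` on `v`-integral elements -/

lemma valuation_eq_one_of_ord_eq_zero (v : Pl F) {x : F} (hx0 : x ≠ 0) (hx : ord v x = 0) :
    v.valuation F x = 1 := by
  rw [valuation_eq_exp_neg_ord v hx0, hx]; simp

lemma valuation_pow_sub_pow_lt (v : Pl F) {x y : F} (hx : v.valuation F x ≤ 1)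
    (hy : v.valuation F y ≤ 1) (h : v.valuation F (x - y) < 1) (n : ℕ) :
    v.valuation F (x ^ n - y ^ n) < 1 := by
  induction n with
  | zero => simp
  | succ n ih =>
    have h1 : x ^ (n + 1) - y ^ (n + 1) = x ^ n * (x - y) + (x ^ n - y ^ n) * y := by ring
    rw [h1]
    refine (Valuation.map_add _ _ _).trans_lt (max_lt ?_ ?_)
    · rw [map_mul, map_pow]
      exact (mul_le_mul' (pow_le_one' hx n) le_rfl).trans_lt (by rwa [one_mul])
    · rw [map_mul]
      exact (mul_le_mul' le_rfl hy).trans_lt (by rwa [mul_one])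

lemma valuation_sub_lt_trans (v : Pl F) {x y z : F} (h1 : v.valuation F (x - y) < 1)
    (h2 : v.valuation F (y - z) < 1) : v.valuation F (x - z) < 1 := by
  have : x - z = (x - y) + (y - z) := by ring
  rw [this]
  exact (Valuation.map_add _ _ _).trans_lt (max_lt h1 h2)

lemma valuation_coe_sub_lt_iff (v : Pl F) (a b : 𝓞 F) :
    v.valuation F ((a : F) - (b : F)) < 1 ↔ a - b ∈ v.asIdeal := by
  rw [← v.valuation_lt_one_iff_mem (K := F)]
  simp

lemma exists_integer_close (v : Pl F) {x : F} (hx : v.valuation F x ≤ 1) :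
    ∃ a : 𝓞 F, v.valuation F (x - (a : F)) < 1 := by
  obtain ⟨a, ha⟩ := v.exists_valuation_sub_lt_of_integer (K := F) hx 1
  refine ⟨a, ?_⟩
  rw [Valuation.map_sub_swap]
  simpa using ha

lemma valuation_zeta (hζ : IsPrimitiveRoot ζ p) (v : Pl F) : v.valuation F ζ = 1 := by
  have h : (v.valuation F ζ) ^ p = 1 := by rw [← map_pow, hζ.pow_eq_one, map_one]
  exact (pow_eq_one_iff.mp h).resolve_right (Fact.out : p.Prime).ne_zero

/-- the reduction of `ζ` modulo a place not above `p` is still a primitive root. -/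
lemma isPrimitiveRoot_mk (hζ : IsPrimitiveRoot ζ p) {v : Pl F} (hv : ¬ Above p v) :
    IsPrimitiveRoot (Ideal.Quotient.mk v.asIdeal hζ.toInteger) p := by
  have hp : p.Prime := Fact.out
  have h1 : (Ideal.Quotient.mk v.asIdeal hζ.toInteger) ^ p = 1 := by
    rw [← map_pow, hζ.toInteger_isPrimitiveRoot.pow_eq_one, map_one]
  have h2 : Ideal.Quotient.mk v.asIdeal hζ.toInteger ≠ 1 := by
    intro h
    apply hv
    have h3 := hζ.toInteger_isPrimitiveRoot.geom_sum_eq_zero hp.one_lt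
    have h4 := congrArg (Ideal.Quotient.mk v.asIdeal) h3
    rw [map_sum] at h4
    simp only [map_pow, h, one_pow, Finset.sum_const, Finset.card_range, map_zero] at h4
    unfold Above
    rw [← Ideal.Quotient.eq_zero_iff_mem, map_natCast]
    simpa using h4
  have h3 := orderOf_eq_prime h1 h2
  have h4 := IsPrimitiveRoot.orderOf (Ideal.Quotient.mk v.asIdeal hζ.toInteger)
  rwa [h3] at h4

lemma zeta_pow_val_natCast (hζ : IsPrimitiveRoot ζ p) (n : ℕ) :
    ζ ^ ((n : ZMod p).val) = ζ ^ n := by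
  rw [ZMod.val_natCast, ← pow_eq_pow_mod n hζ.pow_eq_one]

lemma zeta_pow_val_add (hζ : IsPrimitiveRoot ζ p) (a b : ZMod p) :
    ζ ^ ((a + b).val) = ζ ^ a.val * ζ ^ b.val := by
  rw [ZMod.val_add, ← pow_eq_pow_mod _ hζ.pow_eq_one, pow_add]

lemma zeta_pow_val_natCast_mul (hζ : IsPrimitiveRoot ζ p) (k : ℕ) (a : ZMod p) :
    ζ ^ (((k : ZMod p) * a).val) = (ζ ^ k) ^ a.val := by
  have h : ((k : ZMod p) * a) = ((k * a.val : ℕ) : ZMod p) := by
    push_cast; rw [ZMod.natCast_zmod_val]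
  rw [h, zeta_pow_val_natCast hζ, pow_mul]

lemma card_quot_eq_absNorm (v : Pl F) : Nat.card (𝓞 F ⧸ v.asIdeal) = Ideal.absNorm v.asIdeal := by
  rw [Ideal.absNorm_apply, Submodule.cardQuot_apply]

lemma exists_rs (hζ : IsPrimitiveRoot ζ p) {v : Pl F} (hv : ¬ Above p v) {x : F} (hx0 : x ≠ 0)
    (hx : ord v x = 0) :
    ∃ k : ZMod p, v.valuation F (x ^ ((Ideal.absNorm v.asIdeal - 1) / p) - ζ ^ k.val) < 1 := by
  have hp : p.Prime := Fact.out
  have hvx := valuation_eq_one_of_ord_eq_zero v hx0 hx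
  obtain ⟨a, ha⟩ := exists_integer_close v hvx.le
  have hva : v.valuation F (a : F) = 1 := by
    have h1 : v.valuation F ((a : F) - x) < v.valuation F x := by
      rw [hvx, Valuation.map_sub_swap]; exact ha
    have := Valuation.map_add_eq_of_lt_left (v.valuation F) h1
    rw [hvx] at this
    simpa using this
  have hav : a ∉ v.asIdeal := by
    intro h
    have := (v.valuation_lt_one_iff_mem (K := F) a).mpr h
    rw [hva] at this
    exact lt_irrefl _ this
  have : v.asIdeal.IsMaximal := v.isMaximal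
  let _ := Ideal.Quotient.field v.asIdeal
  have : Finite (𝓞 F ⧸ v.asIdeal) := Ideal.finiteQuotientOfFreeOfNeBot v.asIdeal v.ne_bot
  let _ := Fintype.ofFinite (𝓞 F ⧸ v.asIdeal)
  have ha0 : Ideal.Quotient.mk v.asIdeal a ≠ 0 := by
    rwa [Ne, Ideal.Quotient.eq_zero_iff_mem]
  have h1 : (Ideal.Quotient.mk v.asIdeal a) ^ (Ideal.absNorm v.asIdeal - 1) = 1 := by
    rw [← card_quot_eq_absNorm, Nat.card_eq_fintype_card]
    exact FiniteField.pow_card_sub_one_eq_one _ ha0
  obtain ⟨E, hE⟩ := dvd_absNorm_sub_one hp hζ v hv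
  have hE' : (Ideal.absNorm v.asIdeal - 1) / p = E := by
    rw [hE, Nat.mul_div_cancel_left _ hp.pos]
  rw [hE']
  have h2 : ((Ideal.Quotient.mk v.asIdeal a) ^ E) ^ p = 1 := by
    rw [← pow_mul, mul_comm, ← hE, h1]
  have : NeZero p := ⟨hp.ne_zero⟩
  obtain ⟨i, hi, hi'⟩ := (isPrimitiveRoot_mk hζ hv).eq_pow_of_pow_eq_one h2
  refine ⟨(i : ZMod p), ?_⟩
  rw [ZMod.val_natCast_of_lt hi]
  refine valuation_sub_lt_trans v (valuation_pow_sub_pow_lt v hvx.le hva.le ha E) ?_
  have h3 : a ^ E - hζ.toInteger ^ i ∈ v.asIdeal := by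
    rw [← Ideal.Quotient.eq_zero_iff_mem, map_sub, map_pow, map_pow, hi', sub_self]
  have h4 := (valuation_coe_sub_lt_iff v (a ^ E) (hζ.toInteger ^ i)).mpr h3
  have hz : algebraMap (𝓞 F) F hζ.toInteger = ζ := rfl
  simpa [hz] using h4

theorem rs_spec (hζ : IsPrimitiveRoot ζ p) {v : Pl F} (hv : ¬ Above p v) {x : F} (hx0 : x ≠ 0)
    (hx : ord v x = 0) :
    v.valuation F (x ^ ((Ideal.absNorm v.asIdeal - 1) / p) - ζ ^ (rs p ζ v x).val) < 1 := by
  have h := exists_rs hζ hv hx0 hx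
  unfold rs
  rw [dif_pos h]
  exact h.choose_spec

lemma zeta_pow_val_inj (hζ : IsPrimitiveRoot ζ p) {v : Pl F} (hv : ¬ Above p v) {k k' : ZMod p}
    (h : v.valuation F (ζ ^ k.val - ζ ^ k'.val) < 1) : k = k' := by
  have hp : p.Prime := Fact.out
  have : NeZero p := ⟨hp.ne_zero⟩
  have h1 : hζ.toInteger ^ k.val - hζ.toInteger ^ k'.val ∈ v.asIdeal := by
    rw [← valuation_coe_sub_lt_iff]
    have hz : algebraMap (𝓞 F) F hζ.toInteger = ζ := rfl
    simpa [hz] using h
  rw [← Ideal.Quotient.eq_zero_iff_mem, map_sub, map_pow, map_pow, sub_eq_zero] at h1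
  exact ZMod.val_injective p ((isPrimitiveRoot_mk hζ hv).pow_inj (ZMod.val_lt k) (ZMod.val_lt k') h1)

theorem rs_eq_of_valuation_lt (hζ : IsPrimitiveRoot ζ p) {v : Pl F} (hv : ¬ Above p v) {x : F}
    {k : ZMod p}
    (h : v.valuation F (x ^ ((Ideal.absNorm v.asIdeal - 1) / p) - ζ ^ k.val) < 1) :
    rs p ζ v x = k := by
  have hex : ∃ k : ZMod p,
      v.valuation F (x ^ ((Ideal.absNorm v.asIdeal - 1) / p) - ζ ^ k.val) < 1 := ⟨k, h⟩
  have h1 : v.valuation F (x ^ ((Ideal.absNorm v.asIdeal - 1) / p) - ζ ^ (rs p ζ v x).val) < 1 := by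
    unfold rs
    rw [dif_pos hex]
    exact hex.choose_spec
  apply zeta_pow_val_inj hζ hv
  rw [Valuation.map_sub_swap] at h1
  exact valuation_sub_lt_trans v h1 h

theorem rs_one (hζ : IsPrimitiveRoot ζ p) {v : Pl F} (hv : ¬ Above p v) :
    rs p ζ v (1 : F) = 0 := by
  apply rs_eq_of_valuation_lt hζ hv
  simp

theorem rs_mul (hζ : IsPrimitiveRoot ζ p) {v : Pl F} (hv : ¬ Above p v) {x y : F} (hx0 : x ≠ 0)
    (hx : ord v x = 0) (hy0 : y ≠ 0) (hy : ord v y = 0) :
    rs p ζ v (x * y) = rs p ζ v x + rs p ζ v y := by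
  apply rs_eq_of_valuation_lt hζ hv
  rw [zeta_pow_val_add hζ, mul_pow]
  set E := (Ideal.absNorm v.asIdeal - 1) / p
  have h1 := rs_spec hζ hv hx0 hx
  have h2 := rs_spec hζ hv hy0 hy
  have h3 : x ^ E * y ^ E - ζ ^ (rs p ζ v x).val * ζ ^ (rs p ζ v y).val
      = x ^ E * (y ^ E - ζ ^ (rs p ζ v y).val) + (x ^ E - ζ ^ (rs p ζ v x).val) * ζ ^ (rs p ζ v y).val := by
    ring
  rw [h3]
  refine (Valuation.map_add _ _ _).trans_lt (max_lt ?_ ?_)
  · rw [map_mul, map_pow, valuation_eq_one_of_ord_eq_zero v hx0 hx, one_pow, one_mul]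
    exact h2
  · rw [map_mul, map_pow, valuation_zeta hζ v, one_pow, mul_one]
    exact h1

theorem rs_pow (hζ : IsPrimitiveRoot ζ p) {v : Pl F} (hv : ¬ Above p v) {x : F} (hx0 : x ≠ 0)
    (hx : ord v x = 0) (n : ℕ) : rs p ζ v (x ^ n) = n * rs p ζ v x := by
  induction n with
  | zero => simpa using rs_one hζ hv
  | succ n ih =>
    rw [pow_succ, rs_mul hζ hv (pow_ne_zero n hx0) (by rw [ord_pow, hx]; simp) hx0 hx, ih]
    push_cast; ring

theorem rs_inv (hζ : IsPrimitiveRoot ζ p) {v : Pl F} (hv : ¬ Above p v) {x : F} (hx0 : x ≠ 0)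
    (hx : ord v x = 0) : rs p ζ v x⁻¹ = - rs p ζ v x := by
  have h := rs_mul hζ hv hx0 hx (inv_ne_zero hx0) (by rw [ord_inv, hx]; simp)
  rw [mul_inv_cancel₀ hx0, rs_one hζ hv] at h
  exact eq_neg_of_add_eq_zero_right h.symm

theorem rs_zpow (hζ : IsPrimitiveRoot ζ p) {v : Pl F} (hv : ¬ Above p v) {x : F} (hx0 : x ≠ 0)
    (hx : ord v x = 0) (n : ℤ) : rs p ζ v (x ^ n) = n * rs p ζ v x := by
  cases n with
  | ofNat n => simpa using rs_pow hζ hv hx0 hx n
  | negSucc n =>
    rw [zpow_negSucc, rs_inv hζ hv (pow_ne_zero _ hx0) (by rw [ord_pow, hx]; simp),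
      rs_pow hζ hv hx0 hx]
    push_cast; ring

lemma lt_one_iff_le_exp_neg_one (y : WithZero (Multiplicative ℤ)) :
    y < 1 ↔ y ≤ WithZero.exp (-((1 : ℕ) : ℤ)) := by
  by_cases hy : y = 0
  · subst hy; simp
  · rw [← WithZero.exp_log hy, ← WithZero.exp_zero, WithZero.exp_lt_exp, WithZero.exp_le_exp]
    omega

/-- `rs` only depends on the residue class. -/
theorem rs_congr (hζ : IsPrimitiveRoot ζ p) {v : Pl F} (hv : ¬ Above p v) {x y : F} (hx0 : x ≠ 0)
    (hx : ord v x = 0) (hy0 : y ≠ 0) (hy : ord v y = 0) (h : v.valuation F (x - y) < 1) :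
    rs p ζ v x = rs p ζ v y := by
  apply rs_eq_of_valuation_lt hζ hv
  exact valuation_sub_lt_trans v (valuation_pow_sub_pow_lt v
    (valuation_eq_one_of_ord_eq_zero v hx0 hx).le (valuation_eq_one_of_ord_eq_zero v hy0 hy).le h _)
    (rs_spec hζ hv hy0 hy)

theorem rs_eq_zero_iff (hζ : IsPrimitiveRoot ζ p) {v : Pl F} (hv : ¬ Above p v) {x : F}
    (hx0 : x ≠ 0) (hx : ord v x = 0) : rs p ζ v x = 0 ↔ LocPow p v 1 x := by
  have hp : p.Prime := Fact.out
  have hvx := valuation_eq_one_of_ord_eq_zero v hx0 hx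
  obtain ⟨a, ha⟩ := exists_integer_close v hvx.le
  have hva : v.valuation F (a : F) = 1 := by
    have h1 : v.valuation F ((a : F) - x) < v.valuation F x := by
      rw [hvx, Valuation.map_sub_swap]; exact ha
    have := Valuation.map_add_eq_of_lt_left (v.valuation F) h1
    rw [hvx] at this
    simpa using this
  have ha0 : (a : F) ≠ 0 := by
    intro h; rw [h] at hva; simp at hva
  have hoa : ord v (a : F) = 0 := by simp [ord, hva]
  have hav : a ∉ v.asIdeal := by
    intro h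
    have := (v.valuation_lt_one_iff_mem (K := F) a).mpr h
    rw [hva] at this
    exact lt_irrefl _ this
  rw [rs_congr hζ hv hx0 hx ha0 hoa ha]
  have hloc : LocPow p v 1 x ↔ LocPow p v 1 (a : F) := by
    constructor
    · intro h
      refine h.of_close hx0 ?_
      rw [← lt_one_iff_le_exp_neg_one]
      have : (a : F) / x - 1 = ((a : F) - x) / x := by field_simp
      rw [this, map_div₀, hvx, div_one, Valuation.map_sub_swap]
      exact ha
    · intro h
      refine h.of_close ha0 ?_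
      rw [← lt_one_iff_le_exp_neg_one]
      have : x / (a : F) - 1 = (x - (a : F)) / (a : F) := by field_simp
      rw [this, map_div₀, hva, div_one]
      exact ha
  rw [hloc, locPow_one_iff_pow_sub_one_mem hp hζ v hv a hav]
  constructor
  · intro h
    have h1 := rs_spec hζ hv ha0 hoa
    rw [h] at h1
    have h2 := (valuation_coe_sub_lt_iff v (a ^ ((Ideal.absNorm v.asIdeal - 1) / p)) 1).mp
      (by simpa using h1)
    exact h2
  · intro h
    apply rs_eq_of_valuation_lt hζ hv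
    have h2 := (valuation_coe_sub_lt_iff v (a ^ ((Ideal.absNorm v.asIdeal - 1) / p)) 1).mpr h
    simpa using h2

/-- Galois equivariance: if `σ ζ = ζ ^ k` then `rs (σ v) (σ x) = k * rs v x`. -/
theorem rs_sigmaPl (hζ : IsPrimitiveRoot ζ p) {v : Pl F} (hv : ¬ Above p v) {x : F} (hx0 : x ≠ 0)
    (hx : ord v x = 0) (σ : F ≃ₐ[ℚ] F) (k : ℕ) (hσ : σ ζ = ζ ^ k) :
    rs p ζ (sigmaPl σ v) (σ x) = k * rs p ζ v x := by
  apply rs_eq_of_valuation_lt hζ (by rwa [above_sigmaPl])
  rw [absNorm_sigmaPl, zeta_pow_val_natCast_mul hζ, ← hσ, ← map_pow, ← map_pow, ← map_sub,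
    valuation_sigmaPl]
  exact rs_spec hζ hv hx0 hx

end Fermat.Agent.S14
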