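import Fermat.Agent.S14.Basic

set_option autoImplicit false

/-!
# S14 / EXT: places of an extension `M / K` of number fields

`below`, ramification index `ram`, residue degree `resdeg`, the fibre `fiber`, the action `tauPl`
of `K`-automorphisms of `M` on places, transitivity, `e f g = [M : K]`.
-/

namespace Fermat.Agent.S14

open IsDedekindDomain NumberField

variable (K : Type*) {M : Type*} [Field K] [NumberField K] [Field M] [NumberField M] [Algebra K M]

/-- The place of `K` below the place `w` of `M`. -/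
noncomputable def below (w : Pl M) : Pl K := w.under (𝓞 K)

/-- Ramification index of `w` over `K`. -/
noncomputable def ram (w : Pl M) : ℕ := w.asIdeal.ramificationIdx (𝓞 K)

/-- Residue degree of `w` over `K`. -/
noncomputable def resdeg (w : Pl M) : ℕ := w.asIdeal.inertiaDeg (𝓞 K)

/-- Action of `K`-automorphisms of `M` on the places of `M`. -/
noncomputable def tauPl (τ : M ≃ₐ[K] M) : Pl M ≃ Pl M := sigmaPl (τ.restrictScalars ℚ)

variable {K}

lemma below_asIdeal (w : Pl M) : (below K w).asIdeal = w.asIdeal.under (𝓞 K) := rfl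

instance liesOver_below (w : Pl M) : w.asIdeal.LiesOver (below K w).asIdeal := ⟨rfl⟩

lemma mem_below_iff (w : Pl M) (a : 𝓞 K) :
    a ∈ (below K w).asIdeal ↔ algebraMap (𝓞 K) (𝓞 M) a ∈ w.asIdeal := by
  rw [below_asIdeal, Ideal.under_def, Ideal.mem_comap]

lemma ram_pos (w : Pl M) : 0 < ram K w := by
  have := w.isPrime
  exact w.asIdeal.ramificationIdx_pos (𝓞 K)

lemma resdeg_pos (w : Pl M) : 0 < resdeg K w := by
  have := w.isPrime
  exact w.asIdeal.inertiaDeg_pos (𝓞 K)

lemma valuation_algebraMap (w : Pl M) (x : K) :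
    w.valuation M (algebraMap K M x) = (below K w).valuation K x ^ ram K w := by
  have := w.isPrime
  rw [← HeightOneSpectrum.valuation_liesOver M (below K w) w x, ram,
    Ideal.ramificationIdx'_eq_ramificationIdx (below K w).asIdeal w.asIdeal (below K w).ne_bot]

lemma ord_algebraMap (w : Pl M) (x : K) :
    ord w (algebraMap K M x) = ram K w * ord (below K w) x := by
  unfold ord
  rw [valuation_algebraMap, WithZero.log_pow]
  simp

lemma above_below (q : ℕ) (w : Pl M) : Above q (below K w) ↔ Above q w := by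
  unfold Above
  rw [mem_below_iff, map_natCast]

lemma exists_below_eq (v : Pl K) : ∃ w : Pl M, below K w = v := by
  have := v.isMaximal
  obtain ⟨Q, hQ, hQv⟩ := Ideal.exists_maximal_ideal_liesOver_of_isIntegral (S := 𝓞 M) v.asIdeal
  have hne : Q ≠ ⊥ := by
    rintro rfl
    apply v.ne_bot
    rw [hQv.over, Ideal.under_def]
    exact (RingHom.injective_iff_ker_eq_bot _).mp
      (FaithfulSMul.algebraMap_injective (𝓞 K) (𝓞 M))
  refine ⟨⟨Q, hQ.isPrime, hne⟩, ?_⟩
  apply HeightOneSpectrum.ext
  rw [below_asIdeal]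
  exact hQv.over.symm

lemma finite_below_eq (v : Pl K) : {w : Pl M | below K w = v}.Finite := by
  have := v.isMaximal
  have hfin : (v.asIdeal.primesOver (𝓞 M)).Finite := IsDedekindDomain.primesOver_finite _ _
  have hinj : Function.Injective (fun w : Pl M => w.asIdeal) := fun _ _ h => HeightOneSpectrum.ext h
  refine (hfin.preimage (hinj.injOn)).subset ?_
  intro w hw
  refine ⟨w.isPrime, ⟨?_⟩⟩
  rw [← below_asIdeal, hw]

variable (M) in
/-- The finite set of places of `M` above `v`. -/
noncomputable def fiber (v : Pl K) : Finset (Pl M) := (finite_below_eq (M := M) v).toFinset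

@[simp] lemma mem_fiber {v : Pl K} {w : Pl M} : w ∈ fiber M v ↔ below K w = v := by
  simp [fiber]

lemma fiber_nonempty (v : Pl K) : (fiber M v).Nonempty := by
  obtain ⟨w, hw⟩ := exists_below_eq (M := M) v
  exact ⟨w, mem_fiber.2 hw⟩

variable (M) in
/-- The places of `M` above a finite set of places of `K`. -/
noncomputable def fiberSet (S : Finset (Pl K)) : Finset (Pl M) := by
  classical exact S.biUnion (fiber M)

@[simp] lemma mem_fiberSet {S : Finset (Pl K)} {w : Pl M} : w ∈ fiberSet M S ↔ below K w ∈ S := by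
  classical
  simp [fiberSet]

lemma card_fiberSet (S : Finset (Pl K)) : (fiberSet M S).card = ∑ v ∈ S, (fiber M v).card := by
  classical
  unfold fiberSet
  refine Finset.card_biUnion ?_
  intro v _ v' _ hvv'
  show Disjoint (fiber M v) (fiber M v')
  rw [Finset.disjoint_left]
  intro w hw hw'
  exact hvv' ((mem_fiber.1 hw).symm.trans (mem_fiber.1 hw'))

/-! ### the action of automorphisms -/

lemma valuation_tauPl (τ : M ≃ₐ[K] M) (w : Pl M) (z : M) :
    (tauPl K τ w).valuation M (τ z) = w.valuation M z :=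
  valuation_sigmaPl (τ.restrictScalars ℚ) w z

lemma ord_tauPl (τ : M ≃ₐ[K] M) (w : Pl M) (z : M) : ord (tauPl K τ w) (τ z) = ord w z :=
  ord_sigmaPl (τ.restrictScalars ℚ) w z

lemma ord_tauPl_symm (τ : M ≃ₐ[K] M) (w : Pl M) (z : M) :
    ord (tauPl K τ w) z = ord w (τ.symm z) := by
  rw [← ord_tauPl τ w (τ.symm z), AlgEquiv.apply_symm_apply]

lemma tauPl_one (w : Pl M) : tauPl K (1 : M ≃ₐ[K] M) w = w :=
  sigmaPl_one w

lemma tauPl_mul (σ τ : M ≃ₐ[K] M) (w : Pl M) :
    tauPl K (σ * τ) w = tauPl K σ (tauPl K τ w) :=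
  sigmaPl_mul (σ.restrictScalars ℚ) (τ.restrictScalars ℚ) w

lemma tauPl_pow (τ : M ≃ₐ[K] M) (n : ℕ) (w : Pl M) :
    tauPl K (τ ^ n) w = (tauPl K τ)^[n] w := by
  induction n with
  | zero => rw [pow_zero, tauPl_one]; rfl
  | succ n ih => rw [pow_succ', tauPl_mul, ih, Function.iterate_succ_apply']

lemma below_tauPl (τ : M ≃ₐ[K] M) (w : Pl M) : below K (tauPl K τ w) = below K w := by
  apply HeightOneSpectrum.ext
  ext a
  rw [mem_below_iff, mem_below_iff, ← mem_sigmaPl_iff (τ.restrictScalars ℚ) w]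
  have h : RingOfIntegers.mapRingEquiv ((τ.restrictScalars ℚ : M ≃ₐ[ℚ] M) : M ≃+* M)
      (algebraMap (𝓞 K) (𝓞 M) a) = algebraMap (𝓞 K) (𝓞 M) a := by
    apply RingOfIntegers.ext
    exact τ.commutes (a : K)
  rw [h]
  rfl

lemma ram_tauPl (τ : M ≃ₐ[K] M) (w : Pl M) : ram K (tauPl K τ w) = ram K w := by
  obtain ⟨x, hx⟩ := (below K w).valuation_exists_uniformizer K
  have h1 := valuation_algebraMap (K := K) (tauPl K τ w) x
  have h2 := valuation_algebraMap (K := K) w x
  rw [below_tauPl, hx] at h1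
  rw [hx] at h2
  have h3 : (tauPl K τ w).valuation M (algebraMap K M x) = w.valuation M (algebraMap K M x) := by
    conv_lhs => rw [← τ.commutes x]
    exact valuation_tauPl τ w _
  rw [h1, h2, ← WithZero.exp_nsmul, ← WithZero.exp_nsmul, WithZero.exp_inj] at h3
  simpa using h3

lemma absNorm_eq_pow_resdeg' (w : Pl M) :
    Ideal.absNorm w.asIdeal = Ideal.absNorm (below K w).asIdeal ^ resdeg K w := by
  have := w.isPrime
  exact (Ideal.absNorm_pow_inertiaDeg (below K w).asIdeal w.asIdeal).symm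

lemma resdeg_tauPl (τ : M ≃ₐ[K] M) (w : Pl M) : resdeg K (tauPl K τ w) = resdeg K w := by
  have h1 := absNorm_eq_pow_resdeg' (K := K) (tauPl K τ w)
  have h2 := absNorm_eq_pow_resdeg' (K := K) w
  have h3 : Ideal.absNorm (tauPl K τ w).asIdeal = Ideal.absNorm w.asIdeal :=
    absNorm_sigmaPl (τ.restrictScalars ℚ) w
  rw [below_tauPl] at h1
  rw [h1, h2] at h3
  have h0 : Ideal.absNorm (below K w).asIdeal ≠ 0 := by
    rw [Ne, Ideal.absNorm_eq_zero_iff]; exact (below K w).ne_bot
  have h1' : Ideal.absNorm (below K w).asIdeal ≠ 1 := by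
    rw [Ne, Ideal.absNorm_eq_one_iff]; exact (below K w).isPrime.ne_top
  exact Nat.pow_right_injective (by omega) h3

/-- If `τ` fixes `w` then `τ` preserves `ord w`. -/
lemma ord_apply_of_tauPl_eq {τ : M ≃ₐ[K] M} {w : Pl M} (h : tauPl K τ w = w) (z : M) :
    ord w (τ z) = ord w z := by
  conv_lhs => rw [← h]
  exact ord_tauPl τ w z

end Fermat.Agent.S14
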