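import Fermat.Agent.S14.KummerLocal.KR1
import Fermat.Agent.S14.KummerLocal.KR2
import Fermat.Agent.S14.KummerLocal.KR3

set_option autoImplicit false

/-!
# S14 / KR: consequences of KR1, KR2, KR3
-/

namespace Fermat.Agent.S14

open IsDedekindDomain NumberField Finset

/-- if all `a i` are congruent to `b` (integral) then `∏ a i` is congruent to `b ^ card`. -/
lemma valuation_prod_sub_pow_lt_one {F Γ : Type*} [Field F] [LinearOrderedCommGroupWithZero Γ]
    (val : Valuation F Γ) {ι : Type*} (s : Finset ι) (a : ι → F) (b : F) (hb : val b ≤ 1)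
    (ha : ∀ i ∈ s, val (a i - b) < 1) : val (∏ i ∈ s, a i - b ^ s.card) < 1 := by
  classical
  induction s using Finset.induction_on with
  | empty => simp
  | insert j s hj ih =>
    rw [Finset.prod_insert hj, Finset.card_insert_of_notMem hj]
    have h1 : a j * ∏ i ∈ s, a i - b ^ (s.card + 1) =
        a j * (∏ i ∈ s, a i - b ^ s.card) + (a j - b) * b ^ s.card := by ring
    rw [h1]
    have haj : val (a j - b) < 1 := ha j (Finset.mem_insert_self j s)
    have haj1 : val (a j) ≤ 1 := by
      have : a j = (a j - b) + b := by ring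
      rw [this]
      exact (val.map_add _ _).trans (max_le haj.le hb)
    have ih' := ih fun i hi => ha i (Finset.mem_insert_of_mem hi)
    refine (val.map_add _ _).trans_lt (max_lt ?_ ?_)
    · rw [map_mul]
      exact (mul_le_of_le_one_left' haj1).trans_lt ih'
    · rw [map_mul, map_pow]
      exact (mul_le_of_le_one_right' (pow_le_one' hb _)).trans_lt haj

variable {p : ℕ} [Fact p.Prime] {K M : Type*} [Field K] [NumberField K] [Field M] [NumberField M]
  [Algebra K M] {ζ y : K} {B : M} {τ : M ≃ₐ[K] M}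

namespace IsKummer

/-! ### consequences -/

theorem ram_eq_one_of_unramAt (h : IsKummer p ζ y B τ) (w : Pl M)
    (hu : UnramAt p ζ y (below K w)) : ram K w = 1 := by
  by_cases hs : SplitAt p ζ y (below K w)
  · exact (h.ram_resdeg_of_ne (h.tauPl_ne_of_splitAt w hs)).1
  · exact (h.of_resdeg_ne_one (h.resdeg_ne_one_of_not_splitAt w hu hs)).2.1

theorem card_fiber_of_splitAt (h : IsKummer p ζ y B τ) {v : Pl K} (hs : SplitAt p ζ y v) :
    (fiber M v).card = p := by
  obtain ⟨w, rfl⟩ := exists_below_eq (M := M) v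
  exact h.card_fiber_eq (h.tauPl_ne_of_splitAt w hs)

theorem resdeg_eq_one_of_splitAt (h : IsKummer p ζ y B τ) (w : Pl M)
    (hs : SplitAt p ζ y (below K w)) : resdeg K w = 1 :=
  (h.ram_resdeg_of_ne (h.tauPl_ne_of_splitAt w hs)).2

/-- a place which is not split has exactly one place above it (`UnramAt` or not). -/
theorem card_fiber_of_not_splitAt (h : IsKummer p ζ y B τ) {v : Pl K}
    (hu : UnramAt p ζ y v ∨ ¬ (p : ℤ) ∣ ord v y) (hs : ¬ SplitAt p ζ y v) :
    (fiber M v).card = 1 := by
  obtain ⟨w, rfl⟩ := exists_below_eq (M := M) v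
  have hw : tauPl K τ w = w := by
    rcases hu with hu | hu
    · exact (h.of_resdeg_ne_one (h.resdeg_ne_one_of_not_splitAt w hu hs)).2.2
    · exact (h.of_ram_ne_one (h.ram_ne_one_of_not_dvd w hu)).2.2
  rw [h.fiber_eq_singleton hw, Finset.card_singleton]

/-- norms at inert places. -/
theorem dvd_ord_norm_of_inert (h : IsKummer p ζ y B τ) {v : Pl K} (hu : UnramAt p ζ y v)
    (hs : ¬ SplitAt p ζ y v) {z : M} (hz : z ≠ 0) : (p : ℤ) ∣ ord v (Algebra.norm K z) := by
  obtain ⟨w, rfl⟩ := exists_below_eq (M := M) v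
  obtain ⟨-, h1, h2⟩ := h.of_resdeg_ne_one (h.resdeg_ne_one_of_not_splitAt w hu hs)
  have h3 := h.ram_mul_ord_norm h2 hz
  rw [h1] at h3
  exact ⟨ord w z, by simpa using h3⟩

/-- norms at (totally) ramified places.
Proof.  `w` the place above `v`: `e = p`, `f = 1`, `τ w = w` (`ram_ne_one_of_not_dvd`,
`of_ram_ne_one`).  `ord_w B = ord_v y =: a` is prime to `p`; choose `k` with
`ord_w z + k a = p j`, `c : K` with `ord_v c = j` (`exists_ord_eq`); `z' = z B^k / c` is a `w`-unit;
`f = 1` gives `r : K` with `w (z' - r) < 1`; as `τ w = w` also `w (τ^i z' - r) < 1`, so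
`w (N z' - r^p) < 1`, hence `v (N z' - r^p) < 1`, `r` is a `v`-unit, and
`N z' = N z * y^k / c^p` (`norm_B`, `norm_algebraMap`). -/
theorem exists_locPow_norm_mul_pow (h : IsKummer p ζ y B τ) (hp : p ≠ 2) {v : Pl K}
    (hr : ¬ (p : ℤ) ∣ ord v y) {z : M} (hz : z ≠ 0) :
    ∃ k : ℕ, LocPow p v 1 (Algebra.norm K z * y ^ k) := by
  have hpp : p.Prime := Fact.out
  have hp0 : (p : ℤ) ≠ 0 := by exact_mod_cast hpp.ne_zero
  obtain ⟨w, rfl⟩ := exists_below_eq (M := M) v
  obtain ⟨he, hf, hw⟩ := h.of_ram_ne_one (h.ram_ne_one_of_not_dvd w hr)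
  set a : ℤ := ord (below K w) y with ha
  -- `ord_w B = a`
  have hB : ord w B = a := by
    have h1 : ord w (B ^ p) = ord w (algebraMap K M y) := by rw [h.B_pow]
    rw [ord_pow, ord_algebraMap, he] at h1
    exact mul_left_cancel₀ hp0 h1
  -- choice of `k`
  obtain ⟨k, j, hkj⟩ : ∃ (k : ℕ) (j : ℤ), ord w z + k * a = p * j := by
    have hcop : IsCoprime a (p : ℤ) := by
      have := (Nat.prime_iff_prime_int.1 hpp)
      exact ((this.coprime_iff_not_dvd).2 hr).symm
    obtain ⟨u, t, hut⟩ := hcop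
    set k₀ : ℤ := -(ord w z) * u with hk₀
    have hnn : 0 ≤ k₀ % p := Int.emod_nonneg _ hp0
    refine ⟨(k₀ % p).toNat, ord w z * t - (k₀ / p) * a, ?_⟩
    rw [Int.toNat_of_nonneg hnn]
    have h2 : k₀ % p = k₀ - p * (k₀ / p) := by
      have := Int.emod_add_mul_ediv k₀ p
      linarith
    rw [h2, hk₀]
    have : ord w z = ord w z * (u * a + t * p) := by rw [hut, mul_one]
    linear_combination this
  obtain ⟨c, hc0, hc⟩ := exists_ord_eq ({below K w} : Finset (Pl K)) (fun _ => j)
  have hcj : ord (below K w) c = j := hc _ (Finset.mem_singleton_self _)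
  have hc0' : algebraMap K M c ≠ 0 := (map_ne_zero (algebraMap K M)).2 hc0
  set z' : M := z * B ^ k / algebraMap K M c with hz'
  have hz'0 : z' ≠ 0 := div_ne_zero (mul_ne_zero hz (pow_ne_zero _ h.B_ne_zero)) hc0'
  have hordz' : ord w z' = 0 := by
    rw [hz', ord_div w (mul_ne_zero hz (pow_ne_zero _ h.B_ne_zero)) hc0',
      ord_mul w hz (pow_ne_zero _ h.B_ne_zero), ord_pow, hB, ord_algebraMap, he, hcj, hkj]
    ring
  have hvalz' : w.valuation M z' = 1 := Approx.valuation_eq_one_of_ord w hz'0 hordz'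
  obtain ⟨r, hr1, hr2⟩ := exists_sub_valuation_lt_one_of_resdeg_eq_one hf hvalz'.le
  -- `r` is a unit
  have hrw : w.valuation M (algebraMap K M r) = 1 := by
    have h3 : algebraMap K M r = z' + -(z' - algebraMap K M r) := by ring
    rw [h3, Valuation.map_add_eq_of_lt_left, hvalz']
    rw [Valuation.map_neg, hvalz']
    exact hr2
  have hrv : (below K w).valuation K r = 1 := by
    rw [valuation_algebraMap] at hrw
    by_contra hne
    have := (pow_lt_one_iff (ram_pos (K := K) w).ne').2 (lt_of_le_of_ne hr1 hne)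
    exact this.ne hrw
  have hr0 : r ≠ 0 := by
    rintro rfl
    simp at hrv
  -- conjugates
  have hconj : ∀ i ∈ range p, w.valuation M ((τ ^ i) z' - algebraMap K M r) < 1 := by
    intro i _
    have h4 := valuation_tauPl (τ ^ i) w (z' - algebraMap K M r)
    rw [h.tauPl_pow_eq_of_eq hw i, map_sub, AlgEquiv.commutes] at h4
    rw [h4]
    exact hr2
  have hprod := valuation_prod_sub_pow_lt_one (w.valuation M) (range p) (fun i => (τ ^ i) z')
    (algebraMap K M r) hrw.le hconj
  rw [Finset.card_range, ← h.algebraMap_norm, ← map_pow, ← map_sub, valuation_algebraMap] at hprod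
  have hN : (below K w).valuation K (Algebra.norm K z' - r ^ p) < 1 :=
    (pow_lt_one_iff (ram_pos w).ne').1 hprod
  -- the norm of `z'`
  have hNz' : Algebra.norm K z' * c ^ p = Algebra.norm K z * y ^ k := by
    have h5 : z' * algebraMap K M c = z * B ^ k := by
      rw [hz', div_mul_cancel₀ _ hc0']
    have h6 := congrArg (Algebra.norm K) h5
    rwa [map_mul, map_mul, map_pow, h.norm_algebraMap, h.norm_B hp] at h6
  refine ⟨k, c * r, mul_ne_zero hc0 hr0, ?_⟩
  have h7 : Algebra.norm K z * y ^ k / (c * r) ^ p - 1 = (Algebra.norm K z' - r ^ p) / r ^ p := by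
    rw [← hNz', mul_pow, mul_comm (c ^ p) (r ^ p), mul_div_mul_right _ _ (pow_ne_zero p hc0),
      sub_div, div_self (pow_ne_zero p hr0)]
  rw [h7, map_div₀, map_pow, hrv, one_pow, div_one]
  exact_mod_cast (Approx.lt_one_iff_le_exp _).1 hN

end IsKummer

end Fermat.Agent.S14
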