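import Fermat.Agent.S14.Kummer

set_option autoImplicit false

/-!
# S14 / KUM-H90: Hilbert 90 for a Kummer extension of prime degree
-/

namespace Fermat.Agent.S14

open Finset

variable {p : ℕ} [Fact p.Prime] {K M : Type*} [Field K] [Field M] [Algebra K M] {ζ y : K} {B : M}
  {τ : M ≃ₐ[K] M}

namespace IsKummer

/-- The powers `τ ^ i`, `i < p`, are pairwise distinct. -/
lemma tau_pow_injOn (h : IsKummer p ζ y B τ) {i j : ℕ} (hi : i < p) (hj : j < p)
    (hij : τ ^ i = τ ^ j) : i = j := by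
  have h1 : (τ ^ i) B = (τ ^ j) B := by rw [hij]
  rw [h.tau_pow_B, h.tau_pow_B] at h1
  have h2 := mul_right_cancel₀ h.B_ne_zero h1
  have h3 : ζ ^ i = ζ ^ j := (algebraMap K M).injective h2
  exact h.prim.pow_inj hi hj h3

/-- Partial norms. -/
private noncomputable def pn (τ : M ≃ₐ[K] M) (z : M) (i : ℕ) : M := ∏ j ∈ range i, (τ ^ j) z

private lemma pn_succ (z : M) (i : ℕ) : pn τ z (i + 1) = z * τ (pn τ z i) := by
  unfold pn
  rw [prod_range_succ', map_prod, mul_comm]
  congr 1
  refine prod_congr rfl fun j _ => ?_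
  rw [pow_succ', AlgEquiv.mul_apply]

private lemma exists_resolvent_ne_zero (h : IsKummer p ζ y B τ) (c : ℕ → M) (hc : c 0 = 1) :
    ∃ w : M, ∑ i ∈ range p, c i * (τ ^ i) w ≠ 0 := by
  by_contra hcon
  push Not at hcon
  have hp : 0 < p := (Fact.out : p.Prime).pos
  have hli := linearIndependent_monoidHom M M
  let f : Fin p → (M →* M) := fun i => (((τ ^ (i : ℕ) : M ≃ₐ[K] M) : M →+* M) : M →* M)
  have hf : Function.Injective f := by
    intro i j hij
    apply Fin.ext
    apply h.tau_pow_injOn i.2 j.2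
    ext x
    exact DFunLike.congr_fun hij x
  have hli' := hli.comp f hf
  rw [Fintype.linearIndependent_iff] at hli'
  have := hli' (fun i => c i) (by
    funext w
    have := hcon w
    rw [← Fin.sum_univ_eq_sum_range (fun i => c i * (τ ^ i) w)] at this
    simpa [f] using this) ⟨0, hp⟩
  simp [hc] at this

/-- Hilbert 90 for `M / K` (universe polymorphic; Mathlib's cyclic version lives in `Type`; use
`groupCohomology.isMulCoboundary₁_of_isMulCocycle₁_of_aut_to_units` or a Lagrange resolvent). -/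
theorem hilbert90 (h : IsKummer p ζ y B τ) {z : M} (hz : Algebra.norm K z = 1) :
    ∃ x : M, x ≠ 0 ∧ z = τ x / x := by
  have hp : 0 < p := (Fact.out : p.Prime).pos
  obtain ⟨w, hw⟩ := h.exists_resolvent_ne_zero (pn τ z) (by simp [pn])
  set x := ∑ i ∈ range p, pn τ z i * (τ ^ i) w with hx
  have hpn : pn τ z p = 1 := by
    unfold pn
    rw [← h.algebraMap_norm, hz, map_one]
  have key : z * τ x = x := by
    rw [hx, map_sum, mul_sum]
    have e1 : ∀ i ∈ range p, z * τ (pn τ z i * (τ ^ i) w) = pn τ z (i + 1) * (τ ^ (i + 1)) w := by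
      intro i _
      rw [map_mul, pn_succ, pow_succ', AlgEquiv.mul_apply, mul_assoc]
    rw [sum_congr rfl e1]
    obtain ⟨q, rfl⟩ : ∃ q, p = q + 1 := ⟨p - 1, by omega⟩
    rw [sum_range_succ, sum_range_succ' (fun i => pn τ z i * (τ ^ i) w), hpn, h.tau_pow_p]
    simp [pn]
  have hτx : τ x ≠ 0 := by
    intro h0
    rw [h0, mul_zero] at key
    exact hw key.symm
  refine ⟨x⁻¹, inv_ne_zero hw, ?_⟩
  rw [map_inv₀]
  field_simp
  exact key

end IsKummer

end Fermat.Agent.S14
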