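import Fermat.Agent.S14.FIUnits
import Fermat.Agent.S14.KummerLocal
import Fermat.Agent.S14.KummerH90
import Fermat.Agent.S14.FI.H1

set_option autoImplicit false

/-!
# S14 / FI-H1: `H¹(Gal(M/K), U_{M,S}) = 0`
-/

namespace Fermat.Agent.S14

open IsDedekindDomain NumberField Finset

variable {p : ℕ} [Fact p.Prime] {K M : Type*} [Field K] [NumberField K] [Field M] [NumberField M]
  [Algebra K M] {ζ y : K} {B : M} {τ : M ≃ₐ[K] M}

namespace IsKummer

/-- `H¹ = 0` for `S_M`-units, if `S` generates the class group of `K` and `M / K` is unramified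
outside `S`.
Proof.  Hilbert 90: `u = τ x / x`, `x ≠ 0`.  For `w ∉ S_M`: `ord_w (τ x) = ord_w x`, so
`w ↦ ord_w x` is invariant under `tauPl τ` outside `S_M`, hence (transitivity:
`exists_tau_pow_eq`) constant on the fibres above `v ∉ S`.  `ram w = 1` there
(`ram_eq_one_of_unramAt`).  By `GenCl.exists_ord_eq` (with `s` = the places below the support of
`ord · x`) there is `a : K`, `a ≠ 0`, `ord_v a = ord_w x` for all `w ∣ v ∉ S`.  `ε = x / a`. -/
theorem h1_trivial (h : IsKummer p ζ y B τ) (S : Finset (Pl K)) (hgen : GenCl S)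
    (hS : ∀ v, v ∉ S → UnramAt p ζ y v) {u : M} (hu : IsSUnit (fiberSet M S) u)
    (hN : Algebra.norm K u = 1) :
    ∃ ε : M, IsSUnit (fiberSet M S) ε ∧ u = τ ε / ε :=
  h.exists_sunit_of_norm_eq_one S hgen (fun w hw => h.ram_eq_one_of_unramAt w (hS _ hw)) hu hN

end IsKummer

end Fermat.Agent.S14
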