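import Fermat.Agent.S14.HQ

set_option autoImplicit false

/-!
# S14 / HQ-REL: from the Herbrand quotient to a relation modulo norms
-/

namespace Fermat.Agent.S14.HQ

open Module Finset

/-- `U` f.g. abelian, `σ ^ p = 1`, `H¹ = 0`, `rank U = r + (p - 1) c` with `r = rank U^σ`, and
`r < c + n`.  Then `[U^σ : N U] = p ^ (r - c) < p ^ n`, so any `n` fixed elements satisfy a
nontrivial relation modulo `p` and norms.
(Proof: `herbrand_mul`; `c` is determined by the rank equation; `relIndex (divHom).range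
(normHom).ker = 1` by `hH1`; pigeonhole on the `p ^ n` products `∏ x i ^ a i`, `0 ≤ a i < p`, in the
`p ^ (r - c)` cosets of `(normHom p σ).range` in `(divHom σ).ker`.) -/
theorem exists_relation {U : Type*} [CommGroup U] [Group.FG U] {p : ℕ} (hp : p.Prime)
    (σ : U →* U) (hσ : ∀ x, σ^[p] x = x) (c n : ℕ)
    (hrank : finrank ℤ (Additive U) = finrank ℤ (Additive (divHom σ).ker) + (p - 1) * c)
    (hn : finrank ℤ (Additive (divHom σ).ker) < c + n)
    (hH1 : ∀ x, normHom p σ x = 1 → ∃ ε, x = σ ε / ε)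
    (x : Fin n → U) (hx : ∀ i, σ (x i) = x i) :
    ∃ e : Fin n → ℤ, (∃ i, ¬ (p : ℤ) ∣ e i) ∧ ∃ z, normHom p σ z = ∏ i, x i ^ e i := by
  classical
  obtain ⟨-, -, n0, -, c', hc', hh⟩ := herbrand_mul p hp σ hσ
  have hcc : c' = c := by
    have h1 : (p - 1) * c' = (p - 1) * c := by omega
    exact Nat.eq_of_mul_eq_mul_left (by have := hp.two_le; omega) h1
  subst hcc
  have hI1 : (divHom σ).range.relIndex (normHom p σ).ker = 1 := by
    rw [Subgroup.relIndex_eq_one]
    intro y hy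
    obtain ⟨ε, hε⟩ := hH1 y hy
    exact ⟨ε, hε.symm⟩
  rw [hI1, one_mul] at hh
  have hlt : (normHom p σ).range.relIndex (divHom σ).ker < p ^ n := by
    have h2 : (normHom p σ).range.relIndex (divHom σ).ker * p ^ c' < p ^ n * p ^ c' := by
      rw [hh, ← pow_add]
      exact Nat.pow_lt_pow_right hp.one_lt (by omega)
    exact Nat.lt_of_mul_lt_mul_right h2
  set H : Subgroup (divHom σ).ker := (normHom p σ).range.subgroupOf (divHom σ).ker with hH
  have hcard : Nat.card ((divHom σ).ker ⧸ H) = (normHom p σ).range.relIndex (divHom σ).ker := rfl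
  have hfin : Finite ((divHom σ).ker ⧸ H) := Nat.finite_of_card_ne_zero (by rw [hcard]; exact n0)
  let _ := Fintype.ofFinite ((divHom σ).ker ⧸ H)
  have hmem : ∀ a : Fin n → Fin p, ∏ i, x i ^ (a i : ℕ) ∈ (divHom σ).ker := by
    intro a
    rw [mem_ker_divHom, map_prod]
    exact Finset.prod_congr rfl fun i _ => by rw [map_pow, hx]
  let f : (Fin n → Fin p) → (divHom σ).ker ⧸ H := fun a =>
    QuotientGroup.mk ⟨∏ i, x i ^ (a i : ℕ), hmem a⟩
  have hc2 : Fintype.card ((divHom σ).ker ⧸ H) < Fintype.card (Fin n → Fin p) := by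
    rw [← Nat.card_eq_fintype_card, hcard]
    simpa using hlt
  obtain ⟨a, b, hab, hfab⟩ := Fintype.exists_ne_map_eq_of_card_lt f hc2
  have h3 := QuotientGroup.eq.1 hfab
  rw [hH, Subgroup.mem_subgroupOf] at h3
  obtain ⟨z, hz⟩ := h3
  refine ⟨fun i => ((b i : ℕ) : ℤ) - ((a i : ℕ) : ℤ), ?_, z, ?_⟩
  · obtain ⟨i, hi⟩ := Function.ne_iff.1 hab
    refine ⟨i, fun hdvd => hi ?_⟩
    change (p : ℤ) ∣ ((b i : ℕ) : ℤ) - ((a i : ℕ) : ℤ) at hdvd
    have ha := (a i).2
    have hb := (b i).2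
    have h0 : ((b i : ℕ) : ℤ) - ((a i : ℕ) : ℤ) = 0 := by
      apply Int.eq_zero_of_abs_lt_dvd hdvd
      rw [abs_lt]
      constructor <;> omega
    apply Fin.ext
    omega
  · rw [hz]
    simp only [Subgroup.coe_mul, Subgroup.coe_inv]
    rw [← Finset.prod_inv_distrib, ← Finset.prod_mul_distrib]
    refine Finset.prod_congr rfl fun i _ => ?_
    rw [zpow_sub, zpow_natCast, zpow_natCast, mul_comm]

end Fermat.Agent.S14.HQ
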