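import Fermat.Agent.S14.FIRank
import Fermat.Agent.S14.FIH1
import Fermat.Agent.S14.HQRel

set_option autoImplicit false

/-!
# S14 / FI-IDX: the norm index of `S`-units
-/

namespace Fermat.Agent.S14

open IsDedekindDomain NumberField Finset

variable {p : ℕ} [Fact p.Prime] {K M : Type*} [Field K] [NumberField K] [Field M] [NumberField M]
  [Algebra K M] {ζ y : K} {B : M} {τ : M ≃ₐ[K] M}

namespace IsKummer

open Classical in
/-- **IDX**.  `[U_{K,S} : N U_{M,S}] = p ^ (#nonsplit(S) - 1)`, in relation form.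
Proof: `HQ.exists_relation` for `U = SUn (fiberSet M S)` (`SUn_fg`), `σ = tauSU τ S`,
`c = r_K + 1 + #split`, using `tauSU_iterate_p`, `finrank_SUn_fiberSet`, `finrank_fixed`,
`h1_trivial` (+ `coe_normHom_tauSU`), `x i = inclSU M S (u i)`. -/
theorem exists_norm_eq_prod (h : IsKummer p ζ y B τ) (hp : p ≠ 2) (S : Finset (Pl K))
    (hgen : GenCl S) (hcl : ∀ v, UnramAt p ζ y v ∨ ¬ (p : ℤ) ∣ ord v y)
    (hram : ∀ v, ¬ (p : ℤ) ∣ ord v y → v ∈ S) {n : ℕ}
    (hn : (S.filter (fun v => ¬ SplitAt p ζ y v)).card ≤ n) (u : Fin n → K)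
    (hu : ∀ i, IsSUnit S (u i)) :
    ∃ e : Fin n → ℤ, (∃ i, ¬ (p : ℤ) ∣ e i) ∧
      ∃ z : M, z ≠ 0 ∧ Algebra.norm K z = ∏ i, u i ^ e i := by
  have : Group.FG (SUn (fiberSet M S)) := SUn_fg _
  have hinj : Function.Injective (algebraMap K M) := (algebraMap K M).injective
  have hS : ∀ v, v ∉ S → UnramAt p ζ y v := fun v hv =>
    (hcl v).resolve_right fun h' => hv (hram v h')
  have hcard : (S.filter (fun v => SplitAt p ζ y v)).card +
      (S.filter (fun v => ¬ SplitAt p ζ y v)).card = S.card :=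
    Finset.card_filter_add_card_filter_not _
  -- the coercion `U → M` as a monoid hom
  let φ : SUn (fiberSet M S) →* M := (Units.coeHom M).comp (SUn (fiberSet M S)).subtype
  have hφ : ∀ x : SUn (fiberSet M S), φ x = ((x : Mˣ) : M) := fun _ => rfl
  let x : Fin n → SUn (fiberSet M S) := fun i =>
    inclSU M S ⟨Units.mk0 (u i) (hu i).1, mem_SUn_iff_isSUnit.2 (hu i)⟩
  have hxφ : ∀ i, φ (x i) = algebraMap K M (u i) := fun i => by
    rw [hφ, coe_inclSU]; rfl
  obtain ⟨e, he, z, hz⟩ := HQ.exists_relation (Fact.out : p.Prime) (tauSU τ S)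
    (h.tauSU_iterate_p S) (Units.rank K + 1 + (S.filter (fun v => SplitAt p ζ y v)).card) n
    (h.finrank_SUn_fiberSet hp hcl S)
    (by rw [h.finrank_fixed S]; omega)
    (by
      intro a ha
      have hN : Algebra.norm K ((a : Mˣ) : M) = 1 := by
        apply hinj
        rw [← h.coe_normHom_tauSU S a, ha, map_one]; rfl
      obtain ⟨ε, hε, hae⟩ := h.h1_trivial S hgen hS (mem_SUn_iff_isSUnit.1 a.2) hN
      refine ⟨⟨Units.mk0 ε hε.1, mem_SUn_iff_isSUnit.2 hε⟩, ?_⟩
      apply Subtype.ext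
      apply Units.ext
      rw [hae]
      simp [Units.val_div_eq_div_val])
    x
    (by
      intro i
      apply Subtype.ext
      apply Units.ext
      rw [coe_tauSU, ← hφ, hxφ, AlgEquiv.commutes])
  refine ⟨e, he, ((z : Mˣ) : M), (z : Mˣ).ne_zero, ?_⟩
  apply hinj
  rw [← h.coe_normHom_tauSU S z, hz, ← hφ, map_prod, map_prod]
  refine Finset.prod_congr rfl fun i _ => ?_
  rw [map_zpow, hxφ, map_zpow₀]

open Classical in
/-- **IDX'**, flexible form: the `u i` only need `p ∣ ord_v (u i)` at the nonsplit `v ∉ S`.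
Proof: enlarge `S` by the split places in the supports of the `u i` (`GenCl.mono`; the number of
nonsplit places does not change) and divide `u i` by `c i ^ p` where `ord_v (c i) = ord_v (u i) / p`
at the nonsplit `v ∉ S` (`GenCl.exists_ord_eq`); `c ^ p = N c`. -/
theorem exists_norm_eq_prod' (h : IsKummer p ζ y B τ) (hp : p ≠ 2) (S : Finset (Pl K))
    (hgen : GenCl S) (hcl : ∀ v, UnramAt p ζ y v ∨ ¬ (p : ℤ) ∣ ord v y)
    (hram : ∀ v, ¬ (p : ℤ) ∣ ord v y → v ∈ S) {n : ℕ}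
    (hn : (S.filter (fun v => ¬ SplitAt p ζ y v)).card ≤ n) (u : Fin n → K)
    (hu0 : ∀ i, u i ≠ 0)
    (hu : ∀ i v, v ∉ S → ¬ SplitAt p ζ y v → (p : ℤ) ∣ ord v (u i)) :
    ∃ e : Fin n → ℤ, (∃ i, ¬ (p : ℤ) ∣ e i) ∧
      ∃ z : M, z ≠ 0 ∧ Algebra.norm K z = ∏ i, u i ^ e i := by
  have hp0 : (p : ℤ) ≠ 0 := Nat.cast_ne_zero.2 (Fact.out : p.Prime).ne_zero
  -- supports
  let sp : Fin n → Finset (Pl K) := fun i => (finite_support_ord (hu0 i)).toFinset
  have hsp : ∀ i v, v ∈ sp i ↔ ord v (u i) ≠ 0 := fun i v => by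
    simp [sp, Function.mem_support]
  let S' : Finset (Pl K) :=
    S ∪ (Finset.univ.biUnion sp).filter (fun v => SplitAt p ζ y v)
  have hSS' : S ⊆ S' := Finset.subset_union_left
  have hfil : S'.filter (fun v => ¬ SplitAt p ζ y v) = S.filter (fun v => ¬ SplitAt p ζ y v) := by
    ext v
    simp only [S', Finset.mem_filter, Finset.mem_union]
    tauto
  have hgen' : GenCl S' := hgen.mono hSS'
  -- the correcting elements
  have hc : ∀ i, ∃ c : K, c ≠ 0 ∧ ∀ v, v ∉ S' → ord v (u i) = p * ord v c := by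
    intro i
    obtain ⟨c, hc0, h1, h2⟩ := hgen'.exists_ord_eq (sp i) (fun v => ord v (u i) / p)
    refine ⟨c, hc0, fun v hv => ?_⟩
    by_cases hvs : v ∈ sp i
    · rw [h1 v hvs hv]
      have hvS : v ∉ S := fun h' => hv (hSS' h')
      have hns : ¬ SplitAt p ζ y v := by
        intro hs
        apply hv
        simp only [S', Finset.mem_union, Finset.mem_filter, Finset.mem_biUnion, Finset.mem_univ,
          true_and]
        exact Or.inr ⟨⟨i, hvs⟩, hs⟩
      exact (Int.mul_ediv_cancel' (hu i v hvS hns)).symm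
    · rw [h2 v hv hvs, mul_zero]
      by_contra h0
      exact hvs ((hsp i v).2 h0)
  choose c hc0 hc using hc
  have hu' : ∀ i, IsSUnit S' (u i / c i ^ p) := by
    intro i
    refine ⟨div_ne_zero (hu0 i) (pow_ne_zero _ (hc0 i)), fun v hv => ?_⟩
    rw [ord_div v (hu0 i) (pow_ne_zero _ (hc0 i)), ord_pow, hc i v hv, sub_self]
  obtain ⟨e, he, z, hz0, hz⟩ := h.exists_norm_eq_prod hp S' hgen' hcl
    (fun v hv => hSS' (hram v hv)) (by rw [hfil]; exact hn) (fun i => u i / c i ^ p) hu'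
  have hC : (∏ i, c i ^ e i) ≠ 0 := Finset.prod_ne_zero_iff.2 fun i _ => zpow_ne_zero _ (hc0 i)
  refine ⟨e, he, z * algebraMap K M (∏ i, c i ^ e i),
    mul_ne_zero hz0 ((map_ne_zero (algebraMap K M)).2 hC), ?_⟩
  rw [map_mul, hz, Algebra.norm_algebraMap, h.finrank_eq, ← Finset.prod_pow,
    ← Finset.prod_mul_distrib]
  refine Finset.prod_congr rfl fun i _ => ?_
  rw [div_zpow, ← zpow_natCast (c i ^ e i) p, ← zpow_natCast (c i) p, ← zpow_mul, ← zpow_mul,
    mul_comm (e i) (p : ℤ)]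
  exact div_mul_cancel₀ _ (zpow_ne_zero _ (hc0 i))

end IsKummer

end Fermat.Agent.S14
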