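import Mathlib

set_option autoImplicit false

/-!
# S14 [HQ]: the Herbrand quotient of a cyclic group of prime order, via ranks

`A` a finitely generated abelian group, `σ` an endomorphism with `σ ^ p = 1`, `p` prime,
`D = σ - 1`, `Nm = ∑ i < p, σ ^ i`.  Then
`[ker D : im Nm] * p ^ c = [ker Nm : im D] * p ^ β` with `β = rank (ker D)`,
`rank A = β + (p - 1) * c`.
-/

namespace Fermat.Agent.S14.HQ

open Module Polynomial

/-! ## Index calculus for endomorphisms -/

section Q

variable {A : Type*} [AddCommGroup A]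

/-- `|ker (f ∘ g)| = |ker g| * |im g ∩ ker f|`. -/
theorem card_ker_comp (f g : A →+ A) :
    Nat.card (f.comp g).ker = Nat.card g.ker * Nat.card (g.range ⊓ f.ker : AddSubgroup A) := by
  have h1 : (f.comp g).ker = f.ker.comap g := by
    ext x; simp [AddMonoidHom.mem_ker]
  have hle : g.ker ≤ (f.comp g).ker := by
    intro x hx
    rw [AddMonoidHom.mem_ker] at hx ⊢
    simp [hx]
  have h2 := AddSubgroup.relIndex_mul_relIndex ⊥ g.ker (f.comp g).ker bot_le hle
  rw [AddSubgroup.relIndex_bot_left, AddSubgroup.relIndex_bot_left, AddSubgroup.relIndex_ker] at h2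
  rw [← h2, h1, AddSubgroup.map_comap_eq]

/-- The multiplicativity of `q(f) = |coker f| / |ker f|`, in multiplied-out form.
Holds unconditionally (with the `0` conventions of `Nat.card` and `index`). -/
theorem index_comp (f g : A →+ A) :
    (f.comp g).range.index * Nat.card f.ker * Nat.card g.ker =
      f.range.index * g.range.index * Nat.card (f.comp g).ker := by
  have h1 : (f.comp g).range.index = (g.range ⊔ f.ker).index * f.range.index := by
    rw [← AddSubgroup.index_map, AddMonoidHom.map_range]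
  have h2 : g.range.index = g.range.relIndex f.ker * (g.range ⊔ f.ker).index := by
    rw [← AddSubgroup.relIndex_mul_index (le_sup_left : g.range ≤ g.range ⊔ f.ker),
      AddSubgroup.relIndex_sup_left]
  have h3 : Nat.card f.ker =
      Nat.card (g.range ⊓ f.ker : AddSubgroup A) * g.range.relIndex f.ker := by
    have := AddSubgroup.relIndex_mul_relIndex ⊥ (g.range ⊓ f.ker) f.ker bot_le inf_le_right
    rw [AddSubgroup.relIndex_bot_left, AddSubgroup.relIndex_bot_left,
      AddSubgroup.inf_relIndex_right] at this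
    exact this.symm
  rw [card_ker_comp, h1, h2, h3]
  ring

end Q

/-! ## Endomorphisms of `ℤ`-modules -/

section L

variable {X : Type*} [AddCommGroup X]

/-- index of the image of an endomorphism -/
noncomputable def idx (f : Module.End ℤ X) : ℕ := (LinearMap.range f).toAddSubgroup.index

/-- cardinality of the kernel of an endomorphism -/
noncomputable def kc (f : Module.End ℤ X) : ℕ := Nat.card (LinearMap.ker f)

theorem idx_eq (f : Module.End ℤ X) : idx f = f.toAddMonoidHom.range.index := by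
  rw [idx, LinearMap.range_toAddSubgroup]

theorem kc_eq (f : Module.End ℤ X) : kc f = Nat.card f.toAddMonoidHom.ker := rfl

theorem idx_mul (f g : Module.End ℤ X) :
    idx (f * g) * kc f * kc g = idx f * idx g * kc (f * g) := by
  simp only [idx_eq, kc_eq]
  exact index_comp f.toAddMonoidHom g.toAddMonoidHom

theorem kc_mul (f g : Module.End ℤ X) :
    kc (f * g) = kc g * Nat.card (LinearMap.range g ⊓ LinearMap.ker f : Submodule ℤ X) := by
  have := card_ker_comp f.toAddMonoidHom g.toAddMonoidHom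
  exact this

theorem kc_one : kc (1 : Module.End ℤ X) = 1 := by
  have : Subsingleton (LinearMap.ker (1 : Module.End ℤ X)) := by
    constructor
    rintro ⟨a, ha⟩ ⟨b, hb⟩
    simp only [LinearMap.mem_ker, Module.End.one_apply] at ha hb
    simp [ha, hb]
  simp [kc]

theorem idx_one : idx (1 : Module.End ℤ X) = 1 := by
  rw [idx]
  have : LinearMap.range (1 : Module.End ℤ X) = ⊤ := LinearMap.range_id
  rw [this]; simp

theorem kc_pow_ne_zero (f : Module.End ℤ X) (h : kc f ≠ 0) (k : ℕ) : kc (f ^ k) ≠ 0 := by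
  induction k with
  | zero => simp [kc_one]
  | succ k ih =>
    rw [pow_succ', kc_mul]
    refine mul_ne_zero ih ?_
    have hfin : Finite (LinearMap.ker f) := Nat.finite_of_card_ne_zero h
    have : Finite (LinearMap.range (f ^ k) ⊓ LinearMap.ker f : Submodule ℤ X) :=
      Finite.of_injective (Submodule.inclusion inf_le_right) (Submodule.inclusion_injective _)
    exact Nat.card_pos.ne'

theorem idx_pow (f : Module.End ℤ X) (h : kc f ≠ 0) (k : ℕ) :
    idx (f ^ k) * kc f ^ k = idx f ^ k * kc (f ^ k) := by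
  induction k with
  | zero => simp [idx_one, kc_one]
  | succ k ih =>
    have hk := kc_pow_ne_zero f h k
    have hq := idx_mul f (f ^ k)
    rw [← pow_succ'] at hq
    apply Nat.eq_of_mul_eq_mul_right (Nat.pos_of_ne_zero hk)
    calc idx (f ^ (k + 1)) * kc f ^ (k + 1) * kc (f ^ k)
        = (idx (f ^ (k + 1)) * kc f * kc (f ^ k)) * kc f ^ k := by ring
      _ = idx f * idx (f ^ k) * kc (f ^ (k + 1)) * kc f ^ k := by rw [hq]
      _ = idx f * (idx (f ^ k) * kc f ^ k) * kc (f ^ (k + 1)) := by ring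
      _ = idx f ^ (k + 1) * kc (f ^ (k + 1)) * kc (f ^ k) := by rw [ih]; ring

end L

/-! ## Multiplication by `m` -/

section P

/-- index of `m Y` in a free module `Y` of finite rank -/
theorem idx_natCast_free {Y : Type*} [AddCommGroup Y] [Module.Finite ℤ Y] [Module.Free ℤ Y]
    (m : ℕ) (hm : m ≠ 0) : idx (m : Module.End ℤ Y) = m ^ finrank ℤ Y := by
  have hinj : Function.Injective (m : Module.End ℤ Y) := by
    intro a b hab
    simp only [Module.End.natCast_apply] at hab
    have h' : (m : ℤ) • a = (m : ℤ) • b := by simpa using hab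
    exact smul_right_injective Y (by exact_mod_cast hm : (m : ℤ) ≠ 0) h'
  let e := LinearEquiv.ofInjective (m : Module.End ℤ Y) hinj
  have h := Submodule.natAbs_det_equiv (LinearMap.range (m : Module.End ℤ Y)) e
  have h2 : (LinearMap.range (m : Module.End ℤ Y)).subtype ∘ₗ
      AddMonoidHom.toIntLinearMap (e : Y →+ LinearMap.range (m : Module.End ℤ Y)) =
      (m : ℤ) • LinearMap.id := by
    ext y
    simp [e]
  rw [h2, LinearMap.det_smul, LinearMap.det_id, mul_one, Int.natAbs_pow, Int.natAbs_natCast] at h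
  exact h.symm

variable {X : Type*} [AddCommGroup X] [Module.Finite ℤ X]

theorem finite_ker_natCast (m : ℕ) (hm : m ≠ 0) :
    Finite (LinearMap.ker (m : Module.End ℤ X)) := by
  apply Module.finite_of_fg_torsion
  rintro ⟨x, hx⟩
  refine ⟨⟨(m : ℤ), ?_⟩, ?_⟩
  · exact mem_nonZeroDivisors_of_ne_zero (by exact_mod_cast hm)
  · ext
    simpa using hx

theorem idx_natCast (m : ℕ) (hm : m ≠ 0) :
    idx (m : Module.End ℤ X) = m ^ finrank ℤ X * kc (m : Module.End ℤ X) := by
  set f : Module.End ℤ X := (m : Module.End ℤ X) with hf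
  set T := Submodule.torsion ℤ X with hT
  have hTfin : Finite T := Module.finite_of_fg_torsion _ Submodule.torsion_isTorsion
  set R := (LinearMap.range f).toAddSubgroup with hR
  set T' := T.toAddSubgroup with hT'
  have hTfin' : Finite T' := hTfin
  have hfx : ∀ x, f x = m • x := fun x => Module.End.natCast_apply m x
  -- (1)
  have h1 : R.index = R.relIndex T' * (R ⊔ T').index := by
    rw [← AddSubgroup.relIndex_mul_index (le_sup_left : R ≤ R ⊔ T'),
      AddSubgroup.relIndex_sup_left]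
  -- (2)
  have hker : f.toAddMonoidHom.ker ≤ T' := by
    intro x hx
    rw [AddMonoidHom.mem_ker] at hx
    change x ∈ Submodule.torsion ℤ X
    rw [Submodule.mem_torsion_iff]
    refine ⟨⟨(m : ℤ), mem_nonZeroDivisors_of_ne_zero (by exact_mod_cast hm)⟩, ?_⟩
    have : m • x = 0 := by rw [← hfx]; exact hx
    simpa [Submonoid.smul_def] using this
  have hinf : R ⊓ T' = T'.map f.toAddMonoidHom := by
    ext y
    constructor
    · rintro ⟨⟨x, rfl⟩, hy⟩
      refine ⟨x, ?_, rfl⟩
      change f x ∈ Submodule.torsion ℤ X at hy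
      change x ∈ Submodule.torsion ℤ X
      rw [Submodule.mem_torsion_iff] at hy ⊢
      obtain ⟨a, ha⟩ := hy
      refine ⟨a * ⟨(m : ℤ), mem_nonZeroDivisors_of_ne_zero (by exact_mod_cast hm)⟩, ?_⟩
      rw [hfx] at ha
      rw [mul_smul]
      simpa [Submonoid.smul_def] using ha
    · rintro ⟨x, hx, rfl⟩
      refine ⟨⟨x, rfl⟩, ?_⟩
      change f x ∈ T
      rw [hfx]
      exact T.smul_of_tower_mem m hx
  have h2 : R.relIndex T' = kc f := by
    have ha : R.relIndex T' * Nat.card (T'.map f.toAddMonoidHom) = Nat.card T' := by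
      have := AddSubgroup.relIndex_mul_relIndex ⊥ (R ⊓ T') T' bot_le inf_le_right
      rw [AddSubgroup.relIndex_bot_left, AddSubgroup.relIndex_bot_left,
        AddSubgroup.inf_relIndex_right, hinf] at this
      rw [mul_comm]; exact this
    have hb : Nat.card f.toAddMonoidHom.ker * Nat.card (T'.map f.toAddMonoidHom) = Nat.card T' := by
      have := AddSubgroup.relIndex_mul_relIndex ⊥ f.toAddMonoidHom.ker T' bot_le hker
      rw [AddSubgroup.relIndex_bot_left, AddSubgroup.relIndex_bot_left,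
        AddSubgroup.relIndex_ker] at this
      exact this
    have hpos : 0 < Nat.card (T'.map f.toAddMonoidHom) := by
      have : Finite (T'.map f.toAddMonoidHom) := by
        rw [← hinf]
        exact Finite.of_injective (AddSubgroup.inclusion inf_le_right)
          (AddSubgroup.inclusion_injective _)
      exact Nat.card_pos
    exact Nat.eq_of_mul_eq_mul_right hpos (ha.trans hb.symm)
  -- (3)
  have h3 : (R ⊔ T').index = m ^ finrank ℤ X := by
    have hrank : finrank ℤ (X ⧸ T) = finrank ℤ X := by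
      have := T.finrank_quotient_add_finrank
      rw [(Submodule.torsion_isTorsion (R := ℤ) (M := X)).finrank_eq_zero] at this
      simpa using this
    rw [← hrank, ← idx_natCast_free (Y := X ⧸ T) m hm]
    have hmap : (LinearMap.range (m : Module.End ℤ (X ⧸ T))).toAddSubgroup =
        R.map T.mkQ.toAddMonoidHom := by
      ext y
      constructor
      · rintro ⟨z, rfl⟩
        obtain ⟨x, rfl⟩ := T.mkQ_surjective z
        refine ⟨f x, ⟨x, rfl⟩, ?_⟩
        simp [hfx]
      · rintro ⟨_, ⟨x, rfl⟩, rfl⟩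
        refine ⟨T.mkQ x, ?_⟩
        simp [hfx]
    rw [idx, hmap, AddSubgroup.index_map]
    have hk : T.mkQ.toAddMonoidHom.ker = T' := by
      ext x
      simp [AddMonoidHom.mem_ker, hT']
    have hr : T.mkQ.toAddMonoidHom.range = ⊤ := by
      rw [AddMonoidHom.range_eq_top]
      exact T.mkQ_surjective
    rw [hk, hr, AddSubgroup.index_top, mul_one]
  rw [idx, ← hR, h1, h2, h3, mul_comm]

end P

/-! ## Polynomial identities -/

theorem exists_poly (p : ℕ) (hp : p.Prime) :
    ∃ R : ℤ[X], (∑ i ∈ Finset.range p, (X : ℤ[X]) ^ i) =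
      (X - 1) ^ (p - 1) + (p : ℤ[X]) * (1 + (X - 1) * R) := by
  have h0 : (∑ i ∈ Finset.range p, (X : ℤ[X]) ^ i) =
      ∑ k ∈ Finset.range p, ((p.choose (k + 1) : ℕ) : ℤ[X]) * (X - 1) ^ k := by
    have h := congrArg (fun q : ℤ[X] => q.comp (X - 1))
      (Polynomial.geom_sum_X_comp_X_add_one_eq_sum (R := ℤ) p)
    simp only [Polynomial.comp_assoc] at h
    simpa [Polynomial.sum_comp] using h
  obtain ⟨m, rfl⟩ : ∃ m, p = m + 1 := ⟨p - 1, by have := hp.pos; omega⟩
  have hm : m ≠ 0 := by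
    rintro rfl
    exact Nat.not_prime_one hp
  rw [Finset.sum_range_succ (fun k => (((m + 1).choose (k + 1) : ℕ) : ℤ[X]) * (X - 1) ^ k)] at h0
  have hdvd : ((m + 1 : ℕ) : ℤ[X]) ∣
      ∑ k ∈ Finset.range m, (((m + 1).choose (k + 1) : ℕ) : ℤ[X]) * (X - 1) ^ k := by
    apply Finset.dvd_sum
    intro k hk
    apply Dvd.dvd.mul_right
    have : (m + 1) ∣ (m + 1).choose (k + 1) :=
      hp.dvd_choose_self (by omega) (by have := Finset.mem_range.1 hk; omega)
    exact_mod_cast (Nat.cast_dvd_cast (α := ℤ[X]) this)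
  obtain ⟨h, hh⟩ := hdvd
  rw [hh] at h0
  have h1 : h.eval 1 = 1 := by
    have := congrArg (fun q : ℤ[X] => q.eval 1) h0
    simp [Polynomial.eval_finsetSum, hm] at this
    have hne : ((m : ℤ) + 1) ≠ 0 := by positivity
    have h2 : ((m : ℤ) + 1) * h.eval 1 = ((m : ℤ) + 1) * 1 := by linarith
    exact mul_left_cancel₀ hne h2
  have h2 : (X - C (1 : ℤ)) ∣ h - 1 := by
    rw [Polynomial.dvd_iff_isRoot]
    simp [h1]
  obtain ⟨R, hR⟩ := h2
  refine ⟨R, ?_⟩
  rw [h0]
  have : h = 1 + (X - 1) * R := by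
    have : h - 1 = (X - 1) * R := by simpa using hR
    linear_combination this
  rw [← this]
  simp
  ring

/-- `(X-1)^(p-1) = G - p W` with `W` a unit modulo `G = 1 + X + ... + X^(p-1)`. -/
theorem exists_poly_unit (p : ℕ) (hp : p.Prime) :
    ∃ W V Q : ℤ[X], (∑ i ∈ Finset.range p, (X : ℤ[X]) ^ i) = (X - 1) ^ (p - 1) + (p : ℤ[X]) * W ∧
      W * V + (∑ i ∈ Finset.range p, (X : ℤ[X]) ^ i) * Q = 1 := by
  obtain ⟨R, hR⟩ := exists_poly p hp
  obtain ⟨a, ha⟩ := sub_dvd_pow_sub_pow (1 : ℤ[X]) ((X - 1) * (-R)) (p - 1)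
  refine ⟨1 + (X - 1) * R, a - (p : ℤ[X]) * (-R) ^ (p - 1), (-R) ^ (p - 1), hR, ?_⟩
  rw [hR]
  rw [one_pow, mul_pow] at ha
  linear_combination (-1 : ℤ[X]) * ha

theorem nat_root_aux (p : ℕ) (hp : p.Prime) (n r x y : ℕ) (hn : n ≠ 0) (hy : y ≠ 0)
    (h : x ^ n = p ^ r * y ^ n) : ∃ c, r = n * c ∧ x = p ^ c * y := by
  have h1 : y ∣ x := by
    rw [← Nat.pow_dvd_pow_iff hn, h]
    exact Dvd.intro_left _ rfl
  obtain ⟨z, rfl⟩ := h1
  have h2 : z ^ n = p ^ r := by
    rw [mul_pow, mul_comm] at h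
    exact Nat.eq_of_mul_eq_mul_right (pow_pos (Nat.pos_of_ne_zero hy) n) h
  have h3 : z ∣ p ^ r := h2 ▸ dvd_pow_self z hn
  obtain ⟨c, -, rfl⟩ := (Nat.dvd_prime_pow hp).1 h3
  refine ⟨c, ?_, mul_comm _ _⟩
  rw [← pow_mul] at h2
  have := Nat.pow_right_injective hp.two_le h2
  rw [← this, mul_comm]

/-! ## Modules killed by the norm; restriction to submodules -/

section N0

variable {M : Type*} [AddCommGroup M]

theorem idx_mul_unit (f u v : Module.End ℤ M) (huv : u * v = 1) : idx (f * u) = idx f := by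
  have : LinearMap.range (f * u) = LinearMap.range f := by
    apply le_antisymm
    · rintro _ ⟨x, rfl⟩; exact ⟨u x, rfl⟩
    · rintro _ ⟨x, rfl⟩
      refine ⟨v x, ?_⟩
      have : u (v x) = x := by
        have := congrArg (fun g : Module.End ℤ M => g x) huv
        simpa using this
      simp [this]
  rw [idx, this, idx]

theorem kc_unit_mul (f u v : Module.End ℤ M) (hvu : v * u = 1) : kc (u * f) = kc f := by
  have : LinearMap.ker (u * f) = LinearMap.ker f := by
    ext x
    simp only [LinearMap.mem_ker, Module.End.mul_apply]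
    constructor
    · intro h
      have h2 : v (u (f x)) = f x := by
        have := congrArg (fun g : Module.End ℤ M => g (f x)) hvu
        simpa using this
      rw [← h2, h, map_zero]
    · intro h; rw [h, map_zero]
  rw [kc, this, kc]

variable [Module.Finite ℤ M]

/-- A finitely generated module killed by the norm `1 + σ + ... + σ^(p-1)`:
`[X : (σ-1)X] = p^c |X^σ|` with `rank X = (p-1) c`. -/
theorem idx_sub_one_of_norm_eq_zero (p : ℕ) (hp : p.Prime) (σ : Module.End ℤ M)
    (hN : ∑ i ∈ Finset.range p, σ ^ i = 0) :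
    kc (σ - 1) ≠ 0 ∧ ∃ c, finrank ℤ M = (p - 1) * c ∧ idx (σ - 1) = p ^ c * kc (σ - 1) := by
  obtain ⟨W, V, Q, h1, h2⟩ := exists_poly_unit p hp
  have e1 := congrArg (aeval σ) h1
  have e2 := congrArg (aeval σ) h2
  have e3 := congrArg (aeval σ) (show V * W + (∑ i ∈ Finset.range p, (X : ℤ[X]) ^ i) * Q = 1 by
    rw [mul_comm V W]; exact h2)
  simp only [map_sum, map_pow, aeval_X, map_add, map_mul, map_sub, map_one, map_natCast, hN,
    zero_mul, add_zero] at e1 e2 e3
  set w := aeval σ W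
  set v := aeval σ V
  set D := σ - 1
  have hn : p - 1 ≠ 0 := by have := hp.two_le; omega
  have hD1 : D ^ (p - 1) = (p : Module.End ℤ M) * (-w) := by
    rw [mul_neg]; exact eq_neg_of_add_eq_zero_left e1.symm
  have hD2 : D ^ (p - 1) = (-w) * (p : Module.End ℤ M) := by
    rw [hD1]; exact (Nat.cast_commute p (-w))
  have hidx : idx (D ^ (p - 1)) = idx (p : Module.End ℤ M) := by
    rw [hD1]; exact idx_mul_unit _ (-w) (-v) (by rw [neg_mul_neg]; exact e2)
  have hkc : kc (D ^ (p - 1)) = kc (p : Module.End ℤ M) := by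
    rw [hD2]; exact kc_unit_mul _ (-w) (-v) (by rw [neg_mul_neg]; exact e3)
  have hfinp : Finite (LinearMap.ker (p : Module.End ℤ M)) := finite_ker_natCast p hp.ne_zero
  have hkp : kc (p : Module.End ℤ M) ≠ 0 := Nat.card_pos.ne'
  have hkD : kc D ≠ 0 := by
    have hle : LinearMap.ker D ≤ LinearMap.ker (D ^ (p - 1)) := by
      intro x hx
      rw [LinearMap.mem_ker] at hx ⊢
      obtain ⟨m, hm⟩ : ∃ m, p - 1 = m + 1 := ⟨p - 2, by omega⟩
      rw [hm, pow_succ, Module.End.mul_apply, hx, map_zero]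
    have hfin : Finite (LinearMap.ker (D ^ (p - 1))) := Nat.finite_of_card_ne_zero (by
      have : kc (D ^ (p - 1)) ≠ 0 := by rw [hkc]; exact hkp
      exact this)
    have : Finite (LinearMap.ker D) :=
      Finite.of_injective (Submodule.inclusion hle) (Submodule.inclusion_injective _)
    exact Nat.card_pos.ne'
  refine ⟨hkD, ?_⟩
  have hpow := idx_pow D hkD (p - 1)
  rw [hidx, hkc, idx_natCast p hp.ne_zero] at hpow
  have hmain : idx D ^ (p - 1) = p ^ finrank ℤ M * kc D ^ (p - 1) := by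
    apply Nat.eq_of_mul_eq_mul_right (Nat.pos_of_ne_zero hkp)
    rw [← hpow]; ring
  exact nat_root_aux p hp (p - 1) _ _ _ hn hkD hmain

end N0

section transport

variable {A : Type*} [AddCommGroup A]

theorem idx_restrict (f : Module.End ℤ A) (Y : Submodule ℤ A) (hY : ∀ x ∈ Y, f x ∈ Y) :
    idx (f.restrict hY) = (Y.map f).toAddSubgroup.relIndex Y.toAddSubgroup := by
  have hinj : Function.Injective Y.subtype.toAddMonoidHom := Y.subtype_injective
  have h := AddSubgroup.relIndex_map_map_of_injective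
    (LinearMap.range (f.restrict hY)).toAddSubgroup ⊤ hinj
  rw [AddSubgroup.relIndex_top_right] at h
  rw [idx, ← h]
  congr 1
  · ext y
    constructor
    · rintro ⟨_, ⟨x, rfl⟩, rfl⟩
      exact ⟨x, x.2, rfl⟩
    · rintro ⟨x, hx, rfl⟩
      exact ⟨_, ⟨⟨x, hx⟩, rfl⟩, rfl⟩
  · ext y
    constructor
    · rintro ⟨x, -, rfl⟩; exact x.2
    · intro hy; exact ⟨⟨y, hy⟩, trivial, rfl⟩

theorem kc_restrict (f : Module.End ℤ A) (Y : Submodule ℤ A) (hY : ∀ x ∈ Y, f x ∈ Y) :
    kc (f.restrict hY) = Nat.card (LinearMap.ker f ⊓ Y : Submodule ℤ A) := by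
  rw [kc]
  refine Nat.card_congr ⟨fun x => ⟨x.1.1, ?_, x.1.2⟩, fun x => ⟨⟨x.1, x.2.2⟩, ?_⟩, ?_, ?_⟩
  · have := x.2
    rw [LinearMap.mem_ker] at this
    have h2 := congrArg Subtype.val this
    exact LinearMap.mem_ker.2 h2
  · rw [LinearMap.mem_ker]
    ext
    simpa using x.2.1
  · intro x; rfl
  · intro x; rfl

end transport

/-! ## The Herbrand quotient -/

section main

variable {A : Type*} [AddCommGroup A]

/-- the norm endomorphism `1 + σ + ... + σ^(p-1)` -/
noncomputable def Nm (p : ℕ) (σ : Module.End ℤ A) : Module.End ℤ A := ∑ i ∈ Finset.range p, σ ^ i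

/-- `|Ĥ⁰| = [ker (σ-1) : im Nm]` -/
noncomputable def h0 (p : ℕ) (σ : Module.End ℤ A) : ℕ :=
  (LinearMap.range (Nm p σ)).toAddSubgroup.relIndex (LinearMap.ker (σ - 1)).toAddSubgroup

/-- `|H¹| = [ker Nm : im (σ-1)]` -/
noncomputable def h1 (p : ℕ) (σ : Module.End ℤ A) : ℕ :=
  (LinearMap.range (σ - 1)).toAddSubgroup.relIndex (LinearMap.ker (Nm p σ)).toAddSubgroup

theorem sub_one_mul_Nm (p : ℕ) (σ : Module.End ℤ A) (hσ : σ ^ p = 1) : (σ - 1) * Nm p σ = 0 := by
  rw [Nm, mul_geom_sum, hσ, sub_self]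

theorem Nm_mul_sub_one (p : ℕ) (σ : Module.End ℤ A) (hσ : σ ^ p = 1) : Nm p σ * (σ - 1) = 0 := by
  rw [Nm, geom_sum_mul, hσ, sub_self]

theorem range_Nm_le (p : ℕ) (σ : Module.End ℤ A) (hσ : σ ^ p = 1) :
    LinearMap.range (Nm p σ) ≤ LinearMap.ker (σ - 1) := by
  rintro _ ⟨x, rfl⟩
  rw [LinearMap.mem_ker, ← Module.End.mul_apply, sub_one_mul_Nm p σ hσ, LinearMap.zero_apply]

theorem range_sub_one_le (p : ℕ) (σ : Module.End ℤ A) (hσ : σ ^ p = 1) :
    LinearMap.range (σ - 1) ≤ LinearMap.ker (Nm p σ) := by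
  rintro _ ⟨x, rfl⟩
  rw [LinearMap.mem_ker, ← Module.End.mul_apply, Nm_mul_sub_one p σ hσ, LinearMap.zero_apply]

theorem Nm_apply_of_mem_ker (p : ℕ) (σ : Module.End ℤ A) (x : A)
    (hx : x ∈ LinearMap.ker (σ - 1)) : Nm p σ x = p • x := by
  have h1 : σ x = x := by
    rw [LinearMap.mem_ker, LinearMap.sub_apply, Module.End.one_apply] at hx
    exact sub_eq_zero.1 hx
  have h2 : ∀ i : ℕ, (σ ^ i) x = x := by
    intro i
    induction i with
    | zero => simp
    | succ i ih => rw [pow_succ, Module.End.mul_apply, h1, ih]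
  simp [Nm, LinearMap.sum_apply, h2]

/-- index calculus: `[f Y : f ⊤]`. -/
theorem relIndex_map_range (f : Module.End ℤ A) (Y : Submodule ℤ A) :
    (Y.map f).toAddSubgroup.relIndex (LinearMap.range f).toAddSubgroup =
      (Y ⊔ LinearMap.ker f).toAddSubgroup.index := by
  have h := AddSubgroup.relIndex_map_map f.toAddMonoidHom Y.toAddSubgroup ⊤
  rw [top_sup_eq, AddSubgroup.relIndex_top_right] at h
  have e1 : (Y.map f).toAddSubgroup = Y.toAddSubgroup.map f.toAddMonoidHom := by
    ext y; rfl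
  have e2 : (LinearMap.range f).toAddSubgroup = (⊤ : AddSubgroup A).map f.toAddMonoidHom := by
    ext y; simp
  have e3 : (Y ⊔ LinearMap.ker f).toAddSubgroup = Y.toAddSubgroup ⊔ f.toAddMonoidHom.ker := by
    rw [Submodule.sup_toAddSubgroup]; rfl
  rw [e1, e2, e3, h]

variable [Module.Finite ℤ A]

theorem finrank_eq_of_relIndex_ne_zero (H K : Submodule ℤ A) (hle : H ≤ K)
    (h : H.toAddSubgroup.relIndex K.toAddSubgroup ≠ 0) : finrank ℤ H = finrank ℤ K := by
  have h1 := (H.comap K.subtype).finrank_quotient_add_finrank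
  have hfin : Finite (K ⧸ H.comap K.subtype) := Nat.finite_of_card_ne_zero h
  have h0 : finrank ℤ (K ⧸ H.comap K.subtype) = 0 :=
    (isAddTorsion_iff_isTorsion_int.1 isAddTorsion_of_finite).finrank_eq_zero
  rw [h0, zero_add, (Submodule.comapSubtypeEquivOfLe hle).finrank_eq] at h1
  exact h1

/-- Fine form of the Herbrand quotient computation: with `J = [A : ker D + ker Nm]` and
`t = |ker D ∩ ker Nm|` one has `h0 * J = p^β * t` and `h1 * J = p^c * t`. -/
theorem herbrand_fine (p : ℕ) (hp : p.Prime) (σ : Module.End ℤ A) (hσ : σ ^ p = 1) :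
    ∃ c J t : ℕ, J ≠ 0 ∧ t ≠ 0 ∧
      finrank ℤ (LinearMap.ker (Nm p σ)) = (p - 1) * c ∧
      h0 p σ * J = p ^ finrank ℤ (LinearMap.ker (σ - 1)) * t ∧
      h1 p σ * J = p ^ c * t := by
  set D := σ - 1 with hD
  set N := Nm p σ with hN
  set B := LinearMap.ker D with hBdef
  set C := LinearMap.ker N with hCdef
  have hDN : D * N = 0 := sub_one_mul_Nm p σ hσ
  have hND : N * D = 0 := Nm_mul_sub_one p σ hσ
  have hB : ∀ x ∈ B, N x ∈ B := fun x _ => range_Nm_le p σ hσ ⟨x, rfl⟩
  have hCD : ∀ x ∈ C, D x ∈ C := fun x _ => range_sub_one_le p σ hσ ⟨x, rfl⟩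
  have hC : ∀ x ∈ C, σ x ∈ C := by
    intro x hx
    have : σ x = D x + x := by simp [hD]
    rw [this]
    exact C.add_mem (hCD x hx) hx
  -- multiplication by `p` on `B`
  have hPB := idx_natCast (X := B) p hp.ne_zero
  have hpB : (p : Module.End ℤ B) = N.restrict hB := by
    ext x
    simp only [Module.End.natCast_apply, LinearMap.coe_restrict_apply, Submodule.coe_smul_of_tower]
    exact (Nm_apply_of_mem_ker p σ x x.2).symm
  rw [hpB, idx_restrict, kc_restrict] at hPB
  -- `σ - 1` on `C`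
  have hsum : ∑ i ∈ Finset.range p, (σ.restrict hC) ^ i = 0 := by
    ext x
    have hpow : ∀ i : ℕ, (((σ.restrict hC) ^ i) x : A) = (σ ^ i) x := by
      intro i
      rw [Module.End.pow_restrict]
      rfl
    simp only [LinearMap.sum_apply, Submodule.coe_sum, LinearMap.zero_apply, Submodule.coe_zero,
      hpow]
    have h2 : N (x : A) = 0 := LinearMap.mem_ker.1 x.2
    rw [hN, Nm, LinearMap.sum_apply] at h2
    exact h2
  obtain ⟨hk, c, hc, hidx⟩ := idx_sub_one_of_norm_eq_zero p hp (σ.restrict hC) hsum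
  have hσC : σ.restrict hC - 1 = D.restrict hCD := by
    ext x
    simp [hD]
  rw [hσC] at hk hidx
  rw [idx_restrict, kc_restrict] at hidx
  rw [kc_restrict] at hk
  have hcomm : (LinearMap.ker N ⊓ B : Submodule ℤ A) = LinearMap.ker D ⊓ C := inf_comm _ _
  rw [hcomm] at hPB
  -- index calculus
  have i1 := AddSubgroup.relIndex_mul_relIndex (B.map N).toAddSubgroup
    (LinearMap.range N).toAddSubgroup B.toAddSubgroup
    (by rintro _ ⟨x, -, rfl⟩; exact ⟨x, rfl⟩) (range_Nm_le p σ hσ)
  have i2 := AddSubgroup.relIndex_mul_relIndex (C.map D).toAddSubgroup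
    (LinearMap.range D).toAddSubgroup C.toAddSubgroup
    (by rintro _ ⟨x, -, rfl⟩; exact ⟨x, rfl⟩) (range_sub_one_le p σ hσ)
  rw [relIndex_map_range] at i1 i2
  have hsup : (C ⊔ LinearMap.ker D : Submodule ℤ A) = B ⊔ LinearMap.ker N := sup_comm _ _
  rw [hsup] at i2
  set J := (B ⊔ LinearMap.ker N).toAddSubgroup.index with hJ
  set t := Nat.card (LinearMap.ker D ⊓ C : Submodule ℤ A) with ht
  have e1 : h0 p σ * J = p ^ finrank ℤ B * t := by
    rw [← hPB, ← i1, mul_comm]; rfl
  have e2 : h1 p σ * J = p ^ c * t := by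
    rw [← hidx, ← i2, mul_comm]; rfl
  refine ⟨c, J, t, ?_, hk, hc, e1, e2⟩
  intro hJ0
  rw [hJ0, mul_zero] at e2
  exact (mul_ne_zero (pow_ne_zero _ hp.ne_zero) hk) e2.symm

/-- **Herbrand quotient via ranks** (additive form). -/
theorem herbrand (p : ℕ) (hp : p.Prime) (σ : Module.End ℤ A) (hσ : σ ^ p = 1) :
    h0 p σ ≠ 0 ∧ h1 p σ ≠ 0 ∧ ∃ c : ℕ,
      finrank ℤ A = finrank ℤ (LinearMap.ker (σ - 1)) + (p - 1) * c ∧
      h0 p σ * p ^ c = h1 p σ * p ^ finrank ℤ (LinearMap.ker (σ - 1)) := by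
  obtain ⟨c, J, t, hJ, ht, hc, e0, e1⟩ := herbrand_fine p hp σ hσ
  have hp0 : p ≠ 0 := hp.ne_zero
  have h0ne : h0 p σ ≠ 0 := by
    intro h
    rw [h, zero_mul] at e0
    exact (mul_ne_zero (pow_ne_zero _ hp0) ht) e0.symm
  have h1ne : h1 p σ ≠ 0 := by
    intro h
    rw [h, zero_mul] at e1
    exact (mul_ne_zero (pow_ne_zero _ hp0) ht) e1.symm
  refine ⟨h0ne, h1ne, c, ?_, ?_⟩
  · have r1 := (LinearMap.ker (Nm p σ)).finrank_quotient_add_finrank
    rw [(Nm p σ).quotKerEquivRange.finrank_eq,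
      finrank_eq_of_relIndex_ne_zero _ _ (range_Nm_le p σ hσ) h0ne, hc] at r1
    exact r1.symm
  · apply Nat.eq_of_mul_eq_mul_right (Nat.pos_of_ne_zero hJ)
    calc h0 p σ * p ^ c * J = (h0 p σ * J) * p ^ c := by ring
      _ = p ^ finrank ℤ (LinearMap.ker (σ - 1)) * (p ^ c * t) := by rw [e0]; ring
      _ = h1 p σ * p ^ finrank ℤ (LinearMap.ker (σ - 1)) * J := by rw [← e1]; ring

end main

/-! ## Multiplicative form -/

section mul

variable {U : Type*} [CommGroup U]

/-- `x ↦ ∏_{i<p} σ^i x` -/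
noncomputable def normHom (p : ℕ) (σ : U →* U) : U →* U where
  toFun x := ∏ i ∈ Finset.range p, σ^[i] x
  map_one' := by
    apply Finset.prod_eq_one
    intro i _
    exact iterate_map_one σ i
  map_mul' x y := by
    rw [← Finset.prod_mul_distrib]
    apply Finset.prod_congr rfl
    intro i _
    exact iterate_map_mul σ i x y

/-- `x ↦ σ x / x` -/
def divHom (σ : U →* U) : U →* U where
  toFun x := σ x / x
  map_one' := by simp
  map_mul' x y := by rw [map_mul, mul_div_mul_comm]

@[simp] theorem normHom_apply (p : ℕ) (σ : U →* U) (x : U) :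
    normHom p σ x = ∏ i ∈ Finset.range p, σ^[i] x := rfl

@[simp] theorem divHom_apply (σ : U →* U) (x : U) : divHom σ x = σ x / x := rfl

theorem mem_ker_divHom (σ : U →* U) (x : U) : x ∈ (divHom σ).ker ↔ σ x = x := by
  rw [MonoidHom.mem_ker, divHom_apply, div_eq_one]

/-- the additive endomorphism attached to `σ` -/
noncomputable def toEnd (σ : U →* U) : Module.End ℤ (Additive U) :=
  (MonoidHom.toAdditive σ).toIntLinearMap

theorem toEnd_apply (σ : U →* U) (x : Additive U) :
    toEnd σ x = Additive.ofMul (σ x.toMul) := rfl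

theorem toEnd_pow_apply (σ : U →* U) (i : ℕ) (x : Additive U) :
    (toEnd σ ^ i) x = Additive.ofMul (σ^[i] x.toMul) := by
  induction i generalizing x with
  | zero => simp
  | succ i ih =>
    rw [pow_succ, Module.End.mul_apply, ih, Function.iterate_succ_apply, toEnd_apply]
    rfl

theorem Nm_toEnd_apply (p : ℕ) (σ : U →* U) (x : Additive U) :
    Nm p (toEnd σ) x = Additive.ofMul (normHom p σ x.toMul) := by
  simp only [Nm, LinearMap.sum_apply, toEnd_pow_apply, normHom_apply, ofMul_prod]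

theorem sub_one_toEnd_apply (σ : U →* U) (x : Additive U) :
    (toEnd σ - 1) x = Additive.ofMul (divHom σ x.toMul) := by
  simp only [LinearMap.sub_apply, Module.End.one_apply, toEnd_apply, divHom_apply, ofMul_div,
    ofMul_toMul]

variable [Group.FG U]

/-- **Herbrand quotient via ranks** (multiplicative form).  `σ` an endomorphism of the finitely
generated abelian group `U` with `σ^p = id`. -/
theorem herbrand_mul (p : ℕ) (hp : p.Prime) (σ : U →* U) (hσ : ∀ x, σ^[p] x = x) :
    (normHom p σ).range ≤ (divHom σ).ker ∧ (divHom σ).range ≤ (normHom p σ).ker ∧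
    (normHom p σ).range.relIndex (divHom σ).ker ≠ 0 ∧
    (divHom σ).range.relIndex (normHom p σ).ker ≠ 0 ∧ ∃ c : ℕ,
      finrank ℤ (Additive U) = finrank ℤ (Additive (divHom σ).ker) + (p - 1) * c ∧
      (normHom p σ).range.relIndex (divHom σ).ker * p ^ c =
        (divHom σ).range.relIndex (normHom p σ).ker * p ^ finrank ℤ (Additive (divHom σ).ker) := by
  have hσ' : toEnd σ ^ p = 1 := by
    ext x
    rw [toEnd_pow_apply, hσ]; rfl
  have a1 : (LinearMap.range (Nm p (toEnd σ))).toAddSubgroup =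
      Subgroup.toAddSubgroup (normHom p σ).range := by
    ext y
    constructor
    · rintro ⟨x, rfl⟩
      rw [Nm_toEnd_apply]
      exact ⟨x.toMul, rfl⟩
    · rintro ⟨x, hx⟩
      refine ⟨Additive.ofMul x, ?_⟩
      rw [Nm_toEnd_apply]
      exact congrArg Additive.ofMul hx
  have a2 : (LinearMap.range (toEnd σ - 1)).toAddSubgroup =
      Subgroup.toAddSubgroup (divHom σ).range := by
    ext y
    constructor
    · rintro ⟨x, rfl⟩
      rw [sub_one_toEnd_apply]
      exact ⟨x.toMul, rfl⟩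
    · rintro ⟨x, hx⟩
      refine ⟨Additive.ofMul x, ?_⟩
      rw [sub_one_toEnd_apply]
      exact congrArg Additive.ofMul hx
  have a3 : (LinearMap.ker (Nm p (toEnd σ))).toAddSubgroup =
      Subgroup.toAddSubgroup (normHom p σ).ker := by
    ext y
    change Nm p (toEnd σ) y = 0 ↔ normHom p σ y.toMul = 1
    rw [Nm_toEnd_apply]
    exact Iff.rfl
  have a4 : (LinearMap.ker (toEnd σ - 1)).toAddSubgroup =
      Subgroup.toAddSubgroup (divHom σ).ker := by
    ext y
    change (toEnd σ - 1) y = 0 ↔ divHom σ y.toMul = 1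
    rw [sub_one_toEnd_apply]
    exact Iff.rfl
  have e0 : h0 p (toEnd σ) = (normHom p σ).range.relIndex (divHom σ).ker := by
    rw [h0, a1, a4, Subgroup.relIndex_toAddSubgroup]
  have e1 : h1 p (toEnd σ) = (divHom σ).range.relIndex (normHom p σ).ker := by
    rw [h1, a2, a3, Subgroup.relIndex_toAddSubgroup]
  have er : finrank ℤ (LinearMap.ker (toEnd σ - 1)) = finrank ℤ (Additive (divHom σ).ker) := by
    let e : LinearMap.ker (toEnd σ - 1) ≃+ Additive (divHom σ).ker :=
      { toFun := fun x => Additive.ofMul ⟨x.1.toMul, by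
          have := x.2
          rw [LinearMap.mem_ker, sub_one_toEnd_apply] at this
          exact this⟩
        invFun := fun x => ⟨Additive.ofMul x.toMul.1, by
          rw [LinearMap.mem_ker, sub_one_toEnd_apply]
          exact congrArg Additive.ofMul x.toMul.2⟩
        left_inv := fun x => rfl
        right_inv := fun x => rfl
        map_add' := fun x y => rfl }
    exact e.toIntLinearEquiv.finrank_eq
  obtain ⟨n0, n1, c, hc, hh⟩ := herbrand p hp (toEnd σ) hσ'
  rw [e0] at n0 hh
  rw [e1] at n1 hh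
  rw [er] at hc hh
  refine ⟨?_, ?_, n0, n1, c, hc, hh⟩
  · have h : (LinearMap.range (Nm p (toEnd σ))).toAddSubgroup ≤
        (LinearMap.ker (toEnd σ - 1)).toAddSubgroup := range_Nm_le p (toEnd σ) hσ'
    rw [a1, a4] at h
    exact Subgroup.toAddSubgroup.le_iff_le.1 h
  · have h : (LinearMap.range (toEnd σ - 1)).toAddSubgroup ≤
        (LinearMap.ker (Nm p (toEnd σ))).toAddSubgroup := range_sub_one_le p (toEnd σ) hσ'
    rw [a2, a3] at h
    exact Subgroup.toAddSubgroup.le_iff_le.1 h

end mul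

end Fermat.Agent.S14.HQ
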