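import Fermat.Agent.S14.FIUnits
import Fermat.Agent.S14.KummerLocal
import Fermat.Agent.S14.HQ

set_option autoImplicit false

/-!
# S14 / FI-RK: the rank computations for the first inequality
-/

namespace Fermat.Agent.S14

open IsDedekindDomain NumberField Finset Module

section complex

variable {p : ℕ} [Fact p.Prime] {K : Type*} [Field K] [NumberField K] {ζ : K}

/-- A number field containing a primitive `p`-th root of unity, `p` odd, is totally complex. -/
lemma nrRealPlaces_eq_zero_of_isPrimitiveRoot (hζ : IsPrimitiveRoot ζ p) (hp : p ≠ 2) :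
    InfinitePlace.nrRealPlaces K = 0 := by
  have h2 : 2 ≤ p := (Fact.out : p.Prime).two_le
  exact NumberField.InfinitePlace.IsPrimitiveRoot.nrRealPlaces_eq_zero_of_two_lt (by omega) hζ

lemma two_mul_rank_add_one (hζ : IsPrimitiveRoot ζ p) (hp : p ≠ 2) :
    2 * (Units.rank K + 1) = finrank ℚ K := by
  have h0 := nrRealPlaces_eq_zero_of_isPrimitiveRoot hζ hp
  have h1 := InfinitePlace.card_add_two_mul_card_eq_rank K
  have h2 := InfinitePlace.card_eq_nrRealPlaces_add_nrComplexPlaces K
  have h3 : 0 < Fintype.card (InfinitePlace K) := Fintype.card_pos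
  rw [h0, zero_add] at h1 h2
  rw [Units.rank, ← h1, ← h2]
  omega

end complex

variable {p : ℕ} [Fact p.Prime] {K M : Type*} [Field K] [NumberField K] [Field M] [NumberField M]
  [Algebra K M] {ζ y : K} {B : M} {τ : M ≃ₐ[K] M}

namespace IsKummer

/-- `r_M + 1 = p (r_K + 1)`. -/
lemma rank_add_one (h : IsKummer p ζ y B τ) (hp : p ≠ 2) :
    Units.rank M + 1 = p * (Units.rank K + 1) := by
  have hK := two_mul_rank_add_one h.prim hp
  have hM := two_mul_rank_add_one
    (h.prim.map_of_injective (algebraMap K M).injective) hp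
  have hmul := Module.finrank_mul_finrank ℚ K M
  rw [h.finrank_eq, ← hK, ← hM] at hmul
  have : 2 * (Units.rank M + 1) = 2 * (p * (Units.rank K + 1)) := by
    rw [← hmul]; ring
  exact Nat.eq_of_mul_eq_mul_left (by norm_num) this

open Classical in
/-- `#S_M = p #split + #nonsplit`. -/
lemma card_fiberSet_eq (h : IsKummer p ζ y B τ)
    (hcl : ∀ v, UnramAt p ζ y v ∨ ¬ (p : ℤ) ∣ ord v y) (S : Finset (Pl K)) :
    (fiberSet M S).card = p * (S.filter (fun v => SplitAt p ζ y v)).card +
      (S.filter (fun v => ¬ SplitAt p ζ y v)).card := by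
  rw [card_fiberSet, ← Finset.sum_filter_add_sum_filter_not S (fun v => SplitAt p ζ y v)]
  congr 1
  · rw [Finset.sum_congr rfl (fun v hv => h.card_fiber_of_splitAt (Finset.mem_filter.1 hv).2),
      Finset.sum_const, smul_eq_mul, mul_comm]
  · rw [Finset.sum_congr rfl
      (fun v hv => h.card_fiber_of_not_splitAt (hcl v) (Finset.mem_filter.1 hv).2),
      Finset.sum_const, smul_eq_mul, mul_one]

/-- `τ ^ p = 1` on `S_M`-units. -/
lemma tauSU_iterate_p (h : IsKummer p ζ y B τ) (S : Finset (Pl K)) (x : SUn (fiberSet M S)) :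
    (tauSU τ S)^[p] x = x := by
  apply Subtype.ext
  apply Units.ext
  rw [coe_tauSU_iterate, h.tau_pow_p, AlgEquiv.one_apply]

/-- The fixed points of `τ` on the `S_M`-units are the `S`-units of `K`. -/
lemma range_inclSU (h : IsKummer p ζ y B τ) (S : Finset (Pl K)) :
    (inclSU M S).range = (HQ.divHom (tauSU τ S)).ker := by
  ext x
  rw [HQ.mem_ker_divHom, MonoidHom.mem_range]
  constructor
  · rintro ⟨a, rfl⟩
    apply Subtype.ext
    apply Units.ext
    rw [coe_tauSU, coe_inclSU, AlgEquiv.commutes]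
  · intro hx
    have hx' : τ ((x : Mˣ) : M) = ((x : Mˣ) : M) := by
      rw [← coe_tauSU, hx]
    obtain ⟨a, ha⟩ := h.exists_of_tau_eq hx'
    have hS : IsSUnit S a := by
      rw [← isSUnit_algebraMap (M := M), ha]
      exact mem_SUn_iff_isSUnit.1 x.2
    refine ⟨⟨Units.mk0 a hS.1, mem_SUn_iff_isSUnit.2 hS⟩, ?_⟩
    apply Subtype.ext
    apply Units.ext
    rw [coe_inclSU]
    exact ha

lemma finrank_fixed (h : IsKummer p ζ y B τ) (S : Finset (Pl K)) :
    finrank ℤ (Additive (HQ.divHom (tauSU τ S)).ker) = Units.rank K + S.card := by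
  rw [← finrank_SUn S, ← h.range_inclSU S]
  let e : SUn S ≃* (inclSU M S).range := MonoidHom.ofInjective (inclSU_injective (M := M) S)
  exact (LinearEquiv.finrank_eq (MulEquiv.toAdditive e).toIntLinearEquiv).symm

/-- the norm on `S_M`-units. -/
lemma coe_normHom_tauSU (h : IsKummer p ζ y B τ) (S : Finset (Pl K)) (x : SUn (fiberSet M S)) :
    (((HQ.normHom p (tauSU τ S) x : SUn (fiberSet M S)) : Mˣ) : M) =
      algebraMap K M (Algebra.norm K ((x : Mˣ) : M)) := by
  rw [h.algebraMap_norm, HQ.normHom_apply]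
  simp only [Subgroup.val_finsetProd, Units.coe_prod, coe_tauSU_iterate]

open Classical in
/-- The rank equation `rank U_{M,S} = rank U_{K,S} + (p - 1) (r_K + 1 + #split)`. -/
lemma finrank_SUn_fiberSet (h : IsKummer p ζ y B τ) (hp : p ≠ 2)
    (hcl : ∀ v, UnramAt p ζ y v ∨ ¬ (p : ℤ) ∣ ord v y) (S : Finset (Pl K)) :
    finrank ℤ (Additive (SUn (fiberSet M S))) =
      finrank ℤ (Additive (HQ.divHom (tauSU τ S)).ker) +
        (p - 1) * (Units.rank K + 1 + (S.filter (fun v => SplitAt p ζ y v)).card) := by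
  rw [finrank_SUn, h.finrank_fixed, h.card_fiberSet_eq hcl]
  have h1 := h.rank_add_one hp
  have h2 : S.card = (S.filter (fun v => SplitAt p ζ y v)).card +
      (S.filter (fun v => ¬ SplitAt p ζ y v)).card :=
    (Finset.card_filter_add_card_filter_not _).symm
  obtain ⟨q, rfl⟩ : ∃ q, p = q + 1 := ⟨p - 1, by have := (Fact.out : p.Prime).pos; omega⟩
  rw [h2, Nat.add_sub_cancel]
  have h3 : Units.rank M = (q + 1) * (Units.rank K + 1) - 1 := by omega
  have h4 : (q + 1) * (Units.rank K + 1) = q * (Units.rank K + 1) + Units.rank K + 1 := by ring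
  rw [h3, h4, Nat.add_sub_cancel]
  ring

end IsKummer

end Fermat.Agent.S14
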