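import Fermat.Agent.S14.SUnits
import Fermat.Agent.S14.Ext
import Fermat.Agent.S14.AbIndex

set_option autoImplicit false

/-!
# S14 / FI-SU: the group of `S`-units, its rank, the action of `Gal(M/K)` on the `S_M`-units
-/

namespace Fermat.Agent.S14

open IsDedekindDomain NumberField Finset

section group

variable {F : Type*} [Field F] [NumberField F]

/-- The group of `S`-units of `F`, as a subgroup of `Fˣ`. -/
def SUn (S : Finset (Pl F)) : Subgroup Fˣ where
  carrier := {x | ∀ v, v ∉ S → ord v (x : F) = 0}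
  mul_mem' := by
    intro a b ha hb v hv
    rw [Units.val_mul, ord_mul v a.ne_zero b.ne_zero, ha v hv, hb v hv, add_zero]
  one_mem' := by
    intro v _
    rw [Units.val_one, ord_one]
  inv_mem' := by
    intro a ha v hv
    rw [Units.val_inv_eq_inv_val, ord_inv, ha v hv, neg_zero]

lemma mem_SUn {S : Finset (Pl F)} {x : Fˣ} : x ∈ SUn S ↔ ∀ v, v ∉ S → ord v (x : F) = 0 := Iff.rfl

lemma mem_SUn_iff_isSUnit {S : Finset (Pl F)} {x : Fˣ} : x ∈ SUn S ↔ IsSUnit S (x : F) :=
  ⟨fun h => ⟨x.ne_zero, h⟩, fun h => h.2⟩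

/-- The divisor map on `S`-units. -/
noncomputable def SUn.ordHom (S : Finset (Pl F)) : Additive (SUn S) →ₗ[ℤ] (S → ℤ) :=
  AddMonoidHom.toIntLinearMap
    { toFun := fun x v => ord v.1 (((Additive.toMul x : SUn S) : Fˣ) : F)
      map_zero' := by
        funext v
        exact ord_one v.1
      map_add' := by
        intro x y
        funext v
        exact ord_mul v.1 (Additive.toMul x : SUn S).1.ne_zero (Additive.toMul y : SUn S).1.ne_zero }

lemma SUn.ordHom_apply (S : Finset (Pl F)) (x : Additive (SUn S)) (v : S) :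
    SUn.ordHom S x v = ord v.1 (((Additive.toMul x : SUn S) : Fˣ) : F) := rfl

/-- Units of the ring of integers as `S`-units. -/
noncomputable def SUn.unitsHom (S : Finset (Pl F)) : Additive (𝓞 F)ˣ →ₗ[ℤ] Additive (SUn S) :=
  AddMonoidHom.toIntLinearMap (MonoidHom.toAdditive
    ((Units.map (algebraMap (𝓞 F) F : 𝓞 F →* F)).codRestrict (SUn S) (by
      intro u v _
      exact ord_unit v u)))

lemma SUn.coe_unitsHom (S : Finset (Pl F)) (u : Additive (𝓞 F)ˣ) :
    (((Additive.toMul (SUn.unitsHom S u) : SUn S) : Fˣ) : F) = ((Additive.toMul u : (𝓞 F)ˣ) : 𝓞 F) :=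
  rfl

lemma SUn.unitsHom_injective (S : Finset (Pl F)) : Function.Injective (SUn.unitsHom S) := by
  intro u u' h
  have h1 := SUn.coe_unitsHom S u
  rw [h, SUn.coe_unitsHom] at h1
  exact Additive.toMul.injective (Units.ext (RingOfIntegers.ext h1.symm))

lemma SUn.range_unitsHom (S : Finset (Pl F)) :
    LinearMap.range (SUn.unitsHom S) = LinearMap.ker (SUn.ordHom S) := by
  ext x
  rw [LinearMap.mem_range, LinearMap.mem_ker]
  constructor
  · rintro ⟨u, rfl⟩
    funext v
    rw [SUn.ordHom_apply, SUn.coe_unitsHom]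
    exact ord_unit v.1 _
  · intro h
    have hx : ∀ v : Pl F, ord v (((Additive.toMul x : SUn S) : Fˣ) : F) = 0 := by
      intro v
      by_cases hv : v ∈ S
      · exact congrFun h ⟨v, hv⟩
      · exact (Additive.toMul x : SUn S).2 v hv
    obtain ⟨u, hu⟩ := exists_unit_of_ord_eq_zero (Additive.toMul x : SUn S).1.ne_zero hx
    refine ⟨Additive.ofMul u, ?_⟩
    apply Additive.toMul.injective
    apply Subtype.ext
    apply Units.ext
    rw [SUn.coe_unitsHom]
    exact hu

instance SUn.moduleFinite (S : Finset (Pl F)) : Module.Finite ℤ (Additive (SUn S)) := by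
  rw [Module.finite_def]
  refine Submodule.fg_of_fg_map_of_fg_inf_ker (SUn.ordHom S) ?_ ?_
  · exact IsNoetherian.noetherian _
  · rw [inf_of_le_right le_top, ← SUn.range_unitsHom, LinearMap.range_eq_map]
    exact (Module.finite_def.mp inferInstance).map _

/-- **S-unit theorem** (finite generation). -/
theorem SUn_fg (S : Finset (Pl F)) : Group.FG (SUn S) := by
  rw [Group.fg_iff_monoid_fg, Monoid.fg_iff_add_fg, ← AddGroup.fg_iff_addMonoid_fg,
    ← Module.Finite.iff_addGroup_fg]
  infer_instance

open FractionalIdeal in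
/-- A power of a prime ideal is principal. -/
lemma SUn.exists_ord_eq_classNumber (v : Pl F) :
    ∃ x : F, x ≠ 0 ∧ ord v x = classNumber F ∧ ∀ w, w ≠ v → ord w x = 0 := by
  have hv0 : v.asIdeal ∈ nonZeroDivisors (Ideal (𝓞 F)) :=
    mem_nonZeroDivisors_iff_ne_zero.2 v.ne_bot
  have h1 : ClassGroup.mk0 (⟨v.asIdeal, hv0⟩ ^ classNumber F) = 1 := by
    rw [map_pow, classNumber]
    exact pow_card_eq_one
  rw [ClassGroup.mk0_eq_one_iff] at h1
  obtain ⟨a, ha⟩ := h1.principal
  have ha' : v.asIdeal ^ classNumber F = Ideal.span {a} := by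
    simpa using ha
  have ha0 : a ≠ 0 := by
    rintro rfl
    rw [Set.singleton_zero, Ideal.span_zero] at ha'
    exact pow_ne_zero _ v.ne_bot ha'
  have ha0' : (a : F) ≠ 0 := by simpa using ha0
  have hspan : spanSingleton (nonZeroDivisors (𝓞 F)) (a : F) =
      ((v.asIdeal : Ideal (𝓞 F)) : FractionalIdeal (nonZeroDivisors (𝓞 F)) F) ^ classNumber F := by
    rw [← coeIdeal_pow, ha', coeIdeal_span_singleton]
  refine ⟨a, ha0', ?_, fun w hw => ?_⟩
  · rw [ord_eq_count v ha0', hspan, count_pow_self]
  · rw [ord_eq_count w ha0', hspan, count_pow, count_maximal_coprime F w hw.symm, mul_zero]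

lemma SUn.finrank_range_ordHom (S : Finset (Pl F)) :
    Module.finrank ℤ (LinearMap.range (SUn.ordHom S)) = S.card := by
  classical
  apply le_antisymm
  · have := Submodule.finrank_le (LinearMap.range (SUn.ordHom S))
    simpa using this
  · have hmem : ∀ f : S → ℤ, (classNumber F : ℤ) • f ∈ LinearMap.range (SUn.ordHom S) := by
      intro f
      have hsingle : ∀ v : S, (classNumber F : ℤ) • (Pi.single v (1 : ℤ) : S → ℤ) ∈
          LinearMap.range (SUn.ordHom S) := by
        intro v
        obtain ⟨x, hx0, hx1, hx2⟩ := SUn.exists_ord_eq_classNumber v.1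
        have hxS : Units.mk0 x hx0 ∈ SUn S := by
          intro w hw
          exact hx2 w (fun h => hw (h ▸ v.2))
        refine ⟨Additive.ofMul ⟨Units.mk0 x hx0, hxS⟩, ?_⟩
        funext w
        rw [SUn.ordHom_apply]
        show ord w.1 x = _
        by_cases hwv : w = v
        · subst hwv
          simp [hx1]
        · rw [hx2 w.1 (fun h => hwv (Subtype.ext h))]
          simp [Pi.single_eq_of_ne hwv]
      have hf : f = ∑ v : S, f v • (Pi.single v (1 : ℤ) : S → ℤ) := by
        funext w
        simp [Finset.sum_apply, Pi.single_apply]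
      rw [hf, Finset.smul_sum]
      refine Submodule.sum_mem _ fun v _ => ?_
      rw [smul_comm]
      exact Submodule.smul_mem _ _ (hsingle v)
    let g : (S → ℤ) →ₗ[ℤ] LinearMap.range (SUn.ordHom S) :=
      LinearMap.codRestrict _ ((classNumber F : ℤ) • LinearMap.id) hmem
    have hg : Function.Injective g := by
      intro f f' h
      have h1 : (classNumber F : ℤ) • f = (classNumber F : ℤ) • f' := congrArg Subtype.val h
      exact smul_right_injective _ (by exact_mod_cast classNumber_ne_zero F) h1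
    have := LinearMap.finrank_le_finrank_of_injective hg
    simpa using this

/-- **S-unit theorem** (rank). -/
theorem finrank_SUn (S : Finset (Pl F)) :
    Module.finrank ℤ (Additive (SUn S)) = Units.rank F + S.card := by
  rw [AbIdx.finrank_int_eq_range_add_ker (SUn.ordHom S), SUn.finrank_range_ordHom,
    ← SUn.range_unitsHom, LinearMap.finrank_range_of_inj (SUn.unitsHom_injective S),
    Units.finrank_eq, add_comm]

end group

section action

variable {K M : Type*} [Field K] [NumberField K] [Field M] [NumberField M] [Algebra K M]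

/-- `τ` acts on the `S_M`-units. -/
noncomputable def tauSU (τ : M ≃ₐ[K] M) (S : Finset (Pl K)) :
    SUn (fiberSet M S) →* SUn (fiberSet M S) :=
  ((Units.map (τ : M →* M)).comp (SUn (fiberSet M S)).subtype).codRestrict _ (by
    intro x w hw
    have hx := x.2
    have h1 : ord w (τ ((x : Mˣ) : M)) = ord (tauPl K τ.symm w) ((x : Mˣ) : M) := by
      rw [ord_tauPl_symm]; rfl
    have h2 : tauPl K τ.symm w ∉ fiberSet M S := by
      rw [mem_fiberSet, below_tauPl]
      rwa [mem_fiberSet] at hw
    exact h1.trans (hx _ h2))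

@[simp] lemma coe_tauSU (τ : M ≃ₐ[K] M) (S : Finset (Pl K)) (x : SUn (fiberSet M S)) :
    (((tauSU τ S x : SUn (fiberSet M S)) : Mˣ) : M) = τ ((x : Mˣ) : M) := rfl

lemma coe_tauSU_iterate (τ : M ≃ₐ[K] M) (S : Finset (Pl K)) (i : ℕ) (x : SUn (fiberSet M S)) :
    (((((tauSU τ S)^[i]) x : SUn (fiberSet M S)) : Mˣ) : M) = (τ ^ i) ((x : Mˣ) : M) := by
  induction i with
  | zero => rfl
  | succ n ih =>
    rw [Function.iterate_succ_apply', coe_tauSU, ih, pow_succ', AlgEquiv.mul_apply]

/-- `S`-units of `K` are `S_M`-units of `M`. -/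
lemma isSUnit_algebraMap {S : Finset (Pl K)} {x : K} :
    IsSUnit (fiberSet M S) (algebraMap K M x) ↔ IsSUnit S x := by
  constructor
  · rintro ⟨h0, h⟩
    refine ⟨fun hx => h0 (by rw [hx, map_zero]), fun v hv => ?_⟩
    obtain ⟨w, rfl⟩ := exists_below_eq (M := M) v
    have h1 := h w (by rwa [mem_fiberSet])
    rw [ord_algebraMap] at h1
    have h2 : (ram K w : ℤ) ≠ 0 := by exact_mod_cast (ram_pos (K := K) w).ne'
    exact (mul_eq_zero.mp h1).resolve_left h2
  · rintro ⟨h0, h⟩
    refine ⟨fun hx => h0 ((map_eq_zero _).mp hx), fun w hw => ?_⟩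
    rw [ord_algebraMap, h _ (by rwa [mem_fiberSet] at hw), mul_zero]

/-- The inclusion of the `S`-units of `K` in the `S_M`-units of `M`. -/
noncomputable def inclSU (M : Type*) [Field M] [NumberField M] [Algebra K M] (S : Finset (Pl K)) :
    SUn S →* SUn (fiberSet M S) :=
  ((Units.map (algebraMap K M : K →* M)).comp (SUn S).subtype).codRestrict _ (by
    intro x
    exact mem_SUn_iff_isSUnit.mpr (isSUnit_algebraMap.mpr (mem_SUn_iff_isSUnit.mp x.2)))

@[simp] lemma coe_inclSU (S : Finset (Pl K)) (x : SUn S) :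
    (((inclSU M S x : SUn (fiberSet M S)) : Mˣ) : M) = algebraMap K M ((x : Kˣ) : K) := rfl

lemma inclSU_injective (S : Finset (Pl K)) : Function.Injective (inclSU M S) := by
  intro x y h
  have h1 : algebraMap K M ((x : Kˣ) : K) = algebraMap K M ((y : Kˣ) : K) := by
    rw [← coe_inclSU (M := M), ← coe_inclSU (M := M), h]
  exact Subtype.ext (Units.ext ((algebraMap K M).injective h1))

end action

end Fermat.Agent.S14
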