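import Fermat.Agent.S14.FI.Fin
import Fermat.Agent.S14.FIIndex
import Fermat.Agent.S14.KummerExists
import Fermat.Agent.S14.Lambda

set_option autoImplicit false

/-!
# S14 / FI: the first inequality for tame Kummer extensions of `K = ℚ(ζ_p)`, dual form
-/

namespace Fermat.Agent.S14

open IsDedekindDomain NumberField Finset

variable {p : ℕ} [Fact p.Prime] {K : Type*} [Field K] [NumberField K]
  [IsCyclotomicExtension {p} ℚ K]

/-- **First inequality** (dual form).  `y ∈ K^×` not a `p`-th power, primary at the place above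
`p`.  `M = K(y^{1/p})` is ramified exactly at `T_y = {v : p ∤ ord_v y}`.  Then there is a nonzero
function `m` on places which vanishes on `T_y`, on the places (not above `p`) which split in `M`,
and whose divisor pairing kills every `γ` which is a local `p`-th power at all places of `T_y`. -/
theorem firstIneq (hp : p ≠ 2) (y : K) (hy0 : y ≠ 0) (hy : ¬ IsPPow p y)
    (hprim : ∀ v : Pl K, Above p v → LocPow p v p y) :
    ∃ m : Pl K → ZMod p, m ≠ 0 ∧
      (∀ v, ¬ (p : ℤ) ∣ ord v y → m v = 0) ∧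
      (∀ v, ¬ Above p v → LocPow p v 1 y → m v = 0) ∧
      (∀ γ : K, γ ≠ 0 → (∀ v, ¬ (p : ℤ) ∣ ord v y → LocPow p v 1 γ) → pair m γ = 0) := by
  classical
  have hpp : p.Prime := Fact.out
  have : NeZero p := ⟨hpp.ne_zero⟩
  obtain ⟨ζ, hζ⟩ : ∃ ζ : K, IsPrimitiveRoot ζ p :=
    IsCyclotomicExtension.exists_isPrimitiveRoot ℚ K (Set.mem_singleton p) hpp.ne_zero
  obtain ⟨M, _, _, _, B, τ, h⟩ := exists_isKummer hζ hy
  obtain ⟨lam, hlam, hlamu, hlam1, -⟩ := exists_lam hζ
  have hramp : ∀ v, ¬ (p : ℤ) ∣ ord v y → ¬ Above p v :=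
    fun v hv hab => hv ((hprim v hab).dvd_ord hpp.one_le)
  have hcl : ∀ v, UnramAt p ζ y v ∨ ¬ (p : ℤ) ∣ ord v y := by
    intro v
    by_cases hd : (p : ℤ) ∣ ord v y
    · left
      by_cases hab : Above p v
      · refine ⟨hd, ?_⟩
        have h1 : dz ζ v = 1 := by
          have h2 : ord v (ζ - 1) = 1 := by
            rw [hlamu v hab, ← ord_neg, neg_sub]; exact hlam1
          simp [dz, h2]
        rw [h1, mul_one]
        exact hprim v hab
      · exact (unramAt_iff_of_not_above hζ hab hy0).mpr hd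
    · right; exact hd
  obtain ⟨SM, -, -, hSM, -⟩ := exists_genCl (F := M) ∅ ∅ (by simp)
  obtain ⟨S, hinc, -, hS, -⟩ := exists_genCl (F := K)
    ((finite_support_ord hy0).toFinset ∪ SM.image (below K)) ∅ (by simp)
  have hgenM : GenCl (fiberSet M S) := hSM.mono (fun w hw =>
    mem_fiberSet.mpr (hinc (mem_union_right _ (mem_image_of_mem _ hw))))
  have hram : ∀ v, ¬ (p : ℤ) ∣ ord v y → v ∈ S := by
    intro v hv
    apply hinc
    apply mem_union_left
    simp only [Set.Finite.mem_toFinset, Function.mem_support]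
    intro h0
    exact hv (by rw [h0]; exact dvd_zero _)
  obtain ⟨m, hm0, hma, hmb, hmc⟩ := h.firstIneq_of_idx hp S hS hgenM hcl hramp hram
    (fun n hn u hu => h.exists_norm_eq_prod hp S hS hcl hram hn u hu)
  exact ⟨m, hm0, hma, fun v hv hL => hmb v ((splitAt_iff_of_not_above hζ hv y).mpr hL), hmc⟩

end Fermat.Agent.S14
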