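import Fermat.Agent.S14.AbIndex

set_option autoImplicit false

/-!
# S14 / [HQ]: Herbrand quotient of a cyclic group of prime order from ranks (additive form)
-/

open Module Polynomial Finset

namespace Fermat.Agent.S14.AbIdx

section HQ

lemma index_eq_relIndex_map {B A : Type*} [AddCommGroup B] [AddCommGroup A] (f : B →+ A)
    (hf : Function.Injective f) (R : AddSubgroup B) :
    R.index = (R.map f).relIndex f.range := by
  rw [AddMonoidHom.range_eq_map, AddSubgroup.relIndex_map_map_of_injective _ _ hf,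
    AddSubgroup.relIndex_top_right]

lemma finrank_int_range_of_finite_ker {M N : Type*} [AddCommGroup M] [AddCommGroup N]
    [Module.Finite ℤ M] (f : M →ₗ[ℤ] N) (h : Finite (LinearMap.ker f)) :
    finrank ℤ (LinearMap.range f) = finrank ℤ M := by
  rw [finrank_int_eq_range_add_ker f, finrank_int_of_finite (LinearMap.ker f), add_zero]

variable {A : Type*} [AddCommGroup A] [Module.Finite ℤ A]

/-- **Herbrand quotient from ranks**: `τ` an automorphism of prime order `p` of the finitely
generated abelian group `A`, `D = τ - 1`, `N = 1 + τ + ... + τ ^ (p - 1)`.  Then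
`[ker D : im N] / [ker N : im D] = p ^ (a - c)` with `a = rank (ker D)`,
`rank A = a + (p - 1) c`. -/
theorem herbrand_of_rank {p : ℕ} (hp : p.Prime) (τ : Module.End ℤ A) (hτ : τ ^ p = 1) :
    ∃ c : ℕ, finrank ℤ A = finrank ℤ (LinearMap.ker (τ - 1)) + (p - 1) * c ∧
      (∑ i ∈ range p, τ ^ i).toAddMonoidHom.range.relIndex (τ - 1).toAddMonoidHom.ker * p ^ c
        = p ^ finrank ℤ (LinearMap.ker (τ - 1)) *
          (τ - 1).toAddMonoidHom.range.relIndex (∑ i ∈ range p, τ ^ i).toAddMonoidHom.ker := by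
  set D : Module.End ℤ A := τ - 1 with hD
  set N : Module.End ℤ A := ∑ i ∈ range p, τ ^ i with hN
  have hND : N * D = 0 := by rw [hN, hD, geom_sum_mul, hτ, sub_self]
  have hDN : D * N = 0 := by rw [hN, hD, mul_geom_sum, hτ, sub_self]
  -- `N = p` on `ker D`
  have hNfix : ∀ x, D x = 0 → N x = p • x := by
    intro x hx
    have hx' : τ x = x := by
      have : τ x - x = 0 := hx
      exact sub_eq_zero.1 this
    have hpow : ∀ i : ℕ, (τ ^ i) x = x := by
      intro i
      induction i with
      | zero => simp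
      | succ n ih => rw [pow_succ, Module.End.mul_apply, hx', ih]
    rw [hN, LinearMap.sum_apply]
    simp [hpow]
  set L : Submodule ℤ A := LinearMap.ker D with hL
  set Kn : Submodule ℤ A := LinearMap.ker N with hKn
  set Dh : A →+ A := D.toAddMonoidHom with hDh
  set Nh : A →+ A := N.toAddMonoidHom with hNh
  have hrN : Nh.range ≤ Dh.ker := by
    rintro _ ⟨x, rfl⟩
    exact congrArg (fun f : Module.End ℤ A => f x) hDN
  have hrD : Dh.range ≤ Nh.ker := by
    rintro _ ⟨x, rfl⟩
    exact congrArg (fun f : Module.End ℤ A => f x) hND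
  -- step (i)
  have hI1 : (Dh.ker ⊔ Nh.ker).index * Nh.range.relIndex Dh.ker
      = (Dh.ker.map Nh).relIndex Dh.ker := by
    have h1 : (Dh.ker.map Nh).relIndex Nh.range = (Dh.ker ⊔ Nh.ker).index := by
      rw [AddMonoidHom.range_eq_map, AddSubgroup.relIndex_map_map, top_sup_eq,
        AddSubgroup.relIndex_top_right]
    rw [← h1]
    exact AddSubgroup.relIndex_mul_relIndex _ _ _ (AddSubgroup.map_le_range _ _) hrN
  have hI2 : (Dh.ker ⊔ Nh.ker).index * Dh.range.relIndex Nh.ker
      = (Nh.ker.map Dh).relIndex Nh.ker := by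
    have h1 : (Nh.ker.map Dh).relIndex Dh.range = (Dh.ker ⊔ Nh.ker).index := by
      rw [AddMonoidHom.range_eq_map, AddSubgroup.relIndex_map_map, top_sup_eq,
        AddSubgroup.relIndex_top_right, sup_comm]
    rw [← h1]
    exact AddSubgroup.relIndex_mul_relIndex _ _ _ (AddSubgroup.map_le_range _ _) hrD
  -- step (iii)
  have hA : (Dh.ker.map Nh).relIndex Dh.ker
      = p ^ finrank ℤ L * Nat.card (nsmulAddMonoidHom p : L →+ L).ker := by
    rw [← index_range_nsmul L hp.ne_zero,
      index_eq_relIndex_map L.subtype.toAddMonoidHom L.injective_subtype]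
    congr 1
    · ext x
      constructor
      · rintro ⟨y, hy, rfl⟩
        exact ⟨p • ⟨y, hy⟩, ⟨⟨y, hy⟩, rfl⟩, (hNfix y hy).symm⟩
      · rintro ⟨_, ⟨y, rfl⟩, rfl⟩
        exact ⟨y, y.2, hNfix y y.2⟩
    · ext x
      constructor
      · intro hx
        exact ⟨⟨x, hx⟩, rfl⟩
      · rintro ⟨y, rfl⟩
        exact y.2
  -- step (iv)
  have hcomm : N * τ = τ * N := by
    rw [hN, Finset.sum_mul, Finset.mul_sum]
    exact sum_congr rfl fun i _ => by rw [← pow_succ, ← pow_succ']
  have hτK : ∀ x ∈ Kn, τ x ∈ Kn := by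
    intro x hx
    have h1 : N (τ x) = τ (N x) := congrArg (fun f : Module.End ℤ A => f x) hcomm
    rw [hKn, LinearMap.mem_ker] at hx ⊢
    rw [h1, hx, map_zero]
  set τC : Module.End ℤ Kn := τ.restrict hτK with hτC
  have hNC : ∑ i ∈ range p, τC ^ i = 0 := by
    ext x
    have h1 : ∀ i : ℕ, (((τC ^ i) x : Kn) : A) = (τ ^ i) x := by
      intro i
      rw [hτC, Module.End.pow_restrict, LinearMap.restrict_apply]
    rw [LinearMap.sum_apply, AddSubmonoidClass.coe_finsetSum]
    simp only [h1]
    have h2 : N (x : A) = 0 := x.2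
    rw [hN, LinearMap.sum_apply] at h2
    simpa using h2
  obtain ⟨c, hc1, hc2⟩ := index_range_sub_one hp τC hNC
  have hCval : ∀ y : Kn, (((τC - 1) y : Kn) : A) = D y := by
    intro y
    rfl
  have hC : (Nh.ker.map Dh).relIndex Nh.ker = p ^ c * Nat.card (τC - 1).toAddMonoidHom.ker := by
    rw [← hc2, index_eq_relIndex_map Kn.subtype.toAddMonoidHom Kn.injective_subtype]
    congr 1
    · ext x
      constructor
      · rintro ⟨y, hy, rfl⟩
        exact ⟨(τC - 1) ⟨y, hy⟩, ⟨⟨y, hy⟩, rfl⟩, hCval _⟩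
      · rintro ⟨_, ⟨y, rfl⟩, rfl⟩
        exact ⟨y, y.2, (hCval y).symm⟩
    · ext x
      constructor
      · intro hx
        exact ⟨⟨x, hx⟩, rfl⟩
      · rintro ⟨y, rfl⟩
        exact y.2
  have ht : Nat.card (τC - 1).toAddMonoidHom.ker
      = Nat.card (nsmulAddMonoidHom p : L →+ L).ker := by
    refine Nat.card_congr ⟨fun x => ⟨⟨x.1.1, ?_⟩, ?_⟩, fun x => ⟨⟨x.1.1, ?_⟩, ?_⟩,
      fun x => rfl, fun x => rfl⟩
    · have := x.2
      have h2 : (((τC - 1) x.1 : Kn) : A) = 0 := by
        rw [show (τC - 1) x.1 = 0 from this]; rfl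
      rw [hCval] at h2
      exact h2
    · have h2 : N (x.1 : A) = 0 := x.1.2
      have h3 : D (x.1 : A) = 0 := by
        have h4 : (((τC - 1) x.1 : Kn) : A) = 0 := by
          rw [show (τC - 1) x.1 = 0 from x.2]; rfl
        rw [hCval] at h4
        exact h4
      rw [hNfix _ h3] at h2
      exact Subtype.ext h2
    · have h2 : p • x.1 = 0 := x.2
      have h3 : p • (x.1 : A) = 0 := congrArg Subtype.val h2
      rw [← hNfix _ x.1.2] at h3
      exact h3
    · apply Subtype.ext
      exact (hCval _).trans x.1.2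
  -- ranks
  have hrank : finrank ℤ A = finrank ℤ L + finrank ℤ Kn := by
    rw [finrank_int_eq_range_add_ker N]
    congr 1
    apply le_antisymm
    · apply Submodule.finrank_mono
      rintro _ ⟨x, rfl⟩
      exact congrArg (fun f : Module.End ℤ A => f x) hDN
    · have hfin : Finite (LinearMap.ker (N ∘ₗ L.subtype)) := by
        have := finite_ker_nsmul (C := L) hp.ne_zero
        refine Finite.of_injective (β := (nsmulAddMonoidHom p : L →+ L).ker)
          (fun x => ⟨x.1, ?_⟩) ?_
        · have h2 : N (x.1 : A) = 0 := x.2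
          rw [hNfix _ x.1.2] at h2
          exact Subtype.ext h2
        · intro x y hxy
          exact Subtype.ext (congrArg (fun z => z.1) hxy)
      rw [← finrank_int_range_of_finite_ker _ hfin]
      apply Submodule.finrank_mono
      rintro _ ⟨x, rfl⟩
      exact ⟨x, rfl⟩
  -- finiteness
  have hNN : N * N = p • N := by
    have h1 : ∀ i : ℕ, τ ^ i * N = N := by
      intro i
      induction i with
      | zero => simp
      | succ n ih =>
        have h2 : τ * N = N := by
          have : (τ - 1) * N = 0 := hDN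
          rw [sub_mul, one_mul, sub_eq_zero] at this
          exact this
        rw [pow_succ, mul_assoc, h2, ih]
    conv_lhs => rw [hN, Finset.sum_mul]
    rw [← hN]
    simp [h1]
  have hI0 : (Dh.ker ⊔ Nh.ker).index ≠ 0 := by
    have hle : (nsmulAddMonoidHom p : A →+ A).range ≤ Dh.ker ⊔ Nh.ker := by
      rintro _ ⟨x, rfl⟩
      have e : (nsmulAddMonoidHom p : A →+ A) x = N x + (p • x - N x) := by simp
      rw [e]
      refine AddSubgroup.add_mem_sup (hrN ⟨x, rfl⟩) ?_
      change N (p • x - N x) = 0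
      have h2 : N (N x) = p • N x := congrArg (fun f : Module.End ℤ A => f x) hNN
      rw [map_sub, map_nsmul, h2, sub_self]
    have h0 : (nsmulAddMonoidHom p : A →+ A).range.index ≠ 0 := by
      rw [index_range_nsmul A hp.ne_zero]
      have := finite_ker_nsmul (C := A) hp.ne_zero
      exact mul_ne_zero (pow_ne_zero _ hp.ne_zero) Nat.card_pos.ne'
    exact ne_zero_of_dvd_ne_zero h0 (AddSubgroup.index_dvd_of_le hle)
  have ht0 : Nat.card (nsmulAddMonoidHom p : L →+ L).ker ≠ 0 := by
    have := finite_ker_nsmul (C := L) hp.ne_zero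
    exact Nat.card_pos.ne'
  refine ⟨c, by rw [hrank, hc1], ?_⟩
  rw [hA] at hI1
  rw [hC, ht] at hI2
  apply Nat.eq_of_mul_eq_mul_left (Nat.pos_of_ne_zero (mul_ne_zero hI0 ht0))
  calc _ = ((Dh.ker ⊔ Nh.ker).index * Nh.range.relIndex Dh.ker)
          * (p ^ c * Nat.card (nsmulAddMonoidHom p : L →+ L).ker) := by ring
    _ = (p ^ finrank ℤ L * Nat.card (nsmulAddMonoidHom p : L →+ L).ker)
          * ((Dh.ker ⊔ Nh.ker).index * Dh.range.relIndex Nh.ker) := by rw [hI1, hI2]
    _ = _ := by ring

end HQ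

end Fermat.Agent.S14.AbIdx
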