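import Fermat.Agent.S14.Defs

set_option autoImplicit false
set_option linter.style.haveILetI false

/-!
# S14 / JAC: Stickelberger's theorem for Jacobi sums at primes of degree one

`K = ℚ(ζ_p)`, `𝔮` a prime of degree one of `𝓞 K` (not above `p`), `χ` the `p`-th power residue
character at `𝔮`.  Then `(J(χ,χ)) = ∏_{1 ≤ c < p/2} σ_c⁻¹ 𝔮`.
-/

namespace Fermat.Agent.S14.Jac

open Ideal Finset NumberField IsDedekindDomain

section abstract

variable {R : Type*} [CommRing R] [IsDomain R] (𝔮 : Ideal R) [h𝔮 : 𝔮.IsMaximal]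
  {p : ℕ} [hp : Fact p.Prime] {ζ : R}

omit h𝔮 in
/-- `p = ∑ (1 - ζ^i)` is divisible by `1 - ζ`. -/
lemma natCast_mem_of_one_sub_mem (hζ : IsPrimitiveRoot ζ p) (h : 1 - ζ ∈ 𝔮) : (p : R) ∈ 𝔮 := by
  have hsum : ∑ i ∈ range p, ζ ^ i = 0 := hζ.geom_sum_eq_zero hp.out.one_lt
  have : (p : R) = ∑ i ∈ range p, (1 - ζ ^ i) := by
    rw [Finset.sum_sub_distrib, hsum]; simp
  rw [this]
  refine 𝔮.sum_mem fun i _ => ?_
  obtain ⟨c, hc⟩ := sub_dvd_pow_sub_pow (1 : R) ζ i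
  rw [one_pow] at hc
  rw [hc]
  exact 𝔮.mul_mem_right _ h

omit h𝔮 in
lemma isPrimitiveRoot_mk (hζ : IsPrimitiveRoot ζ p) (hpq : (p : R) ∉ 𝔮) :
    IsPrimitiveRoot (Ideal.Quotient.mk 𝔮 ζ) p := by
  have h1 : (Ideal.Quotient.mk 𝔮 ζ) ^ p = 1 := by rw [← map_pow, hζ.pow_eq_one, map_one]
  have h2 : Ideal.Quotient.mk 𝔮 ζ ≠ 1 := by
    intro h
    apply hpq
    apply natCast_mem_of_one_sub_mem 𝔮 hζ
    rw [← Ideal.Quotient.eq_zero_iff_mem, map_sub, map_one, h, sub_self]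
  have := orderOf_eq_prime h1 h2
  rw [← this]
  exact IsPrimitiveRoot.orderOf _

variable [Fintype (R ⧸ 𝔮)]

lemma dvd_card_sub_one (hζ : IsPrimitiveRoot ζ p) (hpq : (p : R) ∉ 𝔮) :
    p ∣ Fintype.card (R ⧸ 𝔮) - 1 := by
  letI := Ideal.Quotient.field 𝔮
  have h := isPrimitiveRoot_mk 𝔮 hζ hpq
  exact h.dvd_of_pow_eq_one _ (FiniteField.pow_card_sub_one_eq_one _ (h.ne_zero hp.out.ne_zero))

/-- The `p`-th power residue character at `𝔮` (any maximal ideal with finite residue field not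
containing `p`, in a domain containing a primitive `p`-th root of unity). -/
theorem exists_residueChar (hζ : IsPrimitiveRoot ζ p) (hpq : (p : R) ∉ 𝔮) :
    ∃ χ : MulChar (R ⧸ 𝔮) R,
      (∀ x, Ideal.Quotient.mk 𝔮 (χ x) = x ^ ((Fintype.card (R ⧸ 𝔮) - 1) / p)) ∧
      orderOf χ = p := by
  classical
  letI := Ideal.Quotient.field 𝔮
  set N := Fintype.card (R ⧸ 𝔮) with hN
  set m := (N - 1) / p with hm
  have hζ' := isPrimitiveRoot_mk 𝔮 hζ hpq
  have hdvd : p ∣ N - 1 := dvd_card_sub_one 𝔮 hζ hpq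
  have hpm : p * m = N - 1 := Nat.mul_div_cancel' hdvd
  have hN1 : 0 < N - 1 := by
    have : 1 < N := Fintype.one_lt_card
    omega
  have hm0 : 0 < m := by
    rcases Nat.eq_zero_or_pos m with h | h
    · rw [h, mul_zero] at hpm; omega
    · exact h
  have hmlt : m < N - 1 := by
    rw [← hpm]
    have := hp.out.two_le
    nlinarith
  obtain ⟨g, hg⟩ := IsCyclic.exists_generator (α := (R ⧸ 𝔮)ˣ)
  have hcard : Fintype.card (R ⧸ 𝔮)ˣ = N - 1 := by rw [Fintype.card_units]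
  have hgm : (((g : R ⧸ 𝔮)) ^ m) ^ p = 1 := by
    rw [← pow_mul, mul_comm, hpm]
    exact FiniteField.pow_card_sub_one_eq_one _ g.ne_zero
  obtain ⟨i, -, hi⟩ := hζ'.eq_pow_of_pow_eq_one hgm
  let ζu : Rˣ := (hζ.isUnit hp.out.ne_zero).unit
  have hζu : (ζu : R) = ζ := rfl
  have hη : ζu ^ i ∈ rootsOfUnity (Fintype.card (R ⧸ 𝔮)ˣ) R := by
    rw [mem_rootsOfUnity, hcard, ← hpm]
    ext
    push_cast
    rw [hζu, ← pow_mul, mul_comm i, mul_assoc, pow_mul, hζ.pow_eq_one, one_pow]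
  let χ : MulChar (R ⧸ 𝔮) R := MulChar.ofRootOfUnity hη hg
  have hχg : χ g = ζ ^ i := by
    have := MulChar.ofRootOfUnity_spec hη hg
    simpa [χ, hζu] using this
  have hunit : ∀ u : (R ⧸ 𝔮)ˣ, ∃ n : ℕ, u = g ^ n ∧ χ u = ζ ^ (i * n) := by
    intro u
    obtain ⟨n, hn⟩ := (mem_powers_iff_mem_zpowers.mpr (hg u))
    refine ⟨n, hn.symm, ?_⟩
    rw [← hn]
    push_cast
    rw [map_pow, hχg, pow_mul]
  refine ⟨χ, ?_, ?_⟩
  · intro x
    by_cases hx : x = 0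
    · subst hx
      rw [MulChar.map_zero, map_zero, zero_pow hm0.ne']
    · obtain ⟨n, hn, hχ⟩ := hunit (Units.mk0 x hx)
      have hx' : x = (g : R ⧸ 𝔮) ^ n := by
        have := congrArg (fun u : (R ⧸ 𝔮)ˣ => (u : R ⧸ 𝔮)) hn
        simpa using this
      rw [Units.val_mk0] at hχ
      rw [hχ, map_pow, pow_mul, hi, hx', ← pow_mul, ← pow_mul, mul_comm]
  · apply orderOf_eq_prime
    · rw [MulChar.eq_one_iff]
      intro u
      obtain ⟨n, -, hχ⟩ := hunit u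
      rw [MulChar.pow_apply_coe, hχ, ← pow_mul, mul_comm, pow_mul, hζ.pow_eq_one, one_pow]
    · intro h1
      have h2 : ((g : R ⧸ 𝔮)) ^ m = 1 := by
        rw [← hi, ← map_pow, ← hχg, h1, MulChar.one_apply_coe, map_one]
      have h3 : g ^ m = 1 := by
        ext; push_cast; exact h2
      have h4 : orderOf g = N - 1 := by
        rw [orderOf_eq_card_of_forall_mem_zpowers hg, Nat.card_eq_fintype_card, hcard]
      have h5 := orderOf_dvd_of_pow_eq_one h3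
      rw [h4] at h5
      exact absurd (Nat.le_of_dvd hm0 h5) (not_le.mpr hmlt)

omit [Fintype (R ⧸ 𝔮)] in
/-- A ring endomorphism raising `ζ` to the `c`-th power raises a character of order `p`
to the `c`-th power. -/
lemma ringHomComp_eq_pow [Finite (R ⧸ 𝔮)] (hζ : IsPrimitiveRoot ζ p) {χ : MulChar (R ⧸ 𝔮) R}
    (hχ : χ ^ p = 1) (σ : R →+* R) {c : ℕ} (hσ : σ ζ = ζ ^ c) : χ.ringHomComp σ = χ ^ c := by
  letI := Ideal.Quotient.field 𝔮
  haveI : NeZero p := ⟨hp.out.ne_zero⟩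
  ext u
  obtain ⟨k, -, hk⟩ := MulChar.exists_apply_eq_pow hχ hζ u.ne_zero
  rw [MulChar.ringHomComp_apply, MulChar.pow_apply_coe, hk, map_pow, hσ, ← pow_mul, ← pow_mul,
    mul_comm]

/-- `∑ x, x^a (1-x)^b = 0` in a finite field with more than `a + b + 1` elements. -/
lemma sum_pow_mul_one_sub_pow {F : Type*} [Field F] [Fintype F] (a b : ℕ)
    (h : a + b < Fintype.card F - 1) : ∑ x : F, x ^ a * (1 - x) ^ b = 0 := by
  have : ∀ x : F, x ^ a * (1 - x) ^ b =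
      ∑ k ∈ range (b + 1), ((-1) ^ k * (b.choose k : F)) * x ^ (a + k) := by
    intro x
    rw [sub_eq_add_neg, add_comm, add_pow, Finset.mul_sum]
    refine Finset.sum_congr rfl fun k _ => ?_
    rw [one_pow, mul_one, neg_pow, pow_add]
    ring
  simp_rw [this]
  rw [Finset.sum_comm]
  refine Finset.sum_eq_zero fun k hk => ?_
  rw [← Finset.mul_sum, FiniteField.sum_pow_lt_card_sub_one, mul_zero]
  have := Finset.mem_range.mp hk
  omega

/-- The key congruence: `J(χ^c, χ^c) ∈ 𝔮` for `1 ≤ c < p/2`. -/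
lemma jacobiSum_pow_mem (hζ : IsPrimitiveRoot ζ p) (hpq : (p : R) ∉ 𝔮)
    {χ : MulChar (R ⧸ 𝔮) R}
    (hχ : ∀ x, Ideal.Quotient.mk 𝔮 (χ x) = x ^ ((Fintype.card (R ⧸ 𝔮) - 1) / p))
    {c : ℕ} (hc : 1 ≤ c) (hc2 : 2 * c < p) : jacobiSum (χ ^ c) (χ ^ c) ∈ 𝔮 := by
  letI := Ideal.Quotient.field 𝔮
  set N := Fintype.card (R ⧸ 𝔮) with hN
  set m := (N - 1) / p with hm
  have hpm : p * m = N - 1 := Nat.mul_div_cancel' (dvd_card_sub_one 𝔮 hζ hpq)
  have hN1 : 0 < N - 1 := by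
    have : 1 < N := Fintype.one_lt_card
    omega
  have hm0 : 0 < m := by
    rcases Nat.eq_zero_or_pos m with h | h
    · rw [h, mul_zero] at hpm; omega
    · exact h
  rw [← Ideal.Quotient.eq_zero_iff_mem, jacobiSum, map_sum]
  have : ∀ x : R ⧸ 𝔮, Ideal.Quotient.mk 𝔮 ((χ ^ c) x * (χ ^ c) (1 - x)) =
      x ^ (m * c) * (1 - x) ^ (m * c) := by
    intro x
    rw [map_mul, MulChar.pow_apply' _ (by omega), MulChar.pow_apply' _ (by omega), map_pow,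
      map_pow, hχ, hχ, ← pow_mul, ← pow_mul]
  simp_rw [this]
  apply sum_pow_mul_one_sub_pow
  rw [← hN, ← hpm]
  nlinarith

omit [IsDomain R] h𝔮 in
/-- In a residue ring of prime cardinality every class is the class of a natural number. -/
lemma exists_natCast_eq_of_card_prime {r : ℕ} (hr : r.Prime) (hcard : Fintype.card (R ⧸ 𝔮) = r)
    (x : R ⧸ 𝔮) : ∃ a : ℕ, x = (a : R ⧸ 𝔮) := by
  let e := ZMod.ringEquivOfPrime (R ⧸ 𝔮) hr hcard
  haveI : NeZero r := ⟨hr.ne_zero⟩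
  refine ⟨(e.symm x).val, ?_⟩
  have : e ((e.symm x).val : ZMod r) = ((e.symm x).val : R ⧸ 𝔮) := map_natCast e _
  rw [← this, ZMod.natCast_zmod_val, RingEquiv.apply_symm_apply]

omit h𝔮 in
/-- The conjugates `σ_c⁻¹ 𝔮` of a degree one prime are pairwise distinct. -/
lemma comap_ne_comap (hζ : IsPrimitiveRoot ζ p) (hpq : (p : R) ∉ 𝔮)
    {r : ℕ} (hr : r.Prime) (hcard : Fintype.card (R ⧸ 𝔮) = r)
    (σ σ' : R →+* R) {c c' : ℕ} (hσ : σ ζ = ζ ^ c) (hσ' : σ' ζ = ζ ^ c') (hc : c < p) (hc' : c' < p)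
    (hne : c ≠ c') : Ideal.comap σ 𝔮 ≠ Ideal.comap σ' 𝔮 := by
  intro h
  obtain ⟨a, ha⟩ := exists_natCast_eq_of_card_prime 𝔮 hr hcard (Ideal.Quotient.mk 𝔮 (ζ ^ c))
  have h1 : ζ - a ∈ Ideal.comap σ 𝔮 := by
    rw [Ideal.mem_comap, map_sub, hσ, map_natCast, ← Ideal.Quotient.eq_zero_iff_mem, map_sub, ha,
      map_natCast, sub_self]
  rw [h, Ideal.mem_comap, map_sub, hσ', map_natCast, ← Ideal.Quotient.eq_zero_iff_mem, map_sub,
    map_natCast, ← ha, sub_eq_zero, map_pow, map_pow] at h1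
  exact hne ((isPrimitiveRoot_mk 𝔮 hζ hpq).pow_inj hc' hc h1).symm

end abstract

section numberField

variable {p : ℕ} [hp : Fact p.Prime] {K : Type*} [Field K] [NumberField K]
  (𝔮 : Ideal (𝓞 K)) [h𝔮 : 𝔮.IsMaximal] {ζ : 𝓞 K}

omit h𝔮 in
lemma absNorm_comap_ringEquiv (σ : 𝓞 K ≃+* 𝓞 K) : absNorm (comap σ 𝔮) = absNorm 𝔮 := by
  rw [absNorm_apply, absNorm_apply, Submodule.cardQuot_apply, Submodule.cardQuot_apply]
  refine Nat.card_congr (Ideal.quotientEquiv (comap σ 𝔮) 𝔮 σ ?_).toEquiv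
  exact (Ideal.map_comap_of_surjective (σ : 𝓞 K →+* 𝓞 K) σ.surjective 𝔮).symm

variable [Fintype (𝓞 K ⧸ 𝔮)]

lemma jacobiSum_mul_jacobiSum_inv_int {χ : MulChar (𝓞 K ⧸ 𝔮) (𝓞 K)} (hχ : χ ≠ 1)
    (hχ2 : χ * χ ≠ 1) :
    jacobiSum χ χ * jacobiSum χ⁻¹ χ⁻¹ = (Fintype.card (𝓞 K ⧸ 𝔮) : 𝓞 K) := by
  letI := Ideal.Quotient.field 𝔮
  have hinj : Function.Injective (algebraMap (𝓞 K) K) := RingOfIntegers.coe_injective
  apply hinj
  rw [map_mul, ← jacobiSum_ringHomComp, ← jacobiSum_ringHomComp, map_natCast,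
    ← MulChar.ringHomComp_inv]
  apply jacobiSum_mul_jacobiSum_inv
  · rw [ringChar.eq K 0]
    exact (CharP.ringChar_ne_zero_of_finite (𝓞 K ⧸ 𝔮)).symm
  · exact (MulChar.ringHomComp_ne_one_iff hinj).mpr hχ
  · exact (MulChar.ringHomComp_ne_one_iff hinj).mpr hχ
  · rw [← MulChar.ringHomComp_mul]
    exact (MulChar.ringHomComp_ne_one_iff hinj).mpr hχ2

variable [IsCyclotomicExtension {p} ℚ K]

/-- **Stickelberger for Jacobi sums at a prime of degree one.** -/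
theorem span_jacobiSum_eq_prod (hp2 : p ≠ 2) (hζ : IsPrimitiveRoot ζ p) {r : ℕ} (hr : r.Prime)
    (hcard : Fintype.card (𝓞 K ⧸ 𝔮) = r) (hpq : (p : 𝓞 K) ∉ 𝔮)
    {χ : MulChar (𝓞 K ⧸ 𝔮) (𝓞 K)}
    (hχ : ∀ x, Ideal.Quotient.mk 𝔮 (χ x) = x ^ ((Fintype.card (𝓞 K ⧸ 𝔮) - 1) / p))
    (hχp : orderOf χ = p)
    (σ : ℕ → 𝓞 K ≃+* 𝓞 K) (hσ : ∀ c, 1 ≤ c → c < p → σ c ζ = ζ ^ c) :
    Ideal.span {jacobiSum χ χ} = ∏ c ∈ Finset.Icc 1 ((p - 1) / 2), Ideal.comap (σ c) 𝔮 := by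
  classical
  obtain ⟨h, hh⟩ : ∃ h, p = 2 * h + 1 := by
    rcases hp.out.eq_two_or_odd' with h2 | ⟨h, hh⟩
    · exact absurd h2 hp2
    · exact ⟨h, hh⟩
  have hh2 : (p - 1) / 2 = h := by omega
  rw [hh2]
  have hχpow : χ ^ p = 1 := by rw [← hχp]; exact pow_orderOf_eq_one χ
  have hχ1 : χ ≠ 1 := by
    intro h1
    rw [h1, orderOf_one] at hχp
    exact hp.out.one_lt.ne hχp
  have hχ2 : χ * χ ≠ 1 := by
    intro h1
    rw [← pow_two] at h1
    have := orderOf_dvd_of_pow_eq_one h1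
    rw [hχp] at this
    have := Nat.le_of_dvd (by norm_num) this
    have := hp.out.two_le
    omega
  have hJJ := jacobiSum_mul_jacobiSum_inv_int 𝔮 hχ1 hχ2
  rw [hcard] at hJJ
  set J := jacobiSum χ χ with hJ
  set J' := jacobiSum χ⁻¹ χ⁻¹ with hJ'
  have hcomp : ∀ c, 1 ≤ c → c < p → χ.ringHomComp (σ c : 𝓞 K →+* 𝓞 K) = χ ^ c :=
    fun c h1 h2 => ringHomComp_eq_pow 𝔮 hζ hχpow _ (hσ c h1 h2)
  have hmem : ∀ c ∈ Icc 1 h, J ∈ comap (σ c) 𝔮 := by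
    intro c hc
    rw [Finset.mem_Icc] at hc
    have : (σ c) J = jacobiSum (χ ^ c) (χ ^ c) := by
      rw [← hcomp c hc.1 (by omega), jacobiSum_ringHomComp]; rfl
    rw [Ideal.mem_comap, this]
    exact jacobiSum_pow_mem 𝔮 hζ hpq hχ hc.1 (by omega)
  have hmem' : ∀ c ∈ Icc (h + 1) (2 * h), J' ∈ comap (σ c) 𝔮 := by
    intro c hc
    rw [Finset.mem_Icc] at hc
    have h1 : (χ⁻¹).ringHomComp (σ c : 𝓞 K →+* 𝓞 K) = χ ^ (p - c) := by
      letI := Ideal.Quotient.field 𝔮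
      rw [← MulChar.ringHomComp_inv, hcomp c (by omega) (by omega), inv_eq_iff_mul_eq_one,
        ← pow_add]
      rw [show c + (p - c) = p by omega, hχpow]
    have : (σ c) J' = jacobiSum (χ ^ (p - c)) (χ ^ (p - c)) := by
      rw [← h1, jacobiSum_ringHomComp]; rfl
    rw [Ideal.mem_comap, this]
    exact jacobiSum_pow_mem 𝔮 hζ hpq hχ (by omega) (by omega)
  have hcop : ∀ s : Finset ℕ, (∀ c ∈ s, 1 ≤ c ∧ c < p) →
      (s : Set ℕ).Pairwise (Function.onFun IsCoprime fun c => comap (σ c) 𝔮) := by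
    intro s hs c hc c' hc' hne
    rw [Function.onFun, Ideal.isCoprime_iff_sup_eq]
    refine IsMaximal.coprime_of_ne inferInstance inferInstance ?_
    exact comap_ne_comap 𝔮 hζ hpq hr hcard (σ c : 𝓞 K →+* 𝓞 K) (σ c' : 𝓞 K →+* 𝓞 K)
      (hσ c (hs c hc).1 (hs c hc).2) (hσ c' (hs c' hc').1 (hs c' hc').2)
      (hs c hc).2 (hs c' hc').2 hne
  have hdvd : ∏ c ∈ Icc 1 h, comap (σ c) 𝔮 ∣ span {J} :=
    Finset.prod_dvd_of_coprime (hcop _ fun c hc => by rw [Finset.mem_Icc] at hc; omega)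
      fun c hc => Ideal.dvd_span_singleton.mpr (hmem c hc)
  have hdvd' : ∏ c ∈ Icc (h + 1) (2 * h), comap (σ c) 𝔮 ∣ span {J'} :=
    Finset.prod_dvd_of_coprime (hcop _ fun c hc => by rw [Finset.mem_Icc] at hc; omega)
      fun c hc => Ideal.dvd_span_singleton.mpr (hmem' c hc)
  obtain ⟨𝔟, h𝔟⟩ := hdvd
  obtain ⟨𝔟', h𝔟'⟩ := hdvd'
  have hN𝔮 : absNorm 𝔮 = r := by
    rw [absNorm_apply, Submodule.cardQuot_apply, Nat.card_eq_fintype_card, hcard]
  have hNprod : ∀ s : Finset ℕ, absNorm (∏ c ∈ s, comap (σ c) 𝔮) = r ^ s.card := by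
    intro s
    rw [map_prod, Finset.prod_congr rfl fun c _ => (absNorm_comap_ringEquiv 𝔮 (σ c)).trans hN𝔮,
      Finset.prod_const]
  have hrank : Module.finrank ℤ (𝓞 K) = 2 * h := by
    rw [RingOfIntegers.rank, IsCyclotomicExtension.finrank (n := p) K
      (Polynomial.cyclotomic.irreducible_rat hp.out.pos), Nat.totient_prime hp.out]
    omega
  have hN : absNorm (span {J}) * absNorm (span {J'}) = r ^ (2 * h) := by
    rw [← map_mul, Ideal.span_singleton_mul_span_singleton, hJJ, absNorm_span_natCast, hrank]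
  rw [h𝔟, h𝔟', map_mul, map_mul, hNprod, hNprod, Nat.card_Icc, Nat.card_Icc] at hN
  have hr0 : 0 < r ^ h := pow_pos hr.pos _
  have h1 : absNorm 𝔟 * absNorm 𝔟' = 1 := by
    have e1 : h + 1 - 1 = h := by omega
    have e2 : 2 * h + 1 - (h + 1) = h := by omega
    rw [e1, e2] at hN
    have : (r ^ h * r ^ h) * (absNorm 𝔟 * absNorm 𝔟') = (r ^ h * r ^ h) * 1 := by
      rw [mul_one, ← pow_add, ← two_mul]
      calc (r ^ (2 * h)) * (absNorm 𝔟 * absNorm 𝔟')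
          = (r ^ h * r ^ h) * (absNorm 𝔟 * absNorm 𝔟') := by rw [two_mul, pow_add]
        _ = r ^ h * absNorm 𝔟 * (r ^ h * absNorm 𝔟') := by ring
        _ = r ^ (2 * h) := hN
    exact Nat.eq_of_mul_eq_mul_left (Nat.mul_pos hr0 hr0) this
  have h2 : 𝔟 = ⊤ := absNorm_eq_one_iff.mp (Nat.eq_one_of_mul_eq_one_right h1)
  rw [h𝔟, h2, Ideal.mul_top]

end numberField

end Fermat.Agent.S14.Jac
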