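import Fermat.Agent.S14.Basic
import Fermat.Agent.S14.JacobiCore

set_option autoImplicit false
set_option linter.style.haveILetI false

/-!
# S14 / JAC: Stickelberger for Jacobi sums at degree one primes
-/

namespace Fermat.Agent.S14

open IsDedekindDomain NumberField

namespace Jac

open Ideal Finset

section general

variable {K : Type*} [Field K] [NumberField K]

lemma le_ord_iff_dvd (w : Pl K) {a : 𝓞 K} (ha : a ≠ 0) (n : ℕ) :
    (n : ℤ) ≤ ord w (a : K) ↔ w.asIdeal ^ n ∣ span {a} := by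
  rw [← HeightOneSpectrum.intValuation_le_pow_iff_dvd, ord,
    show ((a : 𝓞 K) : K) = algebraMap (𝓞 K) K a from rfl,
    HeightOneSpectrum.valuation_of_algebraMap, le_neg,
    WithZero.log_le_iff_le_exp (w.intValuation_ne_zero a ha)]

/-- `ord` of an integer whose ideal is a product of pairwise distinct primes. -/
lemma ord_of_span_eq_prod {ι : Type*} [DecidableEq ι] (w : Pl K) {a : 𝓞 K} (s : Finset ι)
    (P : ι → Ideal (𝓞 K)) (hP : ∀ i ∈ s, (P i).IsMaximal)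
    (hinj : ∀ i ∈ s, ∀ j ∈ s, P i = P j → i = j) (ha0 : a ≠ 0) (ha : span {a} = ∏ i ∈ s, P i) :
    ((∃ i ∈ s, P i = w.asIdeal) → ord w (a : K) = 1) ∧
    ((¬ ∃ i ∈ s, P i = w.asIdeal) → ord w (a : K) = 0) := by
  have hwprime : Prime w.asIdeal := w.prime
  have hdvd : ∀ t : Finset ι, t ⊆ s → w.asIdeal ∣ ∏ i ∈ t, P i → ∃ i ∈ t, P i = w.asIdeal := by
    intro t ht h
    obtain ⟨i, hi, hi'⟩ := (Prime.dvd_finsetProd_iff hwprime _).mp h
    refine ⟨i, hi, ?_⟩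
    exact (hP i (ht hi)).eq_of_le w.isPrime.ne_top (Ideal.le_of_dvd hi')
  have h0 : (0 : ℤ) ≤ ord w (a : K) := by
    have := (le_ord_iff_dvd w ha0 0).mpr (by simp)
    simpa using this
  constructor
  · rintro ⟨i, hi, hiw⟩
    have h1 : (1 : ℤ) ≤ ord w (a : K) := by
      have := (le_ord_iff_dvd w ha0 1).mpr (by
        rw [pow_one, ha, ← hiw]; exact Finset.dvd_prod_of_mem _ hi)
      simpa using this
    have h2 : ¬ (2 : ℤ) ≤ ord w (a : K) := by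
      intro h
      have := (le_ord_iff_dvd w ha0 2).mp (by simpa using h)
      rw [ha, ← Finset.mul_prod_erase s P hi, hiw, pow_two] at this
      have h3 := (mul_dvd_mul_iff_left hwprime.ne_zero).mp this
      obtain ⟨j, hj, hjw⟩ := hdvd (s.erase i) (Finset.erase_subset _ _) h3
      have := hinj j (Finset.mem_of_mem_erase hj) i hi (hjw.trans hiw.symm)
      exact (Finset.ne_of_mem_erase hj) this
    omega
  · intro hne
    have h1 : ¬ (1 : ℤ) ≤ ord w (a : K) := by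
      intro h
      have := (le_ord_iff_dvd w ha0 1).mp (by simpa using h)
      rw [pow_one, ha] at this
      exact hne (hdvd s (Finset.Subset.refl _) this)
    omega

/-- The ring automorphism of `𝓞 K` induced by `σ`. -/
noncomputable abbrev intEquiv (σ : K ≃ₐ[ℚ] K) : 𝓞 K ≃+* 𝓞 K :=
  RingOfIntegers.mapRingEquiv (σ : K ≃+* K)

lemma sigmaPl_inv_asIdeal_comap (σ : K ≃ₐ[ℚ] K) (v : Pl K) :
    (sigmaPl σ⁻¹ v).asIdeal = comap (intEquiv σ) v.asIdeal := by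
  ext x
  rfl

lemma sigmaPl_asIdeal_comap (σ : K ≃ₐ[ℚ] K) (v : Pl K) :
    (sigmaPl σ v).asIdeal = comap (intEquiv σ⁻¹) v.asIdeal := by
  ext x
  rfl

end general

variable {p : ℕ} [hp : Fact p.Prime] {K : Type*} [Field K] [NumberField K]

lemma exists_pow_eq_apply {ζ : K} (hζ : IsPrimitiveRoot ζ p) (σ : K ≃ₐ[ℚ] K) :
    ∃ a : ℕ, 1 ≤ a ∧ a < p ∧ σ ζ = ζ ^ a := by
  haveI : NeZero p := ⟨hp.out.ne_zero⟩
  have h1 : (σ ζ) ^ p = 1 := by rw [← map_pow, hζ.pow_eq_one, map_one]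
  obtain ⟨a, ha, hh⟩ := hζ.eq_pow_of_pow_eq_one h1
  refine ⟨a, ?_, ha, hh.symm⟩
  rcases Nat.eq_zero_or_pos a with h0 | h0
  · exfalso
    rw [h0, pow_zero] at hh
    have : σ ζ = σ 1 := by rw [map_one, hh]
    have := σ.injective this
    exact hζ.ne_one hp.out.one_lt this
  · exact h0

lemma natCast_notMem_of_absNorm (v : Pl K) {q : ℕ} (hq : q.Prime) (hqp : q ≠ p)
    (hv : Ideal.absNorm v.asIdeal = q) : (p : 𝓞 K) ∉ v.asIdeal := by
  intro h
  have hqmem : (q : 𝓞 K) ∈ v.asIdeal := hv ▸ Ideal.absNorm_mem v.asIdeal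
  have hcop : Nat.Coprime p q := (Nat.coprime_primes hp.out hq).mpr (Ne.symm hqp)
  have h1 : (1 : 𝓞 K) ∈ v.asIdeal := by
    have hb := Nat.isCoprime_iff_coprime.mpr hcop
    obtain ⟨a, b, hab⟩ := hb
    have : ((a * p + b * q : ℤ) : 𝓞 K) = 1 := by rw [hab]; simp
    rw [← this]
    push_cast
    exact v.asIdeal.add_mem (v.asIdeal.mul_mem_left _ h) (v.asIdeal.mul_mem_left _ hqmem)
  exact v.isPrime.ne_top ((Ideal.eq_top_iff_one _).mpr h1)

variable [IsCyclotomicExtension {p} ℚ K]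

/-- Existence of `σ_c`. -/
lemma exists_algEquiv_pow {ζ : K} (hζ : IsPrimitiveRoot ζ p) {c : ℕ} (hc : 1 ≤ c) (hcp : c < p) :
    ∃ σ : K ≃ₐ[ℚ] K, σ ζ = ζ ^ c := by
  have hcop : c.Coprime p :=
    ((Nat.Prime.coprime_iff_not_dvd hp.out).mpr (Nat.not_dvd_of_pos_of_lt hc hcp)).symm
  have hζc : IsPrimitiveRoot (ζ ^ c) p := hζ.pow_of_coprime c hcop
  have hirr : Irreducible (Polynomial.cyclotomic p ℚ) :=
    Polynomial.cyclotomic.irreducible_rat hp.out.pos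
  haveI : NeZero p := ⟨hp.out.ne_zero⟩
  have hmin : minpoly ℚ (hζ.powerBasis ℚ).gen = minpoly ℚ (hζc.powerBasis ℚ).gen := by
    rw [IsPrimitiveRoot.powerBasis_gen, IsPrimitiveRoot.powerBasis_gen,
      ← hζ.minpoly_eq_cyclotomic_of_irreducible hirr,
      ← hζc.minpoly_eq_cyclotomic_of_irreducible hirr]
  refine ⟨(hζ.powerBasis ℚ).equivOfMinpoly (hζc.powerBasis ℚ) hmin, ?_⟩
  have := (hζ.powerBasis ℚ).equivOfMinpoly_gen (hζc.powerBasis ℚ) hmin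
  rwa [IsPrimitiveRoot.powerBasis_gen, IsPrimitiveRoot.powerBasis_gen] at this

lemma algEquiv_ext_of_apply_zeta {ζ : K} (hζ : IsPrimitiveRoot ζ p) {σ τ : K ≃ₐ[ℚ] K}
    (h : σ ζ = τ ζ) : σ = τ := by
  haveI : NeZero p := ⟨hp.out.ne_zero⟩
  have : (σ : K →ₐ[ℚ] K) = (τ : K →ₐ[ℚ] K) := by
    apply (hζ.powerBasis ℚ).algHom_ext
    rw [IsPrimitiveRoot.powerBasis_gen]
    exact h
  ext x
  exact congrArg (fun f : K →ₐ[ℚ] K => f x) this

end Jac

variable {p : ℕ} [Fact p.Prime] {K : Type*} [Field K] [NumberField K]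
  [IsCyclotomicExtension {p} ℚ K]

/-- `(J(χ_v, χ_v)) = ∏_{a < p/2} σ_a⁻¹ v` for a place `v` of degree one. -/
theorem exists_jacobi (hp : p ≠ 2) {ζ : K} (hζ : IsPrimitiveRoot ζ p) (v : Pl K) (q : ℕ)
    (hq : q.Prime) (hqp : q ≠ p) (hv : Ideal.absNorm v.asIdeal = q) :
    ∃ J : K, J ≠ 0 ∧ (∀ w : Pl K, ¬ Above q w → ord w J = 0) ∧
      ∀ (σ : K ≃ₐ[ℚ] K) (a : ℕ), 0 < a → a < p → σ ζ = ζ ^ a →
        ord (sigmaPl σ⁻¹ v) J = if 2 * a < p then 1 else 0 := by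
  classical
  have hpp : p.Prime := Fact.out
  haveI : NeZero p := ⟨hpp.ne_zero⟩
  haveI : v.asIdeal.IsMaximal := v.isMaximal
  haveI : Finite (𝓞 K ⧸ v.asIdeal) :=
    (Ideal.absNorm_ne_zero_iff _).mp (by rw [hv]; exact hq.ne_zero)
  letI : Fintype (𝓞 K ⧸ v.asIdeal) := Fintype.ofFinite _
  have hcard : Fintype.card (𝓞 K ⧸ v.asIdeal) = q := by
    rw [← hv, Ideal.absNorm_apply, Submodule.cardQuot_apply, Nat.card_eq_fintype_card]
  have hpq : (p : 𝓞 K) ∉ v.asIdeal := Jac.natCast_notMem_of_absNorm v hq hqp hv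
  have hζ' : IsPrimitiveRoot hζ.toInteger p := hζ.toInteger_isPrimitiveRoot
  obtain ⟨χ, hχ, hχp⟩ := Jac.exists_residueChar v.asIdeal hζ' hpq
  -- a choice of the `σ_c`
  have hex : ∀ c : ℕ, ∃ τ : K ≃ₐ[ℚ] K, 1 ≤ c → c < p → τ ζ = ζ ^ c := by
    intro c
    by_cases h : 1 ≤ c ∧ c < p
    · obtain ⟨τ, hτ⟩ := Jac.exists_algEquiv_pow hζ h.1 h.2
      exact ⟨τ, fun _ _ => hτ⟩
    · exact ⟨1, fun h1 h2 => absurd ⟨h1, h2⟩ h⟩
  choose τ hτ using hex
  have hint : ∀ (σ : K ≃ₐ[ℚ] K) (c : ℕ), σ ζ = ζ ^ c →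
      Jac.intEquiv σ hζ.toInteger = hζ.toInteger ^ c := by
    intro σ c h
    apply RingOfIntegers.ext
    simpa using h
  -- the factorisation, for any admissible family
  have hfac : ∀ ρ : ℕ → K ≃ₐ[ℚ] K, (∀ c, 1 ≤ c → c < p → ρ c ζ = ζ ^ c) →
      Ideal.span {jacobiSum χ χ} =
        ∏ c ∈ Finset.Icc 1 ((p - 1) / 2), Ideal.comap (Jac.intEquiv (ρ c)) v.asIdeal :=
    fun ρ hρ => Jac.span_jacobiSum_eq_prod v.asIdeal hp hζ' hq hcard hpq hχ hχp
      (fun c => Jac.intEquiv (ρ c)) (fun c h1 h2 => hint _ _ (hρ c h1 h2))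
  have hne : ∀ (σ σ' : K ≃ₐ[ℚ] K) (c c' : ℕ), σ ζ = ζ ^ c → σ' ζ = ζ ^ c' → c < p → c' < p →
      Ideal.comap (Jac.intEquiv σ) v.asIdeal = Ideal.comap (Jac.intEquiv σ') v.asIdeal → c = c' := by
    intro σ σ' c c' h h' hc hc' heq
    by_contra hcc
    exact Jac.comap_ne_comap v.asIdeal hζ' hpq hq hcard (Jac.intEquiv σ : 𝓞 K →+* 𝓞 K)
      (Jac.intEquiv σ' : 𝓞 K →+* 𝓞 K) (hint _ _ h) (hint _ _ h') hc hc' hcc heq
  have hmax : ∀ σ : K ≃ₐ[ℚ] K, (Ideal.comap (Jac.intEquiv σ) v.asIdeal).IsMaximal :=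
    fun σ => inferInstance
  have hJ0 : jacobiSum χ χ ≠ 0 := by
    intro h0
    have := hfac τ hτ
    rw [h0, Ideal.span_singleton_eq_bot.mpr rfl] at this
    have h2 := Finset.prod_eq_zero_iff.mp this.symm
    obtain ⟨c, -, hc⟩ := h2
    have h3 : Ideal.absNorm (Ideal.comap (Jac.intEquiv (τ c)) v.asIdeal) = q :=
      (Jac.absNorm_comap_ringEquiv _ _).trans hv
    rw [hc, Ideal.zero_eq_bot, Ideal.absNorm_bot] at h3
    exact hq.ne_zero h3.symm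
  have hrange : ∀ c ∈ Finset.Icc 1 ((p - 1) / 2), 1 ≤ c ∧ c < p ∧ 2 * c < p := by
    intro c hc
    rw [Finset.mem_Icc] at hc
    have := hpp.two_le
    omega
  have hinj : ∀ ρ : ℕ → K ≃ₐ[ℚ] K, (∀ c, 1 ≤ c → c < p → ρ c ζ = ζ ^ c) →
      ∀ i ∈ Finset.Icc 1 ((p - 1) / 2), ∀ j ∈ Finset.Icc 1 ((p - 1) / 2),
        Ideal.comap (Jac.intEquiv (ρ i)) v.asIdeal = Ideal.comap (Jac.intEquiv (ρ j)) v.asIdeal → i = j :=
    fun ρ hρ i hi j hj h => hne _ _ i j (hρ i (hrange i hi).1 (hrange i hi).2.1)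
      (hρ j (hrange j hj).1 (hrange j hj).2.1) (hrange i hi).2.1 (hrange j hj).2.1 h
  refine ⟨(jacobiSum χ χ : 𝓞 K), ?_, ?_, ?_⟩
  · exact fun h => hJ0 (RingOfIntegers.coe_injective (by simpa using h))
  · intro w hw
    refine (Jac.ord_of_span_eq_prod w _ _ (fun c _ => hmax (τ c)) (hinj τ hτ) hJ0 (hfac τ hτ)).2 ?_
    rintro ⟨c, -, hc⟩
    apply hw
    rw [Above, ← hc, Ideal.mem_comap, map_natCast]
    exact hv ▸ Ideal.absNorm_mem v.asIdeal
  · intro σ a ha0 hap hσ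
    -- use the family which is `σ` at `a`
    let ρ : ℕ → K ≃ₐ[ℚ] K := fun c => if c = a then σ else τ c
    have hρ : ∀ c, 1 ≤ c → c < p → ρ c ζ = ζ ^ c := by
      intro c h1 h2
      by_cases hca : c = a
      · simp only [ρ, hca, if_true]; exact hσ
      · simp only [ρ, hca, if_false]; exact hτ c h1 h2
    have hρa : ρ a = σ := by simp [ρ]
    have key := Jac.ord_of_span_eq_prod (sigmaPl σ⁻¹ v) _ _ (fun c _ => hmax (ρ c)) (hinj ρ hρ) hJ0
      (hfac ρ hρ)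
    rw [Jac.sigmaPl_inv_asIdeal_comap] at key
    split_ifs with h2a
    · refine key.1 ⟨a, ?_, by rw [hρa]⟩
      rw [Finset.mem_Icc]
      omega
    · refine key.2 ?_
      rintro ⟨c, hc, hcc⟩
      have := hne _ _ c a (hρ c (hrange c hc).1 (hrange c hc).2.1) hσ (hrange c hc).2.1 hap hcc
      have := (hrange c hc).2.2
      omega

/-- For a place of degree one the Galois conjugates are pairwise distinct. -/
theorem sigmaPl_injective_of_degree_one (v : Pl K) (q : ℕ) (hq : q.Prime) (hqp : q ≠ p)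
    (hv : Ideal.absNorm v.asIdeal = q) : Function.Injective fun σ : K ≃ₐ[ℚ] K => sigmaPl σ v := by
  classical
  have hpp : p.Prime := Fact.out
  haveI : NeZero p := ⟨hpp.ne_zero⟩
  intro σ σ' h
  have h' : (sigmaPl σ v).asIdeal = (sigmaPl σ' v).asIdeal := congrArg (·.asIdeal) h
  rw [Jac.sigmaPl_asIdeal_comap, Jac.sigmaPl_asIdeal_comap] at h'
  have hζ : IsPrimitiveRoot (IsCyclotomicExtension.zeta p ℚ K) p :=
    IsCyclotomicExtension.zeta_spec p ℚ K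
  set ζ := IsCyclotomicExtension.zeta p ℚ K
  haveI : v.asIdeal.IsMaximal := v.isMaximal
  haveI : Finite (𝓞 K ⧸ v.asIdeal) :=
    (Ideal.absNorm_ne_zero_iff _).mp (by rw [hv]; exact hq.ne_zero)
  letI : Fintype (𝓞 K ⧸ v.asIdeal) := Fintype.ofFinite _
  have hcard : Fintype.card (𝓞 K ⧸ v.asIdeal) = q := by
    rw [← hv, Ideal.absNorm_apply, Submodule.cardQuot_apply, Nat.card_eq_fintype_card]
  have hpq : (p : 𝓞 K) ∉ v.asIdeal := Jac.natCast_notMem_of_absNorm v hq hqp hv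
  have hζ' : IsPrimitiveRoot hζ.toInteger p := hζ.toInteger_isPrimitiveRoot
  obtain ⟨a, -, hap, ha⟩ := Jac.exists_pow_eq_apply hζ σ⁻¹
  obtain ⟨b, -, hbp, hb⟩ := Jac.exists_pow_eq_apply hζ σ'⁻¹
  have hint : ∀ (σ : K ≃ₐ[ℚ] K) (c : ℕ), σ ζ = ζ ^ c →
      Jac.intEquiv σ hζ.toInteger = hζ.toInteger ^ c := by
    intro σ c h
    apply RingOfIntegers.ext
    simpa using h
  have hab : a = b := by
    by_contra hne
    exact Jac.comap_ne_comap v.asIdeal hζ' hpq hq hcard (Jac.intEquiv σ⁻¹ : 𝓞 K →+* 𝓞 K)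
      (Jac.intEquiv σ'⁻¹ : 𝓞 K →+* 𝓞 K) (hint _ _ ha) (hint _ _ hb) hap hbp hne h'
  have : σ⁻¹ = σ'⁻¹ := Jac.algEquiv_ext_of_apply_zeta hζ (by rw [ha, hb, hab])
  exact inv_injective this

end Fermat.Agent.S14
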