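import Fermat.Agent.S14.Basic

set_option autoImplicit false

/-!
# S14 / KUM: Kummer extensions `M = K(B)`, `B ^ p = y`, of prime degree `p`

Global (field-theoretic) facts.
-/

namespace Fermat.Agent.S14

open IsDedekindDomain NumberField Finset

universe u

/-- `M = K(B)` with `B ^ p = y`, `[M : K] = p`, and `τ` is the generator of `Gal(M/K)` with
`τ B = ζ B`.  (`y_ne` excludes the degenerate `B = 0`, `y = 0`.) -/
structure IsKummer (p : ℕ) {K M : Type*} [Field K] [Field M] [Algebra K M] (ζ y : K) (B : M)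
    (τ : M ≃ₐ[K] M) : Prop where
  prim : IsPrimitiveRoot ζ p
  B_pow : B ^ p = algebraMap K M y
  tau_B : τ B = algebraMap K M ζ * B
  finrank_eq : Module.finrank K M = p
  isGalois : IsGalois K M
  gen : ∀ σ : M ≃ₐ[K] M, ∃ i, i < p ∧ σ = τ ^ i
  y_ne : y ≠ 0

section field

variable {p : ℕ} [Fact p.Prime] {K M : Type*} [Field K] [Field M] [Algebra K M] {ζ y : K} {B : M}
  {τ : M ≃ₐ[K] M}

namespace IsKummer

lemma finiteDimensional (h : IsKummer p ζ y B τ) : FiniteDimensional K M := by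
  apply FiniteDimensional.of_finrank_pos
  rw [h.finrank_eq]
  exact (Fact.out : p.Prime).pos

lemma tau_pow_B (h : IsKummer p ζ y B τ) (i : ℕ) :
    (τ ^ i) B = algebraMap K M (ζ ^ i) * B := by
  induction i with
  | zero => simp
  | succ i ih =>
    rw [pow_succ', AlgEquiv.mul_apply, ih, map_mul, AlgEquiv.commutes, h.tau_B, pow_succ, map_mul]
    ring

lemma tau_pow_p (h : IsKummer p ζ y B τ) : τ ^ p = 1 := by
  haveI := h.finiteDimensional
  haveI := h.isGalois
  have hc : Nat.card (M ≃ₐ[K] M) = p := by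
    rw [IsGalois.card_aut_eq_finrank, h.finrank_eq]
  rw [← hc]
  exact pow_card_eq_one'

lemma y_ne_zero (h : IsKummer p ζ y B τ) : y ≠ 0 := h.y_ne

lemma B_ne_zero (h : IsKummer p ζ y B τ) : B ≠ 0 := by
  intro hB
  have h1 := h.B_pow
  rw [hB, zero_pow (Fact.out : p.Prime).ne_zero] at h1
  exact h.y_ne ((map_eq_zero (algebraMap K M)).1 h1.symm)

lemma zeta_ne_one (h : IsKummer p ζ y B τ) : ζ ≠ 1 :=
  h.prim.ne_one (Fact.out : p.Prime).one_lt

/-- `B ∉ K`. -/
lemma B_ne_algebraMap (h : IsKummer p ζ y B τ) (c : K) : B ≠ algebraMap K M c := by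
  intro hB
  have h1 := h.tau_B
  have h2 : τ B = B := by rw [hB, AlgEquiv.commutes]
  rw [h2] at h1
  have h3 : algebraMap K M ζ = 1 := by
    have := mul_right_cancel₀ h.B_ne_zero ((one_mul B).trans h1)
    exact this.symm
  apply h.zeta_ne_one
  apply (algebraMap K M).injective
  rw [h3, map_one]

lemma not_isPPow (h : IsKummer p ζ y B τ) : ¬ IsPPow p y := by
  rintro ⟨c, hc⟩
  have hp : 0 < p := (Fact.out : p.Prime).pos
  have hc0 : c ≠ 0 := by
    rintro rfl
    rw [zero_pow hp.ne'] at hc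
    exact h.y_ne hc.symm
  have hc0' : algebraMap K M c ≠ 0 := (map_ne_zero (algebraMap K M)).2 hc0
  have hprim : IsPrimitiveRoot (algebraMap K M ζ) p :=
    h.prim.map_of_injective (algebraMap K M).injective
  have h1 : (B / algebraMap K M c) ^ p = 1 := by
    rw [div_pow, h.B_pow, ← hc, map_pow, div_self (pow_ne_zero _ hc0')]
  haveI : NeZero p := ⟨hp.ne'⟩
  obtain ⟨i, -, hi⟩ := hprim.eq_pow_of_pow_eq_one h1
  apply h.B_ne_algebraMap (ζ ^ i * c)
  rw [map_mul, map_pow, hi, div_mul_cancel₀ _ hc0']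

/-- Galois descent. -/
lemma exists_of_tau_eq (h : IsKummer p ζ y B τ) {z : M} (hz : τ z = z) :
    ∃ x : K, algebraMap K M x = z := by
  haveI := h.finiteDimensional
  haveI := h.isGalois
  have hpow : ∀ i : ℕ, (τ ^ i) z = z := by
    intro i
    induction i with
    | zero => simp
    | succ i ih => rw [pow_succ', AlgEquiv.mul_apply, ih, hz]
  have : z ∈ (⊥ : IntermediateField K M) := by
    rw [IsGalois.mem_bot_iff_fixed]
    intro σ
    obtain ⟨i, -, rfl⟩ := h.gen σ
    exact hpow i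
  exact IntermediateField.mem_bot.1 this

lemma tau_ne_one (h : IsKummer p ζ y B τ) : τ ≠ 1 := by
  intro h1
  have h2 := h.tau_B
  rw [h1, AlgEquiv.one_apply] at h2
  have h3 : algebraMap K M ζ = 1 :=
    (mul_right_cancel₀ h.B_ne_zero ((one_mul B).trans h2)).symm
  apply h.zeta_ne_one
  apply (algebraMap K M).injective
  rw [h3, map_one]

lemma orderOf_tau (h : IsKummer p ζ y B τ) : orderOf τ = p :=
  orderOf_eq_prime h.tau_pow_p h.tau_ne_one

lemma prod_aut_eq (h : IsKummer p ζ y B τ) [Fintype (M ≃ₐ[K] M)] (f : (M ≃ₐ[K] M) → M) :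
    ∏ σ : M ≃ₐ[K] M, f σ = ∏ i ∈ range p, f (τ ^ i) := by
  symm
  refine Finset.prod_bij (fun i _ => τ ^ i) (fun _ _ => Finset.mem_univ _) ?_ ?_ (fun _ _ => rfl)
  · intro i hi j hj hij
    have hinj := pow_injOn_Iio_orderOf (x := τ)
    rw [h.orderOf_tau] at hinj
    exact hinj (Finset.mem_range.1 hi) (Finset.mem_range.1 hj) hij
  · intro σ _
    obtain ⟨i, hi, rfl⟩ := h.gen σ
    exact ⟨i, Finset.mem_range.2 hi, rfl⟩

lemma algebraMap_norm (h : IsKummer p ζ y B τ) (z : M) :
    algebraMap K M (Algebra.norm K z) = ∏ i ∈ range p, (τ ^ i) z := by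
  haveI := h.finiteDimensional
  haveI := h.isGalois
  rw [Algebra.norm_eq_prod_automorphisms, h.prod_aut_eq (fun σ => σ z)]

lemma norm_algebraMap (h : IsKummer p ζ y B τ) (x : K) :
    Algebra.norm K (algebraMap K M x) = x ^ p := by
  rw [Algebra.norm_algebraMap, h.finrank_eq]

lemma prod_zeta_pow (h : IsKummer p ζ y B τ) (hp : p ≠ 2) : ∏ i ∈ range p, ζ ^ i = 1 := by
  rw [Finset.prod_pow_eq_pow_sum]
  have hodd : Odd p := (Fact.out : p.Prime).odd_of_ne_two hp
  obtain ⟨k, hk⟩ := hodd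
  have h2 : (∑ i ∈ range p, i) = p * k := by
    have := Finset.sum_range_id_mul_two p
    have h3 : p - 1 = 2 * k := by omega
    rw [h3] at this
    have h4 : (∑ i ∈ range p, i) * 2 = (p * k) * 2 := by rw [this]; ring
    exact Nat.eq_of_mul_eq_mul_right (by norm_num) h4
  rw [h2, pow_mul, h.prim.pow_eq_one, one_pow]

lemma norm_B (h : IsKummer p ζ y B τ) (hp : p ≠ 2) : Algebra.norm K B = y := by
  apply (algebraMap K M).injective
  rw [h.algebraMap_norm]
  simp_rw [h.tau_pow_B]
  rw [Finset.prod_mul_distrib, Finset.prod_const, Finset.card_range, h.B_pow, ← map_prod,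
    h.prod_zeta_pow hp, map_one, one_mul]

lemma norm_tau (h : IsKummer p ζ y B τ) (z : M) : Algebra.norm K (τ z) = Algebra.norm K z :=
  Algebra.norm_eq_of_algEquiv τ z

/-- `∏ (B - ζ^i c) = y - c^p`. -/
lemma prod_B_sub (h : IsKummer p ζ y B τ) (c : K) :
    ∏ i ∈ range p, (B - algebraMap K M (ζ ^ i * c)) = algebraMap K M (y - c ^ p) := by
  have hprim : IsPrimitiveRoot (algebraMap K M ζ) p :=
    h.prim.map_of_injective (algebraMap K M).injective
  have h1 := X_pow_sub_C_eq_prod hprim (Fact.out : p.Prime).pos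
    (rfl : (algebraMap K M c) ^ p = (algebraMap K M c) ^ p)
  have h2 := congrArg (Polynomial.eval B) h1
  simp only [Polynomial.eval_sub, Polynomial.eval_pow, Polynomial.eval_X, Polynomial.eval_C,
    Polynomial.eval_prod] at h2
  rw [map_sub, map_pow, ← h.B_pow, h2]
  refine Finset.prod_congr rfl fun i _ => ?_
  rw [map_mul, map_pow]

/-- Changing `y` by a `p`-th power. -/
lemma scale (h : IsKummer p ζ y B τ) {c : K} (hc : c ≠ 0) :
    IsKummer p ζ (y / c ^ p) (B / algebraMap K M c) τ where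
  prim := h.prim
  B_pow := by rw [div_pow, h.B_pow, map_div₀, map_pow]
  tau_B := by rw [map_div₀, AlgEquiv.commutes, h.tau_B, mul_div_assoc]
  finrank_eq := h.finrank_eq
  isGalois := h.isGalois
  gen := h.gen
  y_ne := div_ne_zero h.y_ne (pow_ne_zero _ hc)

end IsKummer

end field

end Fermat.Agent.S14
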